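/-
Products of Riemann-Roch spaces and base point freeness.
-/
import Fermat.Agent.FF.RiemannRoch

/-!
Riemann-Roch spaces of large degree on a curve over an algebraically closed field:
`exists_exact_orders` (degree `≥ 2g`: exact orders at finitely many places),
`forall_mul_mem_L_iff` (multipliers of `L(A)` into `L(B)` form `L(B - A)`) and `mul_L_eq`
(`L(A) L(B) = L(A + B)`, by the base-point-free pencil trick).
-/

set_option autoImplicit false

noncomputable section

open AlgebraicCurve

namespace FLTAgent.FlatJ

open FF

variable {K F : Type*} [Field K] [Field F] [Algebra K F] [IsAlgClosed K] [IsFF K F]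

local notation "L(" D ")" => riemannRochSpace (K := K) (F := F) D

theorem mem_L_sub_single_iff {A : Divisor K F} {v : Place K F} {f : F} (hf : f ∈ L(A))
    (hf0 : f ≠ 0) : f ∈ L(A - Finsupp.single v 1) ↔ v.ord f ≠ -A v := by
  constructor
  · intro h heq
    have := ord_of_mem_riemannRochSpace h hf0 v
    simp only [Finsupp.sub_apply, Finsupp.single_eq_same] at this
    omega
  · intro hne
    refine mem_riemannRochSpace_of_ord fun w => ?_
    have h1 := ord_of_mem_riemannRochSpace hf hf0 w
    rcases eq_or_ne w v with rfl | hw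
    · simp only [Finsupp.sub_apply, Finsupp.single_eq_same]
      omega
    · simpa [Finsupp.single_eq_of_ne hw] using h1

theorem L_sub_single_lt {A : Divisor K F} (hA : 2 * (genusFF K F : ℤ) ≤ Divisor.degree A)
    (v : Place K F) : L(A - Finsupp.single v 1) < L(A) := by
  refine lt_of_le_of_ne (riemannRochSpace_mono (sub_le_self _ (Finsupp.single_nonneg.2 zero_le_one))) ?_
  intro heq
  have hd : Divisor.degree (A - Finsupp.single v 1) = Divisor.degree A - 1 := by
    rw [map_sub, degree_single_one]
  have h1 := ell_eq_of_large (D := A) (by omega)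
  have h2 := ell_eq_of_large (D := A - Finsupp.single v 1) (by omega)
  have : ell (A - Finsupp.single v 1) = ell A := by
    show Module.finrank K _ = Module.finrank K _
    rw [heq]
  omega

/-- In degree `≥ 2g` some element of `L(A)` has exact order `-A v` at each of finitely many
prescribed places. -/
theorem exists_exact_orders {A : Divisor K F} (hA : 2 * (genusFF K F : ℤ) ≤ Divisor.degree A)
    (S : Finset (Place K F)) : ∃ f ∈ L(A), f ≠ 0 ∧ ∀ v ∈ S, v.ord f = -A v := by
  classical
  obtain ⟨v₀⟩ := place_nonempty (K := K) (F := F)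
  set T := insert v₀ S
  have hp : ∀ v : T,
      (L(A - Finsupp.single (v : Place K F) 1)).comap (L(A)).subtype ≠ ⊤ := fun v h => by
    refine (L_sub_single_lt hA (v : Place K F)).not_ge fun f hf => ?_
    have : (⟨f, hf⟩ : L(A)) ∈ (L(A - Finsupp.single (v : Place K F) 1)).comap (L(A)).subtype :=
      h ▸ Submodule.mem_top
    exact this
  obtain ⟨⟨f, hf⟩, hf'⟩ := Submodule.exists_forall_notMem_of_forall_ne_top _ hp
  have hf0 : f ≠ 0 := fun h => hf' ⟨v₀, Finset.mem_insert_self _ _⟩ (by
    simp only [Submodule.mem_comap, Submodule.subtype_apply, h]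
    exact zero_mem _)
  refine ⟨f, hf, hf0, fun v hv => ?_⟩
  by_contra hne
  exact hf' ⟨v, Finset.mem_insert_of_mem hv⟩ ((mem_L_sub_single_iff hf hf0).2 hne)

/-- Base point freeness: multipliers of `L(A)` into `L(B)` form `L(B - A)`. -/
theorem forall_mul_mem_L_iff {A B : Divisor K F} (hA : 2 * (genusFF K F : ℤ) ≤ Divisor.degree A)
    {φ : F} : (∀ y ∈ L(A), φ * y ∈ L(B)) ↔ φ ∈ L(B - A) := by
  refine ⟨fun h => ?_, fun h y hy => by simpa using mul_mem_riemannRochSpace h hy⟩
  rcases eq_or_ne φ 0 with rfl | hφ
  · exact zero_mem _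
  refine mem_riemannRochSpace_of_ord fun v => ?_
  obtain ⟨f, hf, hf0, hv⟩ := exists_exact_orders hA {v}
  have := ord_of_mem_riemannRochSpace (h f hf) (mul_ne_zero hφ hf0) v
  rw [v.ord_mul hφ hf0, hv v (Finset.mem_singleton_self v)] at this
  simp only [Finsupp.sub_apply]
  omega

theorem mul_L_le (A B : Divisor K F) : L(A) * L(B) ≤ L(A + B) :=
  Submodule.mul_le.2 fun _ hf _ hg => mul_mem_riemannRochSpace hf hg

/-- The base-point-free pencil trick: `L(A) L(B) = L(A + B)`. -/
theorem mul_L_eq {A B : Divisor K F} (hA : 2 * (genusFF K F : ℤ) ≤ Divisor.degree A)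
    (hB : 2 * (genusFF K F : ℤ) - 1 ≤ Divisor.degree B - Divisor.degree A) :
    L(A) * L(B) = L(A + B) := by
  classical
  obtain ⟨s, hs, hs0, -⟩ := exists_exact_orders hA ∅
  obtain ⟨S, hS, -⟩ := exists_div (K := K) hs0
  obtain ⟨t, ht, ht0, htS⟩ := exists_exact_orders hA (S + A).support
  let ψ : L(B) × L(B) →ₗ[K] F :=
    ((LinearMap.mulLeft K s).comp (L(B)).subtype).coprod ((LinearMap.mulLeft K t).comp (L(B)).subtype)
  have hψapp : ∀ p, ψ p = s * (p.1 : F) + t * (p.2 : F) := fun p => rfl
  have hrange : LinearMap.range ψ ≤ L(A) * L(B) := by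
    rintro _ ⟨p, rfl⟩
    exact add_mem (Submodule.mul_mem_mul hs p.1.2) (Submodule.mul_mem_mul ht p.2.2)
  have hker : Module.finrank K (LinearMap.ker ψ) ≤ ell (B - A) := by
    let φ : LinearMap.ker ψ →ₗ[K] L(B - A) :=
      LinearMap.codRestrict _ (((LinearMap.mulLeft K t⁻¹).comp
        ((L(B)).subtype.comp (LinearMap.fst K _ _))).comp (LinearMap.ker ψ).subtype) fun p => by
        show t⁻¹ * ((p : L(B) × L(B)).1 : F) ∈ L(B - A)
        have hp : s * ((p : L(B) × L(B)).1 : F) + t * ((p : L(B) × L(B)).2 : F) = 0 := by
          have := p.2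
          rw [LinearMap.mem_ker, hψapp] at this
          exact this
        set f := ((p : L(B) × L(B)).1 : F) with hf
        set f' := ((p : L(B) × L(B)).2 : F) with hf'
        rcases eq_or_ne f 0 with h0 | h0
        · rw [h0, mul_zero]; exact zero_mem _
        refine mem_riemannRochSpace_of_ord fun v => ?_
        rw [v.ord_mul (inv_ne_zero ht0) h0, v.ord_inv, Finsupp.sub_apply]
        have h1 := ord_of_mem_riemannRochSpace (p : L(B) × L(B)).1.2 h0 v
        by_cases hv : v ∈ (S + A).support
        · rw [htS v hv, ← hf] at *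
          omega
        · have hsv : v.ord s = -A v := by
            have := Finsupp.notMem_support_iff.1 hv
            simp only [Finsupp.add_apply, hS v] at this
            omega
          have h0' : f' ≠ 0 := fun h => by
            rw [h, mul_zero, add_zero] at hp
            exact mul_ne_zero hs0 h0 hp
          have h2 := ord_of_mem_riemannRochSpace (p : L(B) × L(B)).2.2 h0' v
          have heq : s * f = -(t * f') := eq_neg_of_add_eq_zero_left hp
          have hord := congrArg v.ord heq
          rw [FF.ord_neg, v.ord_mul hs0 h0, v.ord_mul ht0 h0', hsv] at hord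
          rw [← hf'] at h2
          omega
    refine LinearMap.finrank_le_finrank_of_injective (f := φ) fun p q h => ?_
    have h1 : ((p : L(B) × L(B)).1 : F) = ((q : L(B) × L(B)).1 : F) :=
      mul_left_cancel₀ (inv_ne_zero ht0) (congrArg Subtype.val h)
    have hp := p.2
    have hq := q.2
    rw [LinearMap.mem_ker, hψapp] at hp hq
    rw [h1] at hp
    refine Subtype.ext (Prod.ext (Subtype.ext h1) (Subtype.ext ?_))
    exact mul_left_cancel₀ ht0 (add_left_cancel (hp.trans hq.symm))
  refine le_antisymm (mul_L_le A B) ?_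
  have hrn := LinearMap.finrank_range_add_finrank_ker ψ
  rw [Module.finrank_prod] at hrn
  change Module.finrank K (LinearMap.range ψ) + _ = ell B + ell B at hrn
  have hBA : Divisor.degree (B - A) = Divisor.degree B - Divisor.degree A := by rw [map_sub]
  have hAB : Divisor.degree (A + B) = Divisor.degree A + Divisor.degree B := by rw [map_add]
  have e1 := ell_eq_of_large (D := B) (by omega)
  have e2 := ell_eq_of_large (D := B - A) (by omega)
  have e3 := ell_eq_of_large (D := A + B) (by omega)
  have heq : LinearMap.range ψ = L(A + B) :=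
    Submodule.eq_of_le_of_finrank_le (hrange.trans (mul_L_le A B)) (by
      change ell (A + B) ≤ _
      omega)
  exact heq ▸ hrange

end FLTAgent.FlatJ
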