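/-
The linear algebra of the addition of divisor classes on one curve.
-/
import Fermat.Agent.FlatJ.Span

/-!
Addition of classes as linear algebra, on one curve (generic or special fibre). With `D` big,
`D₀`, `E`, `E'` of degree `g` and `u` a nonzero function: `line_condition` cuts out the line
`u L(3D₀ - E - E')` inside `L(5D)`, and `sum_condition` cuts out `L(D - E'')` for the divisor
`E''` of the sum, both by membership in images of spaces `L(j D - ..)`; `eq_of_L_sub_eq` says
that `L(D - E)` determines `E`. Everything follows from `Span`.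
-/

set_option autoImplicit false

noncomputable section

open AlgebraicCurve

namespace FLTAgent.FlatJ

open FF

variable {K F : Type*} [Field K] [Field F] [Algebra K F] [IsAlgClosed K] [IsFF K F]

local notation "L(" D ")" => riemannRochSpace (K := K) (F := F) D

/-- The degree of `D` is large compared with the genus. -/
def BigDeg (D : Divisor K F) : Prop := 4 * (genusFF K F : ℤ) + 2 ≤ Divisor.degree D

section Chains

variable {D E E' : Divisor K F} (hD : BigDeg D)
  (hE : Divisor.degree E = (genusFF K F : ℤ)) (hE' : Divisor.degree E' = (genusFF K F : ℤ))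

include hD hE hE' in
/-- `L(D-E) L(3D) L(D-E') = L(5D-E-E')`. -/
theorem mul_mul_eq_L5 :
    (L(D - E) * L((3 : ℤ) • D)) * L(D - E') = L((5 : ℤ) • D - E - E') := by
  unfold BigDeg at hD
  have h1 : L(D - E) * L((3 : ℤ) • D) = L((4 : ℤ) • D - E) := by
    rw [mul_L_eq (by rw [map_sub]; omega)
      (by rw [map_sub, map_zsmul, smul_eq_mul]; omega)]
    congr 1; module
  rw [h1, mul_comm, mul_L_eq (by rw [map_sub]; omega)
    (by rw [map_sub, map_sub, map_zsmul, smul_eq_mul]; omega)]
  congr 1; module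

include hD hE in
/-- `L(D-E)^3 L(2D) = L(5D-3E)` and `L(D-E)^3 L(3D) = L(6D-3E)`. -/
theorem cube_mul_eq {j : ℤ} (hj : 2 ≤ j) :
    L(D - E) * (L(D - E) * (L(D - E) * L(j • D))) = L((j + 3) • D - (3 : ℤ) • E) := by
  unfold BigDeg at hD
  have hj2 : 2 * Divisor.degree D ≤ j * Divisor.degree D :=
    mul_le_mul_of_nonneg_right hj (by omega)
  rw [mul_L_eq (A := D - E) (B := j • D) (by rw [map_sub]; omega)
    (by rw [map_sub, map_zsmul, smul_eq_mul]; omega)]
  rw [mul_L_eq (A := D - E) (by rw [map_sub]; omega)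
    (by rw [map_add, map_sub, map_zsmul, smul_eq_mul]; omega)]
  rw [mul_L_eq (A := D - E) (by rw [map_sub]; omega)
    (by rw [map_add, map_add, map_sub, map_zsmul, smul_eq_mul]; omega)]
  congr 1; module

end Chains

section Line

variable {D D₀ E E' E'' : Divisor K F} {u φ : F}

/-- The conditions cutting out the line: functions `G` in `L(5D)` with
`G L(5D-3D₀) ⊆ u L(5D-E-E')` are the multiples of `u` by `L(3D₀-E-E')`. -/
theorem line_condition (hD : BigDeg D) (hD₀ : Divisor.degree D₀ = (genusFF K F : ℤ)) (hu : u ≠ 0)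
    {G : F} :
    (∀ z ∈ L((5 : ℤ) • D - (3 : ℤ) • D₀),
        G * z ∈ (L((5 : ℤ) • D - E - E')).map (LinearMap.mulLeft K u)) ↔
      G / u ∈ L((3 : ℤ) • D₀ - E - E') := by
  unfold BigDeg at hD
  have key : ∀ z : F, G * z ∈ (L((5 : ℤ) • D - E - E')).map (LinearMap.mulLeft K u) ↔
      G / u * z ∈ L((5 : ℤ) • D - E - E') := by
    intro z
    constructor
    · rintro ⟨y, hy, hy'⟩
      rw [LinearMap.mulLeft_apply] at hy'
      rwa [div_mul_eq_mul_div, ← hy', mul_div_cancel_left₀ _ hu]
    · intro h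
      exact ⟨_, h, by rw [LinearMap.mulLeft_apply]; field_simp⟩
  simp only [key]
  rw [forall_mul_mem_L_iff (by rw [map_sub, map_zsmul, map_zsmul, smul_eq_mul, smul_eq_mul]; omega)]
  refine iff_of_eq (congrArg (fun X => _ ∈ X) ?_)
  congr 1; module

theorem mem_L5_of_line (hE : 0 ≤ E) (hE' : 0 ≤ E') (hu : u ∈ L((5 : ℤ) • D - (3 : ℤ) • D₀))
    (hφ : φ ∈ L((3 : ℤ) • D₀ - E - E')) : u * φ ∈ L((5 : ℤ) • D) := by
  refine riemannRochSpace_mono ?_ (mul_mem_riemannRochSpace hu hφ)
  have : (5 : ℤ) • D - (3 : ℤ) • D₀ + ((3 : ℤ) • D₀ - E - E') = (5 : ℤ) • D - (E + E') := by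
    module
  rw [this]
  exact sub_le_self _ (add_nonneg hE hE')

/-- The conditions cutting out `L(D - E'')`. -/
theorem sum_condition (hD : BigDeg D)
    (hE : Divisor.degree E = (genusFF K F : ℤ)) (hE' : Divisor.degree E' = (genusFF K F : ℤ))
    (hu : u ≠ 0) (hφ : φ ≠ 0) (hdiv : ∀ v, E'' v = v.ord φ + 3 * D₀ v - E v - E' v) {h : F} :
    (∀ y ∈ L((5 : ℤ) • D - E - E'),
        h * y * u ∈ (L((6 : ℤ) • D - (3 : ℤ) • D₀)).map (LinearMap.mulLeft K (u * φ))) ↔
      h ∈ L(D - E'') := by
  unfold BigDeg at hD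
  have key : ∀ y : F,
      h * y * u ∈ (L((6 : ℤ) • D - (3 : ℤ) • D₀)).map (LinearMap.mulLeft K (u * φ)) ↔
      h / φ * y ∈ L((6 : ℤ) • D - (3 : ℤ) • D₀) := by
    intro y
    constructor
    · rintro ⟨z, hz, hz'⟩
      rw [LinearMap.mulLeft_apply] at hz'
      have : h / φ * y = z := by
        field_simp
        refine mul_left_cancel₀ hu ?_
        linear_combination -hz'
      rwa [this]
    · intro hm
      exact ⟨_, hm, by rw [LinearMap.mulLeft_apply]; field_simp⟩
  simp only [key]
  rw [forall_mul_mem_L_iff (by rw [map_sub, map_sub, map_zsmul, smul_eq_mul]; omega)]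
  rcases eq_or_ne h 0 with rfl | hh
  · simp
  have hne : h / φ ≠ 0 := div_ne_zero hh hφ
  have hord : ∀ v : Place K F, v.ord (h / φ) = v.ord h - v.ord φ := fun v => FF.ord_div v hh hφ
  constructor
  · intro hm
    refine mem_riemannRochSpace_of_ord fun v => ?_
    have := ord_of_mem_riemannRochSpace hm hne v
    simp only [Finsupp.sub_apply, Finsupp.smul_apply, smul_eq_mul, hdiv, hord] at this ⊢
    omega
  · intro hm
    refine mem_riemannRochSpace_of_ord fun v => ?_
    have := ord_of_mem_riemannRochSpace hm hh v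
    simp only [Finsupp.sub_apply, Finsupp.smul_apply, smul_eq_mul, hdiv, hord] at this ⊢
    omega

end Line

/-- `L(D - E)` determines `E` in large degree. -/
theorem le_of_L_sub_le {D E E' : Divisor K F}
    (hd : 2 * (genusFF K F : ℤ) ≤ Divisor.degree (D - E)) (h : L(D - E) ≤ L(D - E')) :
    E' ≤ E := by
  intro v
  obtain ⟨f, hf, hf0, hv⟩ := exists_exact_orders hd {v}
  have := ord_of_mem_riemannRochSpace (h hf) hf0 v
  rw [hv v (Finset.mem_singleton_self v)] at this
  simp only [Finsupp.sub_apply] at this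
  omega

theorem eq_of_L_sub_eq {D E E' : Divisor K F}
    (hd : 2 * (genusFF K F : ℤ) ≤ Divisor.degree (D - E)) (hdeg : Divisor.degree E = Divisor.degree E')
    (h : L(D - E) = L(D - E')) : E = E' :=
  le_antisymm (le_of_L_sub_le (by rwa [map_sub, ← hdeg, ← map_sub]) h.ge)
    (le_of_L_sub_le hd h.le)

end FLTAgent.FlatJ
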