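/-
Finite flat models over `ℤ_(ℓ)` of finite Galois modules: the predicate.
-/
import Mathlib
import Fermat.Prelude.Def_GaloisRep_Flat

/-!
`Qb = ℚ̄`, `GQ` its Galois group, and the two predicates studied in this directory for finite
Galois modules `G`: `HasModel ℓ G` (a finite flat cocommutative Hopf algebra over `ℤ_(ℓ)` whose
`ℚ̄`-points are `G`, equivariantly) and `HasModelRed ℓ G A R` (moreover, points related by `R`
reduce together at the place `A`); `HasModelRed.hasModel` forgets the relation.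
-/

set_option autoImplicit false

noncomputable section

namespace FLTAgent.FlatJ

/-- The algebraic closure of `ℚ`. -/
abbrev Qb : Type := AlgebraicClosure ℚ

/-- The absolute Galois group of `ℚ`. -/
abbrev GQ : Type := Qb ≃ₐ[ℚ] Qb

/-- `G` has a finite flat cocommutative Hopf model over `ℤ_(ℓ)`. -/
def HasModel (ℓ : ℕ) (G : Type*) [AddCommGroup G] [DistribMulAction GQ G] : Prop :=
  ∃ (H : Type) (_ : CommRing H) (_ : HopfAlgebra (GaloisRep.ratLocalizedAt ℓ) H),
    Module.Finite (GaloisRep.ratLocalizedAt ℓ) H ∧ Module.Flat (GaloisRep.ratLocalizedAt ℓ) H ∧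
    Coalgebra.IsCocomm (GaloisRep.ratLocalizedAt ℓ) H ∧
    ∃ e : WithConv (H →ₐ[GaloisRep.ratLocalizedAt ℓ] Qb) ≃ G,
      (∀ f g, e (f * g) = e f + e g) ∧
      ∀ (σ : GQ) (f g : WithConv (H →ₐ[GaloisRep.ratLocalizedAt ℓ] Qb)),
        (∀ h : H, g h = σ (f h)) → e g = σ • e f

/-- A model in which points related by `R` have the same reduction at the place `A`. -/
def HasModelRed (ℓ : ℕ) (G : Type*) [AddCommGroup G] [DistribMulAction GQ G]
    (A : ValuationSubring Qb) (R : G → G → Prop) : Prop :=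
  ∃ (H : Type) (_ : CommRing H) (_ : HopfAlgebra (GaloisRep.ratLocalizedAt ℓ) H),
    Module.Finite (GaloisRep.ratLocalizedAt ℓ) H ∧ Module.Flat (GaloisRep.ratLocalizedAt ℓ) H ∧
    Coalgebra.IsCocomm (GaloisRep.ratLocalizedAt ℓ) H ∧
    ∃ e : WithConv (H →ₐ[GaloisRep.ratLocalizedAt ℓ] Qb) ≃ G,
      (∀ f g, e (f * g) = e f + e g) ∧
      (∀ (σ : GQ) (f g : WithConv (H →ₐ[GaloisRep.ratLocalizedAt ℓ] Qb)),
        (∀ h : H, g h = σ (f h)) → e g = σ • e f) ∧
      ∀ f g : WithConv (H →ₐ[GaloisRep.ratLocalizedAt ℓ] Qb), R (e f) (e g) →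
        ∀ h : H, A.valuation (f h - g h) < 1

theorem HasModelRed.hasModel {ℓ : ℕ} {G : Type*} [AddCommGroup G] [DistribMulAction GQ G]
    {A : ValuationSubring Qb} {R : G → G → Prop} (h : HasModelRed ℓ G A R) : HasModel ℓ G := by
  obtain ⟨H, i1, i2, hfin, hflat, hco, e, hadd, hgal, -⟩ := h
  exact ⟨H, i1, i2, hfin, hflat, hco, e, hadd, hgal⟩

end FLTAgent.FlatJ
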