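/-
The base ring `ℤ_(ℓ)`, integral subrings of `ℚ̄` and their places.
-/
import Mathlib
import Fermat.Agent.GalCommon.Basic
import Fermat.Agent.FlatJ.Defs

/-!
`Rl ℓ = ℤ_(ℓ) ⊆ ℚ` is a principal ideal ring with uniformiser `ℓ`. Elements of `ℚ̄` integral
over it lie in every place over `ℓ` (`mem_of_isIntegral_Rl`), Galois fixed elements of such a
place come from `Rl ℓ` (`exists_Rl_of_fixed`), and a proper ideal of a finite subalgebra of `ℚ̄`
is small at some place over `ℓ` (`exists_place_of_ne_top`, by extending to a valuation ring).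
-/

set_option autoImplicit false

noncomputable section

namespace FLTAgent.FlatJ

open GaloisRep

/-- Abbreviation for the base ring. -/
abbrev Rl (ℓ : ℕ) : Subring ℚ := ratLocalizedAt ℓ

variable {ℓ : ℕ}

theorem mem_Rl_iff {q : ℚ} : q ∈ Rl ℓ ↔ q.den.Coprime ℓ := Iff.rfl

theorem intCast_mem_Rl (n : ℤ) : (n : ℚ) ∈ Rl ℓ := intCast_mem _ n

instance isPrincipalIdealRing_Rl : IsPrincipalIdealRing (Rl ℓ) := by
  refine ⟨fun I => ?_⟩
  obtain ⟨m, hm⟩ := (IsPrincipalIdealRing.principal (I.comap (Int.castRingHom (Rl ℓ)))).principal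
  refine ⟨⟨(m : Rl ℓ), le_antisymm (fun q hq => ?_) ?_⟩⟩
  · have hnum : ((q : ℚ).num : Rl ℓ) = q * ((q : ℚ).den : Rl ℓ) := Subtype.ext (by
      push_cast
      exact (Rat.mul_den_eq_num _).symm)
    have h : (q : ℚ).num ∈ I.comap (Int.castRingHom (Rl ℓ)) := by
      rw [Ideal.mem_comap, eq_intCast, hnum]
      exact I.mul_mem_right _ hq
    rw [hm, Submodule.mem_span_singleton] at h
    obtain ⟨a, ha⟩ := h
    have hinv : ((q : ℚ).den : ℚ)⁻¹ ∈ Rl ℓ := by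
      rw [mem_Rl_iff, Rat.inv_natCast_den, if_neg (q : ℚ).den_nz]
      exact q.2
    rw [Submodule.mem_span_singleton]
    refine ⟨(a : Rl ℓ) * ⟨_, hinv⟩, Subtype.ext ?_⟩
    have ha' : (a : ℚ) * (m : ℚ) = ((q : ℚ).num : ℚ) := by exact_mod_cast ha
    show (a : ℚ) * ((q : ℚ).den : ℚ)⁻¹ * (m : ℚ) = (q : ℚ)
    rw [mul_right_comm, ha', ← div_eq_mul_inv, Rat.num_div_den]
  · rw [Submodule.span_singleton_le_iff_mem]
    have : m ∈ I.comap (Int.castRingHom (Rl ℓ)) := hm ▸ Submodule.mem_span_singleton_self m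
    simpa [Ideal.mem_comap] using this

theorem algebraMap_Rl_apply (r : Rl ℓ) : algebraMap (Rl ℓ) Qb r = algebraMap ℚ Qb (r : ℚ) := rfl

theorem algebraMap_Rl_injective : Function.Injective (algebraMap (Rl ℓ) Qb) := fun _ _ h =>
  Subtype.ext ((algebraMap ℚ Qb).injective h)

instance isTorsionFree_Rl_Qb : Module.IsTorsionFree (Rl ℓ) Qb :=
  Module.isTorsionFree_iff_algebraMap_injective.2 algebraMap_Rl_injective

variable [Fact ℓ.Prime]

theorem natCast_not_isUnit_Rl : ¬ IsUnit ((ℓ : Rl ℓ)) := by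
  intro h
  obtain ⟨u, hu⟩ := h.exists_right_inv
  have hu' : (ℓ : ℚ) * (u : ℚ) = 1 := by exact_mod_cast congrArg Subtype.val hu
  have hval : (u : ℚ) = (ℓ : ℚ)⁻¹ := eq_inv_of_mul_eq_one_right hu'
  have hmem := u.2
  rw [hval, mem_Rl_iff, Rat.inv_natCast_den, if_neg (Fact.out : ℓ.Prime).ne_zero,
    Nat.coprime_self] at hmem
  exact (Fact.out : ℓ.Prime).one_lt.ne' hmem

theorem isUnit_iff_not_dvd_Rl (q : Rl ℓ) : IsUnit q ↔ ¬ (ℓ : ℤ) ∣ (q : ℚ).num := by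
  constructor
  · rintro h ⟨a, ha⟩
    refine natCast_not_isUnit_Rl (ℓ := ℓ) (isUnit_of_mul_isUnit_left
      (y := (a : Rl ℓ)) ?_)
    have : (ℓ : Rl ℓ) * (a : Rl ℓ) = q * ((q : ℚ).den : Rl ℓ) := Subtype.ext (by
      push_cast
      rw [Rat.mul_den_eq_num, ha]
      push_cast; ring)
    rw [this]
    refine h.mul (IsUnit.of_mul_eq_one ⟨((q : ℚ).den : ℚ)⁻¹, by
      rw [mem_Rl_iff, Rat.inv_natCast_den, if_neg (q : ℚ).den_nz]
      exact q.2⟩ (Subtype.ext ?_))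
    show ((((q : ℚ).den : Rl ℓ)) : ℚ) * ((q : ℚ).den : ℚ)⁻¹ = 1
    push_cast
    exact mul_inv_cancel₀ (Nat.cast_ne_zero.2 (q : ℚ).den_nz)
  · intro h
    have hnum : ((q : ℚ)⁻¹).den.Coprime ℓ := by
      have hne : (q : ℚ).num ≠ 0 := fun h0 => h (h0 ▸ dvd_zero _)
      rw [Rat.den_inv, if_neg hne, Nat.coprime_comm, (Fact.out : ℓ.Prime).coprime_iff_not_dvd]
      exact fun hd => h (Int.natCast_dvd.2 hd)
    have hne : (q : ℚ) ≠ 0 := fun h0 => h (by simp [h0])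
    exact IsUnit.of_mul_eq_one ⟨_, hnum⟩ (Subtype.ext (mul_inv_cancel₀ hne))

theorem dvd_of_not_isUnit_Rl {q : Rl ℓ} (h : ¬ IsUnit q) : (ℓ : Rl ℓ) ∣ q := by
  rw [isUnit_iff_not_dvd_Rl, not_not] at h
  obtain ⟨a, ha⟩ := h
  refine ⟨(a : Rl ℓ) * ⟨((q : ℚ).den : ℚ)⁻¹, by
    rw [mem_Rl_iff, Rat.inv_natCast_den, if_neg (q : ℚ).den_nz]; exact q.2⟩, Subtype.ext ?_⟩
  have ha' : ((q : ℚ).num : ℚ) = (ℓ : ℚ) * (a : ℚ) := by exact_mod_cast ha
  show (q : ℚ) = _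
  push_cast
  rw [← mul_assoc, ← ha', ← div_eq_mul_inv, Rat.num_div_den]

variable {A : ValuationSubring Qb}

theorem natCast_mem_maximalIdeal (hA : A.LiesOverPrime ℓ) : (ℓ : Qb) ∈ A.nonunits :=
  (GalCommon.natCast_mem_nonunits_iff (Fact.out : ℓ.Prime) hA ℓ).2 dvd_rfl

theorem algebraMap_Rl_mem (hA : A.LiesOverPrime ℓ) (r : Rl ℓ) : algebraMap (Rl ℓ) Qb r ∈ A := by
  have hden : ¬ ℓ ∣ (r : ℚ).den := fun h =>
    (Fact.out : ℓ.Prime).ne_one (Nat.Coprime.eq_one_of_dvd (Nat.Coprime.symm r.2) h)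
  have h1 : ((r : ℚ).den : Qb) ∉ A.nonunits := fun h =>
    hden ((GalCommon.natCast_mem_nonunits_iff (Fact.out : ℓ.Prime) hA _).1 h)
  rw [ValuationSubring.mem_nonunits_iff_or, not_or, not_not] at h1
  rw [algebraMap_Rl_apply, ← Rat.num_div_den (r : ℚ), map_div₀, map_intCast, map_natCast,
    div_eq_mul_inv]
  exact mul_mem (intCast_mem _ _) h1.2

theorem mem_of_isIntegral_Rl (hA : A.LiesOverPrime ℓ) {x : Qb} (hx : IsIntegral (Rl ℓ) x) :
    x ∈ A := by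
  obtain ⟨p, hp, hpx⟩ := hx
  let φ : Rl ℓ →+* A := (algebraMap (Rl ℓ) Qb).codRestrict A.toSubring (algebraMap_Rl_mem hA)
  have h : IsIntegral A x := ⟨p.map φ, hp.map φ, by
    rw [Polynomial.eval₂_map]
    exact hpx⟩
  obtain ⟨y, hy⟩ := IsIntegrallyClosed.isIntegral_iff.mp h
  exact hy ▸ y.2

/-- A rational algebraic number integral at a place over `ℓ` lies in `ℤ_(ℓ)`. -/
theorem exists_Rl_of_fixed (hA : A.LiesOverPrime ℓ) {x : Qb} (hfix : ∀ σ : GQ, σ x = x)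
    (hx : x ∈ A) : ∃ r : Rl ℓ, algebraMap (Rl ℓ) Qb r = x := by
  obtain ⟨q, rfl⟩ := GalCommon.exists_rat_of_fixed hfix
  refine ⟨⟨q, ?_⟩, rfl⟩
  rw [mem_Rl_iff, Nat.coprime_comm, (Fact.out : ℓ.Prime).coprime_iff_not_dvd]
  intro hd
  have hnd : ¬ (ℓ : ℤ) ∣ q.num := fun h =>
    (Fact.out : ℓ.Prime).ne_one
      (Nat.Coprime.eq_one_of_dvd (Nat.Coprime.coprime_dvd_left (Int.natCast_dvd.1 h) q.reduced) hd)
  have h1 : (q.den : Qb) ∈ A.nonunits :=
    (GalCommon.natCast_mem_nonunits_iff (Fact.out : ℓ.Prime) hA _).2 hd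
  apply hnd
  rw [← GalCommon.intCast_mem_nonunits_iff (Fact.out : ℓ.Prime) hA]
  have heq : ((q.num : Qb)) = algebraMap ℚ Qb q * (q.den : Qb) := by
    rw [← map_natCast (algebraMap ℚ Qb) q.den, ← map_intCast (algebraMap ℚ Qb) q.num, ← map_mul,
      Rat.mul_den_eq_num]
  rw [heq, ValuationSubring.mem_nonunits_iff, map_mul]
  exact mul_lt_one_of_nonneg_of_lt_one_right ((A.valuation_le_one_iff _).2 hx) zero_le
    ((ValuationSubring.mem_nonunits_iff _).1 h1)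

/-- A proper ideal in an integral `ℤ_(ℓ)`-subalgebra of `ℚ̄` is dominated by a place over `ℓ`. -/
theorem exists_place_of_ne_top (C : Subalgebra (Rl ℓ) Qb) [Module.Finite (Rl ℓ) C] (I : Ideal C)
    (hI : I ≠ ⊤) :
    ∃ A : ValuationSubring Qb, A.LiesOverPrime ℓ ∧ ∀ x ∈ I, (x : Qb) ∈ A.nonunits := by
  obtain ⟨m, hm, hIm⟩ := Ideal.exists_le_maximal I hI
  have : Algebra.IsIntegral (Rl ℓ) C := Algebra.IsIntegral.of_finite _ _
  have hℓm : ((ℓ : ℕ) : C) ∈ m := by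
    have hcm : (m.comap (algebraMap (Rl ℓ) C)).IsMaximal :=
      Ideal.isMaximal_comap_of_isIntegral_of_isMaximal m
    by_contra hmem
    have hmem' : (ℓ : Rl ℓ) ∉ m.comap (algebraMap (Rl ℓ) C) := by
      rwa [Ideal.mem_comap, map_natCast]
    obtain ⟨a, i, hi, h⟩ := hcm.exists_inv hmem'
    have hiu : ¬ IsUnit i := fun h => hcm.ne_top (Ideal.eq_top_of_isUnit_mem _ hi h)
    obtain ⟨b, rfl⟩ := dvd_of_not_isUnit_Rl hiu
    exact natCast_not_isUnit_Rl (ℓ := ℓ) (IsUnit.of_mul_eq_one (a + b) (by rw [← h]; ring))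
  obtain ⟨B, hCB, hB⟩ :=
    Ideal.image_subset_nonunits_valuationSubring (A := C.toSubring) m hm.ne_top
  refine ⟨B, ?_, fun x hx => hB ⟨x, hIm hx, rfl⟩⟩
  unfold ValuationSubring.LiesOverPrime
  exact hB ⟨((ℓ : ℕ) : C), hℓm, by simp⟩

end FLTAgent.FlatJ
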