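/-
Linear systems over rings of equivariant integral functions: solutions are integral functions.
-/
import Fermat.Agent.FlatJ.Base

/-!
The linear algebra behind all integrality statements. `FullAt A v`: the columns of `v` are
independent modulo `A`; `EquivRing ℓ Ω`: a finite `ℤ_(ℓ)`-algebra of equivariant functions on a
finite Galois set `Ω`. `EquivRing.mem_of_system`: if `M x = b` pointwise with `M`, `b` over the
ring and `M` full at one place `A₀`, then `x` is over the ring. Proof: fullness spreads to all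
places by equivariance, every maximal ideal comes from a point and a place, and some minor is a
unit there, so Cramer's rule makes the ideal of denominators the unit ideal.
-/

set_option autoImplicit false

noncomputable section

namespace FLTAgent.FlatJ

open scoped Pointwise

/-- The columns of `v` are independent modulo the place `A`. -/
def FullAt (A : ValuationSubring Qb) {ι κ : Type*} [Fintype κ] (v : ι → κ → Qb) : Prop :=
  ∀ c : κ → Qb, (∀ j, c j ∈ A) → (∀ i, ∑ j, v i j * c j ∈ A.nonunits) → ∀ j, c j ∈ A.nonunits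

theorem FullAt.smul {A : ValuationSubring Qb} {ι κ : Type*} [Fintype κ] {v : ι → κ → Qb}
    (h : FullAt A v) (σ : GQ) : FullAt (σ • A) fun i j => σ (v i j) := by
  intro c hc hsum j
  have hmem : ∀ j, σ⁻¹ (c j) ∈ A := fun j => by
    have := hc j
    rwa [ValuationSubring.mem_pointwise_smul_iff_inv_smul_mem] at this
  have h1 := h (fun j => σ⁻¹ (c j)) hmem (fun i => by
    rw [← GalCommon.map_mem_nonunits_iff (σ := σ)]
    convert hsum i using 1
    rw [map_sum]
    refine Finset.sum_congr rfl fun j _ => ?_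
    rw [map_mul, AlgEquiv.aut_inv, AlgEquiv.apply_symm_apply]) j
  rw [← GalCommon.map_mem_nonunits_iff (σ := σ), AlgEquiv.aut_inv, AlgEquiv.apply_symm_apply] at h1
  exact h1

theorem add_mem_nonunits {A : ValuationSubring Qb} {x y : Qb} (hx : x ∈ A.nonunits)
    (hy : y ∈ A.nonunits) : x + y ∈ A.nonunits := by
  rw [ValuationSubring.mem_nonunits_iff] at hx hy ⊢
  exact lt_of_le_of_lt (Valuation.map_add _ _ _) (max_lt hx hy)

theorem sum_mem_nonunits {A : ValuationSubring Qb} {ι : Type*} (s : Finset ι) {f : ι → Qb}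
    (hf : ∀ i ∈ s, f i ∈ A.nonunits) : ∑ i ∈ s, f i ∈ A.nonunits :=
  Finset.sum_induction f (· ∈ A.nonunits) (fun _ _ => add_mem_nonunits)
    (by simp) hf

theorem mul_mem_nonunits_left {A : ValuationSubring Qb} {x y : Qb} (hx : x ∈ A)
    (hy : y ∈ A.nonunits) : x * y ∈ A.nonunits := by
  rw [ValuationSubring.mem_nonunits_iff] at hy ⊢
  rw [map_mul]
  exact mul_lt_one_of_nonneg_of_lt_one_right ((A.valuation_le_one_iff _).2 hx) zero_le hy

theorem mem_nonunits_iff_residue {A : ValuationSubring Qb} {x : Qb} (hx : x ∈ A) :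
    x ∈ A.nonunits ↔ IsLocalRing.residue A ⟨x, hx⟩ = 0 :=
  GalCommon.coe_mem_nonunits_iff_residue A (a := ⟨x, hx⟩)

/-- A full system has an invertible square minor. -/
theorem FullAt.exists_minor {A : ValuationSubring Qb} {ι κ : Type*} [Fintype κ] [DecidableEq κ]
    {v : ι → κ → Qb} (hv : ∀ i j, v i j ∈ A) (h : FullAt A v) :
    ∃ s : κ → ι, (Matrix.of fun a b => v (s a) b).det ∉ A.nonunits := by
  classical
  set vb : ι → κ → IsLocalRing.ResidueField A :=
    fun i j => IsLocalRing.residue A ⟨v i j, hv i j⟩ with hvb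
  have hspan : Submodule.span (IsLocalRing.ResidueField A) (Set.range vb) = ⊤ := by
    by_contra hne
    obtain ⟨φ, hφ0, hφ⟩ := Submodule.exists_le_ker_of_lt_top _ (lt_top_iff_ne_top.2 hne)
    choose c hc using fun j => IsLocalRing.residue_surjective (φ (Pi.single j 1))
    have hzero : ∀ j, (c j : Qb) ∈ A.nonunits := by
      refine h (fun j => c j) (fun j => (c j).2) fun i => ?_
      have hsum : ∑ j, v i j * (c j : Qb) ∈ A :=
        sum_mem fun j _ => mul_mem (hv i j) (c j).2
      rw [mem_nonunits_iff_residue hsum]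
      have h1 : φ (vb i) = 0 := hφ (Submodule.subset_span ⟨i, rfl⟩)
      have h2 : vb i = ∑ j, vb i j • Pi.single j (1 : IsLocalRing.ResidueField A) := by
        funext k
        simp [Finset.sum_apply, Pi.single_apply]
      rw [h2, map_sum] at h1
      have h3 : (⟨∑ j, v i j * (c j : Qb), hsum⟩ : A) = ∑ j, ⟨v i j, hv i j⟩ * c j :=
        Subtype.ext (by simp)
      rw [h3, map_sum, ← h1]
      refine Finset.sum_congr rfl fun j _ => ?_
      rw [map_smul, map_mul, hc j, smul_eq_mul]
    refine hφ0 (LinearMap.pi_ext' fun j => LinearMap.ext_ring ?_)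
    have := (GalCommon.coe_mem_nonunits_iff_residue A).1 (hzero j)
    rw [hc j] at this
    simpa using this
  obtain ⟨t, ht, hspan', hli⟩ := exists_linearIndependent (IsLocalRing.ResidueField A) (Set.range vb)
  have hb : Submodule.span (IsLocalRing.ResidueField A) (Set.range (Subtype.val : t → (κ → IsLocalRing.ResidueField A))) = ⊤ := by
    rw [Subtype.range_coe, hspan', hspan]
  let bas := Module.Basis.mk hli hb.ge
  have e : t ≃ κ := bas.indexEquiv (Pi.basisFun _ κ)
  choose s hs using fun a : κ => ht (e.symm a).2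
  refine ⟨s, fun hdet => ?_⟩
  let MA : Matrix κ κ A := Matrix.of fun a b => ⟨v (s a) b, hv _ _⟩
  have hMA : ((MA.det : A) : Qb) = (Matrix.of fun a b => v (s a) b).det :=
    RingHom.map_det A.subtype MA
  rw [← hMA, GalCommon.coe_mem_nonunits_iff_residue, RingHom.map_det] at hdet
  have hu : IsUnit ((MA.map (IsLocalRing.residue A))) := by
    rw [← Matrix.linearIndependent_rows_iff_isUnit]
    have : (MA.map (IsLocalRing.residue A)).row = fun a => ((e.symm a : t) : κ → _) :=
      funext fun a => by rw [← hs a]; rfl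
    rw [this]
    exact hli.comp _ e.symm.injective
  rw [Matrix.isUnit_iff_isUnit_det, RingHom.mapMatrix_apply] at *
  rw [hdet] at hu
  exact not_isUnit_zero hu

variable {ℓ : ℕ} {Ω : Type*} [MulAction GQ Ω]

/-- A finite ring of equivariant functions on a finite Galois set. -/
structure EquivRing (ℓ : ℕ) (Ω : Type*) [MulAction GQ Ω] where
  ring : Subalgebra (Rl ℓ) (Ω → Qb)
  finite : Module.Finite (Rl ℓ) ring
  equivariant : ∀ f ∈ ring, ∀ (σ : GQ) (ω : Ω), f (σ • ω) = σ (f ω)

namespace EquivRing

variable [Fact ℓ.Prime] (B : EquivRing ℓ Ω) {A₀ : ValuationSubring Qb}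

theorem apply_mem {A : ValuationSubring Qb} (hA : A.LiesOverPrime ℓ) {f : Ω → Qb}
    (hf : f ∈ B.ring) (ω : Ω) : f ω ∈ A := by
  have := B.finite
  refine mem_of_isIntegral_Rl hA ?_
  exact ((Algebra.IsIntegral.of_finite (Rl ℓ) B.ring).isIntegral ⟨f, hf⟩).map
    ((Pi.evalAlgHom (Rl ℓ) (fun _ : Ω => Qb) ω).comp B.ring.val)

/-- Fullness at one place gives fullness at all places. -/
theorem fullAt_of_fullAt {ι κ : Type*} [Fintype κ] {M : ι → κ → Ω → Qb}
    (hM : ∀ i j, M i j ∈ B.ring) (hA₀ : A₀.LiesOverPrime ℓ)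
    (hfull : ∀ ω, FullAt A₀ fun i j => M i j ω) {A : ValuationSubring Qb}
    (hA : A.LiesOverPrime ℓ) (ω : Ω) : FullAt A fun i j => M i j ω := by
  obtain ⟨σ, rfl⟩ := GalCommon.exists_smul_eq_of_liesOverPrime (Fact.out : ℓ.Prime) hA₀ hA
  have h := (hfull (σ⁻¹ • ω)).smul σ
  have heq : (fun i j => σ (M i j (σ⁻¹ • ω))) = fun i j => M i j ω := funext fun i => funext fun j => by
    rw [← B.equivariant _ (hM i j), smul_inv_smul]
  rwa [heq] at h

variable [Finite Ω]

/-- A maximal ideal of the ring is the set of functions small at some point and some place. -/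
theorem exists_point_of_ne_top (I : Ideal B.ring) (hI : I ≠ ⊤) :
    ∃ (ω : Ω) (A : ValuationSubring Qb), A.LiesOverPrime ℓ ∧
      ∀ f ∈ I, (f : Ω → Qb) ω ∈ A.nonunits := by
  classical
  have := B.finite
  obtain ⟨m, hm, hIm⟩ := Ideal.exists_le_maximal I hI
  let ev : Ω → (B.ring →ₐ[Rl ℓ] Qb) := fun ω =>
    (Pi.evalAlgHom (Rl ℓ) (fun _ : Ω => Qb) ω).comp B.ring.val
  have := Fintype.ofFinite Ω
  obtain ⟨ω, hω⟩ : ∃ ω, RingHom.ker (ev ω) ≤ m := by
    have hbot : Finset.univ.inf (fun ω => RingHom.ker (ev ω)) ≤ m := by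
      intro f hf
      rw [Submodule.mem_finsetInf] at hf
      have : f = 0 := Subtype.ext (funext fun ω => hf ω (Finset.mem_univ ω))
      rw [this]
      exact zero_mem _
    obtain ⟨ω, -, hω⟩ := (Ideal.IsPrime.inf_le' hm.isPrime).1 hbot
    exact ⟨ω, hω⟩
  let φ := (ev ω).rangeRestrict
  have hφ : Function.Surjective φ := (ev ω).rangeRestrict_surjective
  have hker : RingHom.ker φ ≤ m := fun f hf => hω (congrArg Subtype.val hf :)
  have hne : m.map φ ≠ ⊤ := by
    intro htop
    have := congrArg (Ideal.comap φ) htop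
    rw [Ideal.comap_map_of_surjective φ hφ, Ideal.comap_top] at this
    refine hm.ne_top (top_le_iff.1 (this.ge.trans (sup_le le_rfl ?_)))
    intro f hf
    exact hker (by simpa using hf)
  have : Module.Finite (Rl ℓ) (ev ω).range :=
    Module.Finite.of_surjective φ.toLinearMap hφ
  obtain ⟨A, hA, hAm⟩ := exists_place_of_ne_top (ev ω).range (m.map φ) hne
  exact ⟨ω, A, hA, fun f hf => hAm (φ f) (Ideal.mem_map_of_mem φ (hIm hf))⟩

/-- Solutions of systems that are full modulo one place lie in the ring. -/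
theorem mem_of_system {ι κ : Type*} [Fintype κ] {M : ι → κ → Ω → Qb} {b : ι → Ω → Qb}
    (hM : ∀ i j, M i j ∈ B.ring) (hb : ∀ i, b i ∈ B.ring) {x : κ → Ω → Qb}
    (heq : ∀ ω i, ∑ j, M i j ω * x j ω = b i ω) (hA₀ : A₀.LiesOverPrime ℓ)
    (hfull : ∀ ω, FullAt A₀ fun i j => M i j ω) (j : κ) : x j ∈ B.ring := by
  classical
  let I : Ideal B.ring :=
    { carrier := {β | ∀ j, (fun ω => (β : Ω → Qb) ω * x j ω) ∈ B.ring}
      add_mem' := fun {β β'} hβ hβ' j => by
        have := add_mem (hβ j) (hβ' j)
        convert this using 1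
        funext ω; simp [add_mul]
      zero_mem' := fun j => by
        convert zero_mem B.ring using 1
        funext ω; simp
      smul_mem' := fun c β hβ j => by
        have := mul_mem c.2 (hβ j)
        convert this using 1
        funext ω; simp [mul_assoc] }
  suffices hI : I = ⊤ by
    have h1 : (1 : B.ring) ∈ I := hI ▸ Submodule.mem_top
    simpa using h1 j
  by_contra hI
  obtain ⟨ω, A, hA, hAI⟩ := B.exists_point_of_ne_top I hI
  obtain ⟨s, hs⟩ := (B.fullAt_of_fullAt hM hA₀ hfull hA ω).exists_minor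
    fun i j => B.apply_mem hA (hM i j) ω
  let MB : Matrix κ κ B.ring := Matrix.of fun a b => ⟨M (s a) b, hM _ _⟩
  let evω : ∀ ω : Ω, B.ring →+* Qb := fun ω =>
    ((Pi.evalAlgHom (Rl ℓ) (fun _ : Ω => Qb) ω).comp B.ring.val).toRingHom
  have hD : MB.det ∈ I := fun j => by
    have hmem : (fun ω' => ∑ a, ((MB.adjugate j a : B.ring) : Ω → Qb) ω' * b (s a) ω') ∈
        B.ring := by
      have : ∑ a : κ, ((MB.adjugate j a : B.ring) : Ω → Qb) * b (s a) ∈ B.ring :=
        sum_mem fun a _ => mul_mem (MB.adjugate j a).2 (hb _)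
      convert this using 1
      funext ω'; simp [Finset.sum_apply]
    convert hmem using 1
    funext ω'
    set P : Matrix κ κ Qb := MB.map (evω ω') with hP
    have hPv : P.mulVec (fun a => x a ω') = fun a => b (s a) ω' := funext fun a => by
      rw [← heq ω' (s a)]; rfl
    have h1 : (P.adjugate.mulVec (P.mulVec fun a => x a ω')) j = P.det * x j ω' := by
      rw [Matrix.mulVec_mulVec, Matrix.adjugate_mul, Matrix.smul_mulVec, Matrix.one_mulVec]
      rfl
    rw [hPv] at h1
    have h2 : P.det = ((MB.det : B.ring) : Ω → Qb) ω' := ((evω ω').map_det MB).symm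
    have h3 : P.adjugate = (MB.adjugate).map (evω ω') := ((evω ω').map_adjugate MB).symm
    rw [h2, h3] at h1
    exact h1.symm
  refine hs ?_
  have := hAI _ hD
  rwa [show ((MB.det : B.ring) : Ω → Qb) ω = (Matrix.of fun a b => M (s a) b ω).det from
    (evω ω).map_det MB] at this

end EquivRing

end FLTAgent.FlatJ
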