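/-
A curve over `ℚ̄` with Galois action and good reduction: rational bases, integral coordinates,
reduction of Riemann-Roch spaces.
-/
import Fermat.Agent.FlatJ.Master
import Fermat.Agent.FlatJ.Fibre
import Fermat.Agent.Reduction.PlacesMap
import Fermat.Prelude.Def_AlgebraicCurve_BaseChangeGalois

/-!
`Setup ℓ F k Fb A π`: a function field `F/ℚ̄` with semilinear Galois action, a good reduction
to `Fb/k` at `A` with parameter `x` and same genus, and fixed bases of the pole spaces of `x`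
with independent reductions. From it: `D = dv`, a multiple of the pole divisor of `x`, the
reduction `r` of places, `redSub_L_eq` (Riemann-Roch spaces of large degree reduce onto
Riemann-Roch spaces), fixed bases `e j` of `L(j D)` and integral coordinates `coord j`.
-/

set_option autoImplicit false

noncomputable section

open AlgebraicCurve

namespace FLTAgent.FlatJ

open FLTAgent.Reduction

/-- A curve with Galois action and a good reduction at the place `A`. -/
structure Setup (ℓ : ℕ) (F : Type*) (k : Type*) (Fb : Type*) [Field F] [Algebra Qb F] [Field k]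
    [Field Fb] [Algebra k Fb] (A : ValuationSubring Qb) (π : A →+* k) where
  hA : A.LiesOverPrime ℓ
  G : GaussRed A π F Fb
  g : ℕ
  x : F
  hx : GoodParam G g x
  genus_eq : genusFF Qb F = g
  genusBar_eq : genusFF k Fb = g
  gal : GQ →* SemilinearAut Qb F
  gal_base : ∀ (σ : GQ) (a : Qb), SemilinearAut.baseAut (gal σ) a = σ a
  gal_x : ∀ σ : GQ, gal σ • x = x
  rat : ∀ n : ℕ, hx.bound ≤ n → ∃ (d : ℕ) (e : Fin d → F), G.RedIndep e ∧
    Submodule.span Qb (Set.range e) = (polesLe x n : Submodule Qb F) ∧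
    ∀ (σ : GQ) (i : Fin d), gal σ • e i = e i
  finite_ram : {Q : Place k Fb | ∃ c : k, 2 ≤ Q.ord (G.red x - algebraMap k Fb c)}.Finite

namespace Setup

variable {ℓ : ℕ} {F k Fb : Type*} [Field F] [Algebra Qb F] [Field k] [Field Fb] [Algebra k Fb]
  [IsAlgClosed k] [FF.IsFF Qb F] [FF.IsFF k Fb] {A : ValuationSubring Qb} {π : A →+* k}
  (S : Setup ℓ F k Fb A π)

/-- The multiple of the pole divisor of the parameter used for the coordinates. -/
def n₀ : ℕ := S.hx.bound + 10 * S.g + 10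

/-- The divisor `D`. -/
def dv : Divisor Qb F := (S.n₀ : ℤ) • poleDiv S.x

/-- The divisor `D` on the special fibre. -/
def dvBar : Divisor k Fb := (S.n₀ : ℤ) • poleDiv (S.G.red S.x)

/-- The reduction map of places. -/
def r : Place Qb F → Place k Fb := redMap S.hx

theorem isRed : IsRed S.G S.g S.r := S.hx.isRed

theorem smul_dv_eq (j : ℕ) : (j : ℤ) • S.dv = boundDiv S.x (j * S.n₀) (0 : Divisor Qb F) := by
  rw [dv, boundDiv, sub_zero, smul_smul, Nat.cast_mul]

theorem smul_dvBar_eq (j : ℕ) :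
    (j : ℤ) • S.dvBar = boundDiv (S.G.red S.x) (j * S.n₀) (0 : Divisor k Fb) := by
  rw [dvBar, boundDiv, sub_zero, smul_smul, Nat.cast_mul]

theorem le_degree_dv : (S.n₀ : ℤ) ≤ Divisor.degree S.dv := by
  rw [dv, map_zsmul, smul_eq_mul]
  exact le_mul_of_one_le_right (Nat.cast_nonneg _) S.hx.degree_pos

theorem degree_dvBar : Divisor.degree S.dvBar = Divisor.degree S.dv := by
  rw [dv, dvBar, map_zsmul, map_zsmul, S.hx.deg_eq]

theorem bigDeg_dv : BigDeg S.dv := by
  have := S.le_degree_dv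
  simp only [BigDeg, n₀, S.genus_eq] at *
  omega

theorem bigDeg_dvBar : BigDeg S.dvBar := by
  have := S.le_degree_dv
  have := S.degree_dvBar
  simp only [BigDeg, n₀, S.genusBar_eq] at *
  omega

theorem degree_mapDomain (D : Divisor Qb F) :
    Divisor.degree (Finsupp.mapDomain S.r D) = Divisor.degree D :=
  S.isRed.degree_mapDomain D

theorem mapDomain_poleDiv :
    Finsupp.mapDomain S.r (poleDiv S.x : Divisor Qb F) = poleDiv (S.G.red S.x) := by
  have hC := S.hx.curve
  have hCb := S.hx.curveBar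
  set P := Finsupp.mapDomain S.r (poleDiv S.x : Divisor Qb F) with hP
  have hnn : 0 ≤ P := S.isRed.mapDomain_nonneg fun v => by
    rw [hC.poleDiv_apply]; exact le_max_left _ _
  have hZ : 0 ≤ Finsupp.mapDomain S.r (poleDiv S.x + divOf S.x : Divisor Qb F) :=
    S.isRed.mapDomain_nonneg fun v => by
      rw [Finsupp.zero_apply, Finsupp.add_apply, hC.poleDiv_apply, hC.divOf_apply]
      omega
  rw [Finsupp.mapDomain_add, ← hP, S.isRed.mapDomain_divOf S.hx.mem S.hx.red_ne_zero] at hZ
  have hle : poleDiv (S.G.red S.x) ≤ P := fun Q => by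
    have h1 := hnn Q
    have h2 := hZ Q
    simp only [Finsupp.zero_apply, Finsupp.add_apply, hCb.divOf_apply] at h1 h2
    rw [hCb.poleDiv_apply]
    omega
  exact (hCb.eq_of_le_of_degree_eq hle (by rw [hP, S.degree_mapDomain, S.hx.deg_eq])).symm

theorem mapDomain_smul_dv (j : ℤ) :
    Finsupp.mapDomain S.r (j • S.dv) = j • S.dvBar := by
  rw [dv, dvBar, ← Finsupp.mapDomain.addMonoidHom_apply, map_zsmul, map_zsmul,
    Finsupp.mapDomain.addMonoidHom_apply, S.mapDomain_poleDiv]

theorem red_mem_L {E : Divisor Qb F} {y : F} (hy : y ∈ riemannRochSpace E) (hyV : y ∈ S.G.V) :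
    S.G.red y ∈ riemannRochSpace (Finsupp.mapDomain S.r E) := by
  rcases eq_or_ne (S.G.red y) 0 with h | h
  · rw [h]; exact zero_mem _
  have hy0 : y ≠ 0 := fun h0 => h (by rw [h0, S.G.red_zero])
  have h1 : 0 ≤ Finsupp.mapDomain S.r (divOf y + E : Divisor Qb F) :=
    S.isRed.mapDomain_nonneg fun v => by
      rw [Finsupp.zero_apply, Finsupp.add_apply, S.hx.curve.divOf_apply]
      have := FF.ord_of_mem_riemannRochSpace hy hy0 v
      omega
  rw [Finsupp.mapDomain_add, S.isRed.mapDomain_divOf hyV h] at h1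
  refine FF.mem_riemannRochSpace_of_ord fun Q => ?_
  have := h1 Q
  simp only [Finsupp.zero_apply, Finsupp.add_apply, S.hx.curveBar.divOf_apply] at this
  omega

theorem redSub_L_le (E : Divisor Qb F) :
    S.G.redSub (riemannRochSpace E) ≤ riemannRochSpace (Finsupp.mapDomain S.r E) := by
  rintro _ ⟨y, hy, hyV, rfl⟩
  exact S.red_mem_L hy hyV

theorem ell_le (E : Divisor Qb F) : FF.ell E ≤ FF.ell (Finsupp.mapDomain S.r E) := by
  show Module.finrank Qb _ ≤ Module.finrank k _
  rw [← (S.hx.finrank_redSub_L E).1]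
  exact Submodule.finrank_mono (S.redSub_L_le E)

/-- In degree above `2g - 2` Riemann-Roch spaces reduce onto Riemann-Roch spaces. -/
theorem redSub_L_eq {E : Divisor Qb F} (h : 2 * (S.g : ℤ) - 2 < Divisor.degree E) :
    S.G.redSub (riemannRochSpace E) = riemannRochSpace (Finsupp.mapDomain S.r E) := by
  have := (S.hx.finrank_redSub_L E).2
  refine Submodule.eq_of_le_of_finrank_le (S.redSub_L_le E) ?_
  rw [(S.hx.finrank_redSub_L E).1]
  have e1 := FF.ell_eq_of_large (D := E) (by rw [S.genus_eq]; exact h)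
  have e2 := FF.ell_eq_of_large (D := Finsupp.mapDomain S.r E)
    (by rw [S.degree_mapDomain, S.genusBar_eq]; exact h)
  rw [S.degree_mapDomain, S.genusBar_eq] at e2
  rw [S.genus_eq] at e1
  show FF.ell (Finsupp.mapDomain S.r E) ≤ FF.ell E
  omega

/-! ### Bases and coordinates -/

theorem exists_ratBasis (j : ℕ) : ∃ (d : ℕ) (e : Fin d → F), S.G.RedIndep e ∧
    Submodule.span Qb (Set.range e) = (riemannRochSpace (((j + 1 : ℕ) : ℤ) • S.dv) : Submodule Qb F) ∧
    ∀ (σ : GQ) (i : Fin d), S.gal σ • e i = e i := by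
  have hb : S.hx.bound ≤ (j + 1) * S.n₀ :=
    le_trans (by simp [n₀]; omega) (Nat.le_mul_of_pos_left _ j.succ_pos)
  obtain ⟨d, e, h1, h2, h3⟩ := S.rat _ hb
  exact ⟨d, e, h1, h2.trans (by rw [S.smul_dv_eq]), h3⟩

/-- The dimension of `L(j D)` for `j ≥ 1`. -/
def dim : ℕ → ℕ
  | 0 => 0
  | j + 1 => (S.exists_ratBasis j).choose

/-- A rational basis of `L(j D)` with independent reductions. -/
def e : (j : ℕ) → Fin (S.dim j) → F
  | 0 => fun i => i.elim0
  | j + 1 => (S.exists_ratBasis j).choose_spec.choose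

theorem e_spec {j : ℕ} (hj : j ≠ 0) : S.G.RedIndep (S.e j) ∧
    Submodule.span Qb (Set.range (S.e j)) = (riemannRochSpace ((j : ℤ) • S.dv) : Submodule Qb F) ∧
    ∀ (σ : GQ) (i : Fin (S.dim j)), S.gal σ • S.e j i = S.e j i := by
  cases j with
  | zero => exact absurd rfl hj
  | succ j => exact (S.exists_ratBasis j).choose_spec.choose_spec

theorem e_redIndep (j : ℕ) : S.G.RedIndep (S.e j) := by
  cases j with
  | zero =>
    have : IsEmpty (Fin (S.dim 0)) := Fin.isEmpty
    exact ⟨fun i => i.elim0, linearIndependent_empty_type⟩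
  | succ j => exact (S.e_spec j.succ_ne_zero).1

theorem span_e {j : ℕ} (hj : j ≠ 0) :
    Submodule.span Qb (Set.range (S.e j)) = (riemannRochSpace ((j : ℤ) • S.dv) : Submodule Qb F) :=
  (S.e_spec hj).2.1

theorem smul_e (j : ℕ) (σ : GQ) (i : Fin (S.dim j)) : S.gal σ • S.e j i = S.e j i := by
  cases j with
  | zero => exact i.elim0
  | succ j => exact (S.e_spec j.succ_ne_zero).2.2 σ i

theorem exists_coord (j : ℕ) : ∃ c : F →ₗ[Qb] (Fin (S.dim j) → Qb),
    ∀ i, c (S.e j i) = Pi.single i 1 := by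
  have hli := (S.e_redIndep j).linearIndependent
  obtain ⟨c, hc⟩ := LinearMap.exists_extend
    ((Module.Basis.span hli).equivFun.toLinearMap :
      Submodule.span Qb (Set.range (S.e j)) →ₗ[Qb] (Fin (S.dim j) → Qb))
  refine ⟨c, fun i => ?_⟩
  have hmem : S.e j i ∈ Submodule.span Qb (Set.range (S.e j)) := Submodule.subset_span ⟨i, rfl⟩
  have h1 := LinearMap.congr_fun hc ⟨_, hmem⟩
  simp only [LinearMap.comp_apply, Submodule.subtype_apply] at h1
  rw [h1]
  have h2 : (⟨S.e j i, hmem⟩ : Submodule.span Qb (Set.range (S.e j))) =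
      Module.Basis.span hli i := (Module.Basis.span_apply hli i).symm
  rw [h2, LinearEquiv.coe_coe]
  funext a
  rw [Module.Basis.equivFun_apply, Module.Basis.repr_self, Finsupp.single_apply]
  simp [Pi.single_apply, eq_comm]

/-- Coordinates in the rational basis. -/
def coord (j : ℕ) : F →ₗ[Qb] (Fin (S.dim j) → Qb) := (S.exists_coord j).choose

theorem coord_e (j : ℕ) (i : Fin (S.dim j)) : S.coord j (S.e j i) = Pi.single i 1 :=
  (S.exists_coord j).choose_spec i

theorem coord_sum (j : ℕ) (c : Fin (S.dim j) → Qb) :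
    S.coord j (∑ i, c i • S.e j i) = c := by
  funext a
  simp only [map_sum, map_smul, coord_e, Finset.sum_apply, Pi.smul_apply, smul_eq_mul]
  simp [Pi.single_apply]

theorem sum_coord {j : ℕ} (hj : j ≠ 0) {f : F} (hf : f ∈ riemannRochSpace ((j : ℤ) • S.dv)) :
    ∑ i, S.coord j f i • S.e j i = f := by
  rw [← S.span_e hj, Submodule.mem_span_range_iff_exists_fun] at hf
  obtain ⟨c, rfl⟩ := hf
  rw [S.coord_sum]

theorem gal_smul_algebraMap (σ : GQ) (a : Qb) :
    S.gal σ • algebraMap Qb F a = algebraMap Qb F (σ a) := by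
  rw [SemilinearAut.smul_algebraMap, S.gal_base]

theorem gal_smul_smul (σ : GQ) (a : Qb) (f : F) : S.gal σ • (a • f) = σ a • (S.gal σ • f) := by
  rw [Algebra.smul_def, smul_mul', S.gal_smul_algebraMap, ← Algebra.smul_def]

theorem gal_sum_e (σ : GQ) (j : ℕ) (c : Fin (S.dim j) → Qb) :
    S.gal σ • (∑ i, c i • S.e j i) = ∑ i, σ (c i) • S.e j i := by
  rw [Finset.smul_sum]
  exact Finset.sum_congr rfl fun i _ => by rw [S.gal_smul_smul, S.smul_e]

theorem coord_gal {j : ℕ} (hj : j ≠ 0) (σ : GQ) {f : F}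
    (hf : f ∈ riemannRochSpace ((j : ℤ) • S.dv)) (i : Fin (S.dim j)) :
    S.coord j (S.gal σ • f) i = σ (S.coord j f i) := by
  conv_lhs => rw [← S.sum_coord hj hf, S.gal_sum_e, S.coord_sum]

theorem gal_mem_L {j : ℕ} (hj : j ≠ 0) (σ : GQ) {f : F}
    (hf : f ∈ riemannRochSpace ((j : ℤ) • S.dv)) :
    S.gal σ • f ∈ riemannRochSpace ((j : ℤ) • S.dv) := by
  rw [← S.sum_coord hj hf, S.gal_sum_e, ← S.span_e hj]
  exact Submodule.sum_mem _ fun i _ => Submodule.smul_mem _ _ (Submodule.subset_span ⟨i, rfl⟩)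

theorem mem_V_of_coord {j : ℕ} (hj : j ≠ 0) {f : F} (hf : f ∈ riemannRochSpace ((j : ℤ) • S.dv))
    (hc : ∀ i, S.coord j f i ∈ A) :
    f ∈ S.G.V ∧ S.G.red f = ∑ i, π ⟨S.coord j f i, hc i⟩ • S.G.red (S.e j i) := by
  conv_rhs => arg 1; rw [← S.sum_coord hj hf]
  refine ⟨?_, ?_⟩
  · rw [← S.sum_coord hj hf]
    exact S.G.V.sum_mem fun i _ => S.G.smul_mem' (hc i) ((S.e_redIndep j).1 i)
  · exact S.G.red_sum_smul (S.e_redIndep j).1 fun i => ⟨_, hc i⟩

theorem coord_mem_of_mem_V {j : ℕ} (hj : j ≠ 0) {f : F}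
    (hf : f ∈ riemannRochSpace ((j : ℤ) • S.dv)) (hfV : f ∈ S.G.V) (i : Fin (S.dim j)) :
    S.coord j f i ∈ A := by
  rw [← S.sum_coord hj hf] at hfV
  exact (S.e_redIndep j).coeff_mem hfV i

theorem span_red_e {j : ℕ} (hj : j ≠ 0) :
    Submodule.span k (Set.range fun i => S.G.red (S.e j i)) =
      (riemannRochSpace ((j : ℤ) • S.dvBar) : Submodule k Fb) := by
  rw [← S.G.redSub_span_eq (S.e_redIndep j), S.span_e hj, S.redSub_L_eq, S.mapDomain_smul_dv]
  rw [map_zsmul, smul_eq_mul]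
  have h1 := S.le_degree_dv
  have h2 : Divisor.degree S.dv ≤ (j : ℤ) * Divisor.degree S.dv :=
    le_mul_of_one_le_left (by omega) (by exact_mod_cast Nat.one_le_iff_ne_zero.2 hj)
  simp only [n₀] at h1
  omega

end Setup

end FLTAgent.FlatJ
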