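/-
Decompositions along a complement with good reduction.
-/
import Fermat.Agent.FlatJ.Setup

/-!
`GoodCompl j W C`: `C` is a complement of `W` in `L(j D)` whose reduction still complements
that of `W`. Then `coeff` gives the coefficients along `C`, integral on integral functions
(`coeff_mem_A`); if they vanish modulo `A`, the reduction lies in that of `W`. Also
`fullAt_of_span`: integral vectors with spanning reductions form a full system of coordinates.
-/

set_option autoImplicit false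

noncomputable section

open AlgebraicCurve

namespace FLTAgent.FlatJ

open FLTAgent.Reduction

namespace Setup

variable {ℓ : ℕ} [Fact ℓ.Prime] {F k Fb : Type*} [Field F] [Algebra Qb F] [Field k] [Field Fb]
  [Algebra k Fb] [IsAlgClosed k] [FF.IsFF Qb F] [FF.IsFF k Fb] {A : ValuationSubring Qb}
  {π : A →+* k} (S : Setup ℓ F k Fb A π)

/-- `L(j D)`. -/
abbrev Lv (j : ℕ) : Submodule Qb F := riemannRochSpace ((j : ℤ) • S.dv)

/-- `L(j D̄)`. -/
abbrev LvBar (j : ℕ) : Submodule k Fb := riemannRochSpace ((j : ℤ) • S.dvBar)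

theorem finrank_Lv {j : ℕ} (hj : j ≠ 0) : Module.finrank Qb (S.Lv j) = S.dim j := by
  rw [Lv, ← S.span_e hj, finrank_span_eq_card (S.e_redIndep j).linearIndependent, Fintype.card_fin]

theorem finrank_LvBar {j : ℕ} (hj : j ≠ 0) : Module.finrank k (S.LvBar j) = S.dim j := by
  rw [LvBar, ← S.span_red_e hj, finrank_span_eq_card (S.e_redIndep j).2, Fintype.card_fin]

/-- `C` complements `W` in `L(j D)` with good reduction. -/
structure GoodCompl (j : ℕ) (W : Submodule Qb F) {r : ℕ} (C : Fin r → F) : Prop where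
  ne_zero : j ≠ 0
  le : W ≤ S.Lv j
  mem : ∀ l, C l ∈ S.Lv j
  mem_V : ∀ l, C l ∈ S.G.V
  finrank_add : Module.finrank Qb W + r ≤ S.dim j
  span_red : S.LvBar j ≤ S.G.redSub W ⊔ Submodule.span k (Set.range fun l => S.G.red (C l))

namespace GoodCompl

variable {S} {j : ℕ} {W : Submodule Qb F} {r : ℕ} {C : Fin r → F} (h : S.GoodCompl j W C)
include h

/-- A basis of `L(j D)` with independent reductions adapted to the decomposition. -/
theorem exists_adapted : ∃ (d : ℕ) (w : Fin d → F), Submodule.span Qb (Set.range w) = W ∧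
    S.G.RedIndep (Sum.elim w C) ∧ Submodule.span Qb (Set.range (Sum.elim w C)) = S.Lv j ∧
    Submodule.span k (Set.range fun i => S.G.red (w i)) = S.G.redSub W := by
  have hWe : W ≤ Submodule.span Qb (Set.range (S.e j)) := S.span_e h.ne_zero ▸ h.le
  obtain ⟨d, w, hw, hspan⟩ := (S.e_redIndep j).exists_basis W hWe
  have hred : Submodule.span k (Set.range fun i => S.G.red (w i)) = S.G.redSub W := by
    rw [← S.G.redSub_span_eq hw, hspan]
  have hd : d = Module.finrank Qb W := by
    rw [← hspan, finrank_span_eq_card hw.linearIndependent, Fintype.card_fin]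
  have : FiniteDimensional k (S.LvBar j) := FF.finiteDimensional_riemannRochSpace _
  have hredle : ∀ s : Fin d ⊕ Fin r, S.G.red (Sum.elim w C s) ∈ S.LvBar j ∧
      Sum.elim w C s ∈ S.G.V ∧ Sum.elim w C s ∈ S.Lv j := by
    intro s
    have hm : Sum.elim w C s ∈ S.G.V ∧ Sum.elim w C s ∈ S.Lv j := by
      cases s with
      | inl i => exact ⟨hw.1 i, h.le (hspan ▸ Submodule.subset_span ⟨i, rfl⟩)⟩
      | inr l => exact ⟨h.mem_V l, h.mem l⟩
    have := S.red_mem_L hm.2 hm.1
    rw [S.mapDomain_smul_dv] at this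
    exact ⟨this, hm⟩
  have hspan' : Submodule.span k (Set.range fun s => S.G.red (Sum.elim w C s)) = S.LvBar j := by
    refine le_antisymm (Submodule.span_le.2 ?_) (h.span_red.trans (sup_le ?_ ?_))
    · rintro _ ⟨s, rfl⟩
      exact (hredle s).1
    · rw [← hred]
      exact Submodule.span_mono (by rintro _ ⟨i, rfl⟩; exact ⟨Sum.inl i, rfl⟩)
    · exact Submodule.span_mono (by rintro _ ⟨i, rfl⟩; exact ⟨Sum.inr i, rfl⟩)
  have hli : S.G.RedIndep (Sum.elim w C) := by
    refine ⟨fun s => (hredle s).2.1, linearIndependent_iff_card_le_finrank_span.2 ?_⟩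
    rw [Set.finrank, hspan', S.finrank_LvBar h.ne_zero, Fintype.card_sum, Fintype.card_fin,
      Fintype.card_fin, hd]
    exact h.finrank_add
  refine ⟨d, w, hspan, hli, ?_, hred⟩
  have : FiniteDimensional Qb (S.Lv j) := FF.finiteDimensional_riemannRochSpace _
  refine Submodule.eq_of_le_of_finrank_le (Submodule.span_le.2 ?_) ?_
  · rintro _ ⟨s, rfl⟩
    exact (hredle s).2.2
  · rw [finrank_span_eq_card hli.linearIndependent, S.finrank_Lv h.ne_zero,
      ← S.finrank_LvBar h.ne_zero, ← hspan']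
    exact finrank_range_le_card _

theorem eq_zero_of_sum_mem {c : Fin r → Qb} (hc : ∑ l, c l • C l ∈ W) : c = 0 := by
  obtain ⟨d, w, hspan, hli, -, -⟩ := h.exists_adapted
  rw [← hspan, Submodule.mem_span_range_iff_exists_fun] at hc
  obtain ⟨a, ha⟩ := hc
  have h0 := Fintype.linearIndependent_iff.1 hli.linearIndependent (Sum.elim a (fun l => -c l))
    (by simp [ha, Finset.sum_neg_distrib])
  funext l
  simpa using h0 (Sum.inr l)

theorem exists_decomp {f : F} (hf : f ∈ S.Lv j) :
    ∃ c : Fin r → Qb, f - ∑ l, c l • C l ∈ W ∧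
      (f ∈ S.G.V → ∀ l, c l ∈ A) := by
  obtain ⟨d, w, hspan, hli, hall, -⟩ := h.exists_adapted
  rw [← hall, Submodule.mem_span_range_iff_exists_fun] at hf
  obtain ⟨a, rfl⟩ := hf
  refine ⟨fun l => a (Sum.inr l), ?_, fun hV l => hli.coeff_mem hV (Sum.inr l)⟩
  rw [Fintype.sum_sum_type]
  simp only [Sum.elim_inl, Sum.elim_inr, add_sub_cancel_right]
  rw [← hspan]
  exact Submodule.sum_mem _ fun i _ => Submodule.smul_mem _ _ (Submodule.subset_span ⟨i, rfl⟩)

theorem exists_coeffMap : ∃ Φ : F →ₗ[Qb] (Fin r → Qb),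
    (∀ f ∈ S.Lv j, f - ∑ l, Φ f l • C l ∈ W) ∧
    (∀ f ∈ S.Lv j, f ∈ S.G.V → ∀ l, Φ f l ∈ A) := by
  classical
  choose c hc hcA using fun i : Fin (S.dim j) => h.exists_decomp (f := S.e j i)
    (by rw [Setup.Lv, ← S.span_e h.ne_zero]; exact Submodule.subset_span ⟨i, rfl⟩ : S.e j i ∈ S.Lv j)
  let Φ : F →ₗ[Qb] (Fin r → Qb) :=
    (Fintype.linearCombination Qb c).comp (S.coord j)
  have hΦ : ∀ f l, Φ f l = ∑ i, S.coord j f i * c i l := fun f l => by
    simp [Φ, Fintype.linearCombination_apply, Finset.sum_apply]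
  have hdec : ∀ f ∈ S.Lv j, f - ∑ l, Φ f l • C l ∈ W := by
    intro f hf
    have : f - ∑ l, Φ f l • C l = ∑ i, S.coord j f i • (S.e j i - ∑ l, c i l • C l) := by
      simp only [smul_sub, Finset.smul_sum, smul_smul, Finset.sum_sub_distrib, hΦ, Finset.sum_smul]
      rw [S.sum_coord h.ne_zero hf, Finset.sum_comm]
    rw [this]
    exact Submodule.sum_mem _ fun i _ => Submodule.smul_mem _ _ (hc i)
  refine ⟨Φ, hdec, fun f hf hV l => ?_⟩
  rw [hΦ]
  exact sum_mem fun i _ =>
    mul_mem (S.coord_mem_of_mem_V h.ne_zero hf hV i) (hcA i ((S.e_redIndep j).1 i) l)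

/-- The coefficients along the complement. -/
def coeff : F →ₗ[Qb] (Fin r → Qb) := h.exists_coeffMap.choose

theorem sub_mem {f : F} (hf : f ∈ S.Lv j) : f - ∑ l, h.coeff f l • C l ∈ W :=
  h.exists_coeffMap.choose_spec.1 f hf

theorem coeff_mem_A {f : F} (hf : f ∈ S.Lv j) (hV : f ∈ S.G.V) (l : Fin r) : h.coeff f l ∈ A :=
  h.exists_coeffMap.choose_spec.2 f hf hV l

theorem coeff_unique {f : F} (hf : f ∈ S.Lv j) {c : Fin r → Qb}
    (hc : f - ∑ l, c l • C l ∈ W) : h.coeff f = c := by
  have hd : ∑ l, (h.coeff f l - c l) • C l ∈ W := by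
    have := W.sub_mem hc (h.sub_mem hf)
    simpa [sub_smul, Finset.sum_sub_distrib] using this
  funext l
  exact sub_eq_zero.1 (congrFun (h.eq_zero_of_sum_mem (c := fun l => h.coeff f l - c l) hd) l)

theorem coeff_of_mem {f : F} (hf : f ∈ W) : h.coeff f = 0 :=
  h.coeff_unique (h.le hf) (by simpa using hf)

theorem coeff_C (l : Fin r) : h.coeff (C l) = Pi.single l 1 := by
  refine h.coeff_unique (h.mem l) ?_
  rw [Finset.sum_eq_single l]
  · simp
  · intro b _ hb; simp [Pi.single_eq_of_ne hb]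
  · simp

theorem mem_iff_coeff_eq_zero {f : F} (hf : f ∈ S.Lv j) : f ∈ W ↔ h.coeff f = 0 := by
  refine ⟨h.coeff_of_mem, fun h0 => ?_⟩
  simpa [h0] using h.sub_mem hf

theorem red_mem_of_coeff {f : F} (hf : f ∈ S.Lv j) (hV : f ∈ S.G.V)
    (hc : ∀ l, h.coeff f l ∈ A.nonunits) : S.G.red f ∈ S.G.redSub W := by
  set c : Fin r → A := fun l => ⟨h.coeff f l, h.coeff_mem_A hf hV l⟩
  have hsumV : ∑ l, (c l : Qb) • C l ∈ S.G.V :=
    S.G.V.sum_mem fun l _ => S.G.smul_mem _ (h.mem_V l)
  have h1 : S.G.red (∑ l, (c l : Qb) • C l) = 0 := by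
    rw [S.G.red_sum_smul h.mem_V c]
    refine Finset.sum_eq_zero fun l _ => ?_
    have : π (c l) = 0 := (S.G.res_eq_zero_iff _).2 fun hu =>
      (IsLocalRing.mem_maximalIdeal _).1
        ((ValuationSubring.coe_mem_nonunits_iff (a := c l)).1 (hc l)) hu
    rw [this, zero_smul]
  refine ⟨f - ∑ l, (c l : Qb) • C l, h.sub_mem hf, S.G.V.sub_mem hV hsumV, ?_⟩
  rw [S.G.red_sub hV hsumV, h1, sub_zero]

theorem eq_zero_of_red_sum_mem {c : Fin r → A}
    (hc : ∑ l, π (c l) • S.G.red (C l) ∈ S.G.redSub W) : ∀ l, π (c l) = 0 := by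
  obtain ⟨d, w, hspan, hli, -, hred⟩ := h.exists_adapted
  rw [← hred, Submodule.mem_span_range_iff_exists_fun] at hc
  obtain ⟨a, ha⟩ := hc
  intro l
  have h0 := Fintype.linearIndependent_iff.1 hli.2 (Sum.elim a (fun l => -π (c l)))
    (by simp [ha, Finset.sum_neg_distrib])
  simpa using h0 (Sum.inr l)

end GoodCompl

/-- Integral vectors whose reductions span `L(j D̄)` form a full system. -/
theorem fullAt_of_span {j : ℕ} (hj : j ≠ 0) {α : Type*} (v : α → F)
    (hv : ∀ a, v a ∈ S.Lv j) (hV : ∀ a, v a ∈ S.G.V)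
    (hspan : S.LvBar j ≤ Submodule.span k (Set.range fun a => S.G.red (v a))) :
    FullAt A fun a i => S.coord j (v a) i := by
  intro c hc hsum i
  let basis := Module.Basis.span (S.e_redIndep j).2
  let φ : Submodule.span k (Set.range fun i => S.G.red (S.e j i)) →ₗ[k] k :=
    (Fintype.linearCombination k fun i => π ⟨c i, hc i⟩).comp basis.equivFun.toLinearMap
  obtain ⟨ψ, hψ⟩ := LinearMap.exists_extend φ
  have hψe : ∀ i, ψ (S.G.red (S.e j i)) = π ⟨c i, hc i⟩ := fun i => by
    have hmem : S.G.red (S.e j i) ∈ Submodule.span k (Set.range fun i => S.G.red (S.e j i)) :=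
      Submodule.subset_span ⟨i, rfl⟩
    have h1 := LinearMap.congr_fun hψ ⟨_, hmem⟩
    rw [LinearMap.comp_apply, Submodule.subtype_apply] at h1
    rw [h1]
    have h2 : (⟨S.G.red (S.e j i), hmem⟩ : Submodule.span k (Set.range fun i => S.G.red (S.e j i))) =
        basis i := (Module.Basis.span_apply (S.e_redIndep j).2 i).symm
    simp [φ, h2, Fintype.linearCombination_apply, Finsupp.single_apply]
  have hzero : ∀ a, ψ (S.G.red (v a)) = 0 := by
    intro a
    have hA := fun i => S.coord_mem_of_mem_V hj (hv a) (hV a) i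
    rw [(S.mem_V_of_coord hj (hv a) hA).2, map_sum]
    simp only [map_smul, hψe, smul_eq_mul, ← map_mul, ← map_sum]
    rw [S.G.res_eq_zero_iff, ← mem_nonunits_iff, ← IsLocalRing.mem_maximalIdeal,
      ← ValuationSubring.coe_mem_nonunits_iff]
    convert hsum a using 1
    push_cast
    rfl
  have hall : S.G.red (S.e j i) ∈ LinearMap.ker ψ := by
    refine Submodule.span_le.2 ?_ (hspan (by rw [Setup.LvBar, ← S.span_red_e hj]; exact Submodule.subset_span ⟨i, rfl⟩))
    rintro _ ⟨a, rfl⟩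
    exact hzero a
  rw [LinearMap.mem_ker, hψe, S.G.res_eq_zero_iff, ← mem_nonunits_iff,
    ← IsLocalRing.mem_maximalIdeal, ← ValuationSubring.coe_mem_nonunits_iff] at hall
  exact hall

end Setup

end FLTAgent.FlatJ
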