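/-
Roots of unity of prime order avoiding bad sets, and moment vectors.
-/
import Fermat.Agent.FlatJ.Master

/-!
General position by roots of unity: `exists_prime_avoid` gives a prime `m` outside a finite
set with no nontrivial `m`-th root of unity in a given finite set; `rootSet m` is Galois stable
and reduces injectively for `m ≠ ℓ`. The moment vector `moment e t = ∑ tⁱ eᵢ` lies in a proper
subspace for finitely many `t` only (`finite_moment_mem`), as a nonzero polynomial has finitely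
many roots.
-/

set_option autoImplicit false

noncomputable section

namespace FLTAgent.FlatJ

section Avoid

variable {k : Type*} [Field k]

theorem eq_one_of_pow_eq_one_two {m m' : ℕ} (hm : m.Prime) (hm' : m'.Prime) (hne : m ≠ m') {t : k}
    (h : t ^ m = 1) (h' : t ^ m' = 1) : t = 1 := by
  have := pow_gcd_eq_one.2 (And.intro h h')
  rwa [(Nat.coprime_primes hm hm').2 hne, pow_one] at this

/-- Outside finitely many primes `m`, no nontrivial `m`-th root of unity is bad. -/
theorem finite_bad_primes {Bad : Set k} (hBad : Bad.Finite) :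
    {m : ℕ | m.Prime ∧ ∃ t ∈ Bad, t ≠ 1 ∧ t ^ m = 1}.Finite := by
  have : {m : ℕ | m.Prime ∧ ∃ t ∈ Bad, t ≠ 1 ∧ t ^ m = 1} ⊆
      ⋃ t ∈ Bad, {m : ℕ | m.Prime ∧ t ≠ 1 ∧ t ^ m = 1} := by
    rintro m ⟨hm, t, ht, h1, h2⟩
    exact Set.mem_biUnion ht ⟨hm, h1, h2⟩
  refine (hBad.biUnion fun t _ => ?_).subset this
  refine Set.Subsingleton.finite fun m hm m' hm' => ?_
  by_contra hne
  exact hm.2.1 (eq_one_of_pow_eq_one_two hm.1 hm'.1 hne hm.2.2 hm'.2.2)

/-- A prime outside a finite set none of whose nontrivial roots of unity is bad. -/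
theorem exists_prime_avoid (P : Finset ℕ) {Bad : Set k} (hBad : Bad.Finite) :
    ∃ m : ℕ, m.Prime ∧ m ∉ P ∧ ∀ t : k, t ^ m = 1 → t ≠ 1 → t ∉ Bad := by
  obtain ⟨m, hm, hmem⟩ :=
    (Nat.infinite_setOfPred_prime.sdiff ((finite_bad_primes hBad).union P.finite_toSet)).nonempty
  refine ⟨m, hm, fun h => hmem (Or.inr h), fun t h1 h2 h3 => ?_⟩
  exact hmem (Or.inl ⟨hm, t, h3, h2, h1⟩)

end Avoid

section Roots

variable {A : ValuationSubring Qb} {ℓ : ℕ} [Fact ℓ.Prime]

/-- The nontrivial `m`-th roots of unity. -/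
def rootSet (m : ℕ) : Set Qb := {t | t ^ m = 1 ∧ t ≠ 1}

theorem finite_rootSet {m : ℕ} (hm : 0 < m) : (rootSet m).Finite := by
  refine (Polynomial.finite_setOfPred_isRoot
    (p := (Polynomial.X ^ m - 1 : Polynomial Qb)) ?_).subset fun t ht => ?_
  · exact (Polynomial.monic_X_pow_sub_C 1 hm.ne').ne_zero
  · simp [Polynomial.IsRoot, ht.1]

theorem nonempty_rootSet {m : ℕ} (hm : m.Prime) : (rootSet m).Nonempty := by
  have : NeZero (m : Qb) := ⟨Nat.cast_ne_zero.2 hm.ne_zero⟩
  obtain ⟨t, ht⟩ := HasEnoughRootsOfUnity.exists_primitiveRoot Qb m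
  exact ⟨t, ht.pow_eq_one, ht.ne_one hm.one_lt⟩

theorem map_mem_rootSet {m : ℕ} (σ : GQ) {t : Qb} (ht : t ∈ rootSet m) : σ t ∈ rootSet m :=
  ⟨by rw [← map_pow, ht.1, map_one], fun h => ht.2 (σ.injective (h.trans (map_one σ).symm))⟩

theorem mem_of_pow_eq_one {m : ℕ} (hm : 0 < m) {t : Qb} (ht : t ^ m = 1) : t ∈ A := by
  refine GalCommon.mem_of_isIntegral A ?_
  exact ⟨Polynomial.X ^ m - 1, by simpa using Polynomial.monic_X_pow_sub_C (1 : ℤ) hm.ne', by
    simp [ht]⟩

/-- Reduction is injective on `m`-th roots of unity, `m ≠ ℓ`. -/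
theorem eq_one_of_residue_eq_one {m : ℕ} (hm : m.Prime) (hA : A.LiesOverPrime ℓ) (hmℓ : m ≠ ℓ)
    {t : Qb} (ht : t ^ m = 1) {h : t ∈ A} (hres : IsLocalRing.residue A ⟨t, h⟩ = 1) : t = 1 := by
  by_contra hne
  have hsum : ∑ i ∈ Finset.range m, t ^ i = 0 := by
    have := geom_sum_mul t m
    rw [ht, sub_self] at this
    exact (mul_eq_zero.1 this).resolve_right (sub_ne_zero.2 hne)
  have hsumA : (∑ i ∈ Finset.range m, (⟨t, h⟩ : A) ^ i) = 0 := by
    apply Subtype.ext
    push_cast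
    exact hsum
  have := congrArg (IsLocalRing.residue A) hsumA
  rw [map_sum, map_zero] at this
  simp only [map_pow, hres, one_pow, Finset.sum_const, Finset.card_range, nsmul_eq_mul,
    mul_one] at this
  rw [GalCommon.natCast_residue_eq_zero_iff (Fact.out : ℓ.Prime) hA] at this
  exact hmℓ ((Nat.prime_dvd_prime_iff_eq Fact.out hm).1 this).symm

theorem residue_rootSet_injective {m : ℕ} (hm : m.Prime) (hA : A.LiesOverPrime ℓ) (hmℓ : m ≠ ℓ)
    {t t' : Qb} (ht : t ^ m = 1) (ht' : t' ^ m = 1) {h : t ∈ A} {h' : t' ∈ A}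
    (hres : IsLocalRing.residue A ⟨t, h⟩ = IsLocalRing.residue A ⟨t', h'⟩) : t = t' := by
  have ht0 : t' ≠ 0 := fun h0 => by simp [h0, zero_pow hm.ne_zero] at ht'
  have hinv : t'⁻¹ ∈ A := mem_of_pow_eq_one hm.pos (by rw [inv_pow, ht', inv_one])
  have := eq_one_of_residue_eq_one (t := t * t'⁻¹) hm hA hmℓ
    (by rw [mul_pow, inv_pow, ht, ht', inv_one, one_mul]) (h := mul_mem h hinv) (by
    rw [show (⟨t * t'⁻¹, mul_mem h hinv⟩ : A) = ⟨t, h⟩ * ⟨t'⁻¹, hinv⟩ from rfl, map_mul, hres,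
      ← map_mul, show (⟨t', h'⟩ : A) * ⟨t'⁻¹, hinv⟩ = 1 from Subtype.ext (mul_inv_cancel₀ ht0),
      map_one])
  exact eq_of_mul_inv_eq_one this

/-- The residue of a nontrivial root of unity is a nontrivial root of unity. -/
theorem residue_rootSet {m : ℕ} (hm : m.Prime) (hA : A.LiesOverPrime ℓ) (hmℓ : m ≠ ℓ)
    {t : Qb} (ht : t ∈ rootSet m) (h : t ∈ A) :
    IsLocalRing.residue A ⟨t, h⟩ ^ m = 1 ∧ IsLocalRing.residue A ⟨t, h⟩ ≠ 1 := by
  refine ⟨?_, fun hres => ht.2 (eq_one_of_residue_eq_one hm hA hmℓ ht.1 hres)⟩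
  rw [← map_pow, show (⟨t, h⟩ : A) ^ m = 1 from Subtype.ext (by push_cast; exact ht.1), map_one]

end Roots

section Moment

variable {k V : Type*} [Field k] [AddCommGroup V] [Module k V]

/-- The moment vector of `t` in a basis. -/
def moment {n : ℕ} (e : Fin n → V) (t : k) : V := ∑ i : Fin n, t ^ (i : ℕ) • e i

/-- A proper subspace contains only finitely many moment vectors. -/
theorem finite_moment_mem {n : ℕ} {e : Fin n → V} {W U : Submodule k V}
    (he : Submodule.span k (Set.range e) = W) (hU : U < W) :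
    {t : k | moment e t ∈ U}.Finite := by
  obtain ⟨i₀, hi₀⟩ : ∃ i, e i ∉ U := by
    by_contra h
    push Not at h
    exact hU.not_ge (he ▸ Submodule.span_le.2 (by rintro _ ⟨i, rfl⟩; exact h i))
  obtain ⟨φ, hφi, hφ⟩ := Submodule.exists_le_ker_of_notMem hi₀
  let p : Polynomial k := ∑ i : Fin n, Polynomial.C (φ (e i)) * Polynomial.X ^ (i : ℕ)
  have hp : p ≠ 0 := fun h => by
    have := congrArg (fun q : Polynomial k => q.coeff (i₀ : ℕ)) h
    simp [p, Polynomial.finsetSum_coeff, Polynomial.coeff_X_pow, Fin.val_inj, hφi] at this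
  refine (Polynomial.finite_setOfPred_isRoot hp).subset fun t ht => ?_
  have h0 : φ (moment e t) = 0 := hφ ht
  show Polynomial.IsRoot p t
  rw [Polynomial.IsRoot, ← h0]
  simp only [p, moment, Polynomial.eval_finsetSum, map_sum, map_smul, smul_eq_mul,
    Polynomial.eval_mul, Polynomial.eval_C, Polynomial.eval_pow, Polynomial.eval_X]
  exact Finset.sum_congr rfl fun i _ => mul_comm _ _

/-- A nonzero polynomial family has finitely many zeros. -/
theorem finite_moment_eq_zero {n : ℕ} {w : Fin n → V} (h : ∃ i, w i ≠ 0) :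
    {t : k | moment w t = 0}.Finite := by
  obtain ⟨i, hi⟩ := h
  have hlt : (⊥ : Submodule k V) < Submodule.span k (Set.range w) := by
    rw [bot_lt_iff_ne_bot]
    intro h0
    exact hi ((Submodule.mem_bot k).1 (h0 ▸ Submodule.subset_span ⟨i, rfl⟩))
  refine (finite_moment_mem rfl hlt).subset fun t ht => ?_
  simpa [Submodule.mem_bot] using ht

end Moment

end FLTAgent.FlatJ
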