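/-
Selection of places and of moment vectors in general position on the special fibre.
-/
import Fermat.Agent.FlatJ.Moment
import Fermat.Agent.FlatJ.Span

/-!
Choices on one curve (used on the special fibre) by induction and `exists_prime_avoid`:
`exists_placePrimes` gives primes such that places `Qᵢ` over nontrivial roots of unity of these
orders are simple for `y` and lower `h¹(z_a + ∑ Qᵢ)` each time; `exists_complementPrimes` gives
primes whose moment vectors complement finitely many subspaces; `exists_nonzeroPrime` gives a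
prime at whose roots finitely many moment vectors are nonzero.
-/

set_option autoImplicit false

noncomputable section

open AlgebraicCurve

namespace FLTAgent.FlatJ

open FF

section Places

variable {k Fb : Type*} [Field k] [Field Fb] [Algebra k Fb] [IsAlgClosed k] [IsFF k Fb]

/-- `Q` lies over the value `t` of `y`. -/
def LiesOver (y : Fb) (Q : Place k Fb) (t : k) : Prop := 0 < Q.ord (y - algebraMap k Fb t)

theorem LiesOver.unique {y : Fb} {Q : Place k Fb} {t t' : k}
    (h : LiesOver y Q t) (h' : LiesOver y Q t') : t = t' := by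
  by_contra hne
  unfold LiesOver at h h'
  have h2 := le_ord_add Q (n := 1) (f := y - algebraMap k Fb t)
    (g := -(y - algebraMap k Fb t')) (Or.inr (by omega)) (Or.inr (by rw [FF.ord_neg]; omega))
  rw [neg_sub, sub_add_sub_cancel', ← map_sub, FF.ord_algebraMap] at h2
  rcases h2 with h2 | h2
  · rw [map_eq_zero, sub_eq_zero] at h2
    exact hne h2.symm
  · omega

theorem finite_liesOver_values (y : Fb) {S : Set (Place k Fb)} (hS : S.Finite) :
    {t : k | ∃ Q ∈ S, LiesOver y Q t}.Finite := by
  have : {t : k | ∃ Q ∈ S, LiesOver y Q t} ⊆ ⋃ Q ∈ S, {t : k | LiesOver y Q t} := by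
    rintro t ⟨Q, hQ, ht⟩
    exact Set.mem_biUnion hQ ht
  refine (hS.biUnion fun Q _ => ?_).subset this
  exact Set.Subsingleton.finite fun t ht t' ht' => LiesOver.unique ht ht'

theorem finite_liesOver (y : Fb) (t : k) : {Q : Place k Fb | LiesOver y Q t}.Finite :=
  (finite_setOf_ord_neg (K := k) (y - algebraMap k Fb t)⁻¹).subset fun Q (hQ : 0 < Q.ord (y - algebraMap k Fb t)) => by
    show Q.ord _ < 0
    rw [Q.ord_inv]
    omega

omit [IsAlgClosed k] in
theorem finite_roots {m : ℕ} (hm : 0 < m) : {t : k | t ^ m = 1}.Finite := by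
  refine (Polynomial.finite_setOfPred_isRoot
    (p := (Polynomial.X ^ m - 1 : Polynomial k)) ?_).subset fun t (ht : t ^ m = 1) => ?_
  · exact (Polynomial.monic_X_pow_sub_C 1 hm.ne').ne_zero
  · simp [Polynomial.IsRoot, ht]

/-- A tuple of places over nontrivial roots of unity of the given orders. -/
def ValidTuple (y : Fb) {j : ℕ} (m : Fin j → ℕ) (Q : Fin j → Place k Fb) : Prop :=
  ∀ i, ∃ t : k, t ^ m i = 1 ∧ t ≠ 1 ∧ LiesOver y (Q i) t

theorem finite_validTuple (y : Fb) {j : ℕ} {m : Fin j → ℕ} (hm : ∀ i, 0 < m i) :
    {Q : Fin j → Place k Fb | ValidTuple y m Q}.Finite := by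
  let T : Fin j → Set (Place k Fb) := fun i => ⋃ t ∈ {t : k | t ^ m i = 1}, {Q | LiesOver y Q t}
  have hT : ∀ i, (T i).Finite := fun i => (finite_roots (hm i)).biUnion fun t _ => finite_liesOver y t
  refine (Set.Finite.pi hT).subset fun Q hQ i _ => ?_
  obtain ⟨t, h1, -, h3⟩ := hQ i
  exact Set.mem_biUnion (show t ∈ {t : k | t ^ m i = 1} from h1) h3

theorem hOne_le_genus {D : Divisor k Fb} (hD : Divisor.degree D = 0) :
    hOne D ≤ genusFF k Fb := by
  have h1 := riemann_roch D
  have h2 : ell D ≤ 1 := by
    by_contra h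
    obtain ⟨f, hf, hf0⟩ := exists_ne_zero_of_ell_pos (lt_trans zero_lt_one (not_le.1 h))
    obtain ⟨E, hE, hP, -⟩ := exists_effective_equiv hf hf0
    have hd := degree_eq_of_isPrincipal hP
    rw [map_sub, hD, sub_zero] at hd
    have := ell_le_degree_add_one hE
    rw [ell_congr hP, hd] at this
    omega
  omega

/-- Primes such that places over the corresponding roots of unity are in general position. -/
theorem exists_placePrimes (ℓ : ℕ) (y : Fb)
    (hram : {Q : Place k Fb | ∃ c : k, 2 ≤ Q.ord (y - algebraMap k Fb c)}.Finite)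
    {ι : Type*} [Finite ι] (z : ι → Divisor k Fb) (hz : ∀ a, Divisor.degree (z a) = 0) (j : ℕ) :
    ∃ m : Fin j → ℕ, (∀ i, (m i).Prime ∧ m i ≠ ℓ) ∧ Function.Injective m ∧
      ∀ Q : Fin j → Place k Fb, ValidTuple y m Q →
        (∀ a, hOne (z a + ∑ i, Finsupp.single (Q i) 1) ≤ genusFF k Fb - j) ∧
        ∀ i, ∀ t : k, LiesOver y (Q i) t → (Q i).ord (y - algebraMap k Fb t) = 1 := by
  classical
  induction j with
  | zero => exact ⟨Fin.elim0, fun i => i.elim0, fun i => i.elim0, fun Q _ =>
      ⟨fun a => by simpa using hOne_le_genus (k := k) (Fb := Fb) (hz a), fun i => i.elim0⟩⟩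
  | succ j ih =>
    obtain ⟨m, hm, hinj, hgood⟩ := ih
    have hfin := finite_validTuple (k := k) y (m := m) fun i => (hm i).1.pos
    let S : Set (Place k Fb) := {Q | ∃ c : k, 2 ≤ Q.ord (y - algebraMap k Fb c)} ∪
      ⋃ Q ∈ {Q : Fin j → Place k Fb | ValidTuple y m Q}, ⋃ a : ι,
        {v | 0 < hOne (z a + ∑ i, Finsupp.single (Q i) 1) ∧
          hOne (z a + ∑ i, Finsupp.single (Q i) 1 + Finsupp.single v 1) =
            hOne (z a + ∑ i, Finsupp.single (Q i) 1)}
    have hS : S.Finite := hram.union (hfin.biUnion fun Q _ => Set.finite_iUnion fun a => by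
      rcases Nat.eq_zero_or_pos (hOne (z a + ∑ i, Finsupp.single (Q i) 1)) with h | h
      · simp [h]
      · exact (finite_setOf_hOne_add_single_eq h).subset fun v hv => hv.2)
    obtain ⟨m', hm', hnot, havoid⟩ :=
      exists_prime_avoid (insert ℓ (Finset.univ.image m)) (finite_liesOver_values y hS)
    simp only [Finset.mem_insert, Finset.mem_image, Finset.mem_univ, true_and, not_or,
      not_exists] at hnot
    refine ⟨Fin.snoc m m', fun i => ?_, ?_, fun Q hQ => ?_⟩
    · refine Fin.lastCases ?_ ?_ i
      · simp only [Fin.snoc_last]; exact ⟨hm', hnot.1⟩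
      · intro i; simpa using hm i
    · intro a b hab
      induction a using Fin.lastCases with
      | last =>
        induction b using Fin.lastCases with
        | last => rfl
        | cast b => simp only [Fin.snoc_last, Fin.snoc_castSucc] at hab; exact absurd hab.symm (hnot.2 b)
      | cast a =>
        induction b using Fin.lastCases with
        | last => simp only [Fin.snoc_last, Fin.snoc_castSucc] at hab; exact absurd hab (hnot.2 a)
        | cast b =>
          simp only [Fin.snoc_castSucc] at hab
          rw [hinj hab]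
    · have hQ' : ValidTuple y m (fun i => Q i.castSucc) := fun i => by
        simpa using hQ i.castSucc
      obtain ⟨t, ht1, ht2, ht3⟩ := hQ (Fin.last j)
      simp only [Fin.snoc_last] at ht1
      have hnotS : Q (Fin.last j) ∉ S := fun h => havoid t ht1 ht2 ⟨_, h, ht3⟩
      refine ⟨fun a => ?_, fun i => ?_⟩
      · rw [Fin.sum_univ_castSucc, ← add_assoc]
        set D := z a + ∑ i : Fin j, Finsupp.single (Q i.castSucc) (1 : ℤ)
        have h1 := (hgood _ hQ').1 a
        have h2 := hOne_antitone (le_add_of_nonneg_right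
          (Finsupp.single_nonneg.2 (zero_le_one' ℤ)) : D ≤ D + Finsupp.single (Q (Fin.last j)) 1)
        rcases Nat.eq_zero_or_pos (hOne D) with h | h
        · omega
        · have hne : hOne (D + Finsupp.single (Q (Fin.last j)) 1) ≠ hOne D := fun he =>
            hnotS (Or.inr (Set.mem_biUnion (show (fun i => Q i.castSucc) ∈
              {Q : Fin j → Place k Fb | ValidTuple y m Q} from hQ')
              (Set.mem_iUnion.2 ⟨a, h, he⟩)))
          change hOne D ≤ _ at h1
          omega
      · induction i using Fin.lastCases with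
        | cast i => exact (hgood _ hQ').2 i
        | last =>
          intro t' ht'
          unfold LiesOver at ht'
          by_contra hne
          exact hnotS (Or.inl ⟨t', by omega⟩)

end Places

section Vectors

variable {k V : Type*} [Field k] [AddCommGroup V] [Module k V]

/-- A tuple of nontrivial roots of unity of the given orders. -/
def ValidRoots {r : ℕ} (m : Fin r → ℕ) (t : Fin r → k) : Prop := ∀ i, t i ^ m i = 1 ∧ t i ≠ 1

theorem finite_validRoots {r : ℕ} {m : Fin r → ℕ} (hm : ∀ i, 0 < m i) :
    {t : Fin r → k | ValidRoots m t}.Finite := by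
  refine (Set.Finite.pi fun i => finite_roots (k := k) (hm i)).subset fun t ht i _ => (ht i).1

/-- Primes such that moment vectors at the corresponding roots of unity complement finitely many
subspaces of codimension at least `r`. -/
theorem exists_complementPrimes (ℓ : ℕ) {n : ℕ} (e : Fin n → V) {W : Submodule k V}
    (he : Submodule.span k (Set.range e) = W) {ι : Type*} [Finite ι] (U : ι → Submodule k V)
    (hU : ∀ a, U a ≤ W) (r : ℕ) (hr : ∀ a, Module.finrank k (U a) + r ≤ Module.finrank k W) :
    ∃ m : Fin r → ℕ, (∀ i, (m i).Prime ∧ m i ≠ ℓ) ∧ ∀ t : Fin r → k, ValidRoots m t → ∀ a,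
      Module.finrank k ↥(U a ⊔ Submodule.span k (Set.range fun i => moment e (t i))) =
        Module.finrank k (U a) + r := by
  classical
  have : FiniteDimensional k W := he ▸ FiniteDimensional.span_of_finite k (Set.finite_range e)
  have hmem : ∀ t : k, moment e t ∈ W := fun t => he ▸
    Submodule.sum_mem _ fun i _ => Submodule.smul_mem _ _ (Submodule.subset_span ⟨i, rfl⟩)
  induction r with
  | zero =>
    refine ⟨Fin.elim0, fun i => i.elim0, fun t _ a => ?_⟩
    rw [Set.range_eq_empty, Submodule.span_empty, sup_bot_eq, add_zero]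
  | succ r ih =>
    obtain ⟨m, hm, hgood⟩ := ih fun a => by have := hr a; omega
    have hfin := finite_validRoots (k := k) (m := m) fun i => (hm i).1.pos
    let Bad : Set k := ⋃ t ∈ {t : Fin r → k | ValidRoots m t}, ⋃ a : ι,
      {s : k | moment e s ∈ U a ⊔ Submodule.span k (Set.range fun i => moment e (t i))}
    have hBad : Bad.Finite := hfin.biUnion fun t ht => Set.finite_iUnion fun a => by
      have hle : U a ⊔ Submodule.span k (Set.range fun i => moment e (t i)) ≤ W :=
        sup_le (hU a) (Submodule.span_le.2 (by rintro _ ⟨i, rfl⟩; exact hmem _))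
      refine finite_moment_mem he (lt_of_le_of_ne hle fun h => ?_)
      have h1 := hgood t ht a
      have h2 := hr a
      rw [h] at h1
      omega
    obtain ⟨m', hm', hnot, havoid⟩ := exists_prime_avoid {ℓ} hBad
    refine ⟨Fin.snoc m m', fun i => ?_, fun t ht a => ?_⟩
    · refine Fin.lastCases ?_ ?_ i
      · simp only [Fin.snoc_last]; exact ⟨hm', by simpa using hnot⟩
      · intro i; simpa using hm i
    · have ht' : ValidRoots m (fun i => t i.castSucc) := fun i => by simpa using ht i.castSucc
      obtain ⟨h1, h2⟩ := ht (Fin.last r)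
      simp only [Fin.snoc_last] at h1
      have hrange : (Set.range fun i => moment e (t i)) =
          Set.range (fun i : Fin r => moment e (t i.castSucc)) ∪ {moment e (t (Fin.last r))} := by
        ext v
        constructor
        · rintro ⟨i, rfl⟩
          refine Fin.lastCases (Or.inr rfl) (fun i => Or.inl ⟨i, rfl⟩) i
        · rintro (⟨i, rfl⟩ | rfl) <;> exact ⟨_, rfl⟩
      rw [hrange, Submodule.span_union, ← sup_assoc]
      set U' := U a ⊔ Submodule.span k (Set.range fun i : Fin r => moment e (t i.castSucc))
      have : FiniteDimensional k U' := Submodule.finiteDimensional_of_le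
        (sup_le (hU a) (Submodule.span_le.2 (by rintro _ ⟨i, rfl⟩; exact hmem _)) : U' ≤ W)
      have hnm : moment e (t (Fin.last r)) ∉ U' := fun h => havoid _ h1 h2
        (Set.mem_biUnion (show (fun i => t i.castSucc) ∈ {t : Fin r → k | ValidRoots m t} from ht')
          (Set.mem_iUnion.2 ⟨a, h⟩))
      have h3 := Submodule.finrank_sup_add_finrank_inf_eq U' (k ∙ moment e (t (Fin.last r)))
      rw [disjoint_iff.1 (Submodule.disjoint_span_singleton_of_notMem hnm), finrank_bot,
        finrank_span_singleton (fun h0 : moment e (t (Fin.last r)) = 0 => hnm (by rw [h0]; exact zero_mem U'))] at h3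
      have h4 : Module.finrank k U' = Module.finrank k (U a) + r := hgood _ ht' a
      omega

/-- A prime such that moment combinations of finitely many nonzero families do not vanish. -/
theorem exists_nonzeroPrime (ℓ : ℕ) {n : ℕ} {ι : Type*} [Finite ι] (w : ι → Fin n → V)
    (hw : ∀ a, ∃ i, w a i ≠ 0) :
    ∃ m : ℕ, m.Prime ∧ m ≠ ℓ ∧ ∀ t : k, t ^ m = 1 → t ≠ 1 → ∀ a, moment (w a) t ≠ 0 := by
  obtain ⟨m, hm, hnot, havoid⟩ := exists_prime_avoid {ℓ}
    (Set.finite_iUnion fun a => finite_moment_eq_zero (k := k) (hw a))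
  exact ⟨m, hm, by simpa using hnot, fun t h1 h2 a h => havoid t h1 h2 (Set.mem_iUnion.2 ⟨a, h⟩)⟩

end Vectors

end FLTAgent.FlatJ
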