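/-
Base divisors made of places over roots of unity and the effective divisors attached to classes.
-/
import Fermat.Agent.FlatJ.Setup
import Fermat.Agent.FlatJ.Select

/-!
For a finite set `X` of classes, `PlacePrimes X` gives `g` primes; a tuple of places over
nontrivial roots of unity of these orders defines a base divisor `D₀` (`base`) for which every
`a ∈ X` has exactly one effective `E_a ~ a + D₀` (`eff`), also after reduction. Tuples form a
finite Galois set reducing injectively (`eq_of_mapDomain_base_eq`), and `eff` is equivariant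
(`eff_smul`). Existence (`nonempty_placePrimes`) is `exists_placePrimes` on the special fibre.
-/

set_option autoImplicit false

noncomputable section

open AlgebraicCurve

namespace FLTAgent.FlatJ

open FLTAgent.Reduction

namespace Setup

variable {ℓ : ℕ} [Fact ℓ.Prime] {F k Fb : Type*} [Field F] [Algebra Qb F] [Field k] [Field Fb]
  [Algebra k Fb] [IsAlgClosed k] [FF.IsFF Qb F] [FF.IsFF k Fb] {A : ValuationSubring Qb}
  {π : A →+* k} (S : Setup ℓ F k Fb A π)

/-- A representative divisor of a class. -/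
def rep (a : Pic0 Qb F) : Divisor Qb F :=
  (Function.surjInv (Pic0.mk_surjective (K := Qb) (F := F)) a : Divisor.degZero (K := Qb) (F := F))

theorem degree_rep (a : Pic0 Qb F) : Divisor.degree (rep a) = 0 :=
  (Function.surjInv (Pic0.mk_surjective (K := Qb) (F := F)) a).2

theorem mk_rep (a : Pic0 Qb F) : Pic0.mk ⟨rep a, degree_rep a⟩ = a :=
  Function.surjInv_eq Pic0.mk_surjective a

theorem mk_eq_mk_iff {D D' : Divisor.degZero (K := Qb) (F := F)} :
    Pic0.mk D = Pic0.mk D' ↔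
      Divisor.IsPrincipal ((D' : Divisor Qb F) - (D : Divisor Qb F)) := by
  rw [Pic0.mk, Pic0.mk, QuotientAddGroup.eq_iff_sub_mem, AddSubgroup.mem_addSubgroupOf,
    ← neg_mem_iff, AddSubgroupClass.coe_sub, neg_sub, Divisor.mem_principal]

/-- A tuple of places over nontrivial roots of unity. -/
def IsTuple (mp : Fin S.g → ℕ) (pl : Fin S.g → Place Qb F) : Prop :=
  ∀ i, ∃ ζ ∈ rootSet (mp i), 0 < (pl i).ord (S.x - algebraMap Qb F ζ)

/-- The divisor of a tuple. -/
def base (pl : Fin S.g → Place Qb F) : Divisor Qb F := ∑ i, Finsupp.single (pl i) (1 : ℤ)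

theorem degree_base (pl : Fin S.g → Place Qb F) : Divisor.degree (S.base pl) = (S.g : ℤ) := by
  simp [base, map_sum, FF.deg_eq_one]

theorem base_nonneg (pl : Fin S.g → Place Qb F) : 0 ≤ S.base pl :=
  Finset.sum_nonneg fun _ _ => Finsupp.single_nonneg.2 zero_le_one

include S in
theorem res_eq_iff {a b : A} : π a = π b ↔ IsLocalRing.residue A a = IsLocalRing.residue A b := by
  rw [← sub_eq_zero, ← map_sub, S.G.res_eq_zero_iff, ← sub_eq_zero (a := IsLocalRing.residue A a),
    ← map_sub, IsLocalRing.residue_eq_zero_iff, IsLocalRing.mem_maximalIdeal, mem_nonunits_iff]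

include S in
theorem res_rootSet {m : ℕ} (hm : m.Prime) (hmℓ : m ≠ ℓ) {ζ : Qb} (hζ : ζ ∈ rootSet m)
    (h : ζ ∈ A) : π ⟨ζ, h⟩ ^ m = 1 ∧ π ⟨ζ, h⟩ ≠ 1 := by
  obtain ⟨h1, h2⟩ := residue_rootSet hm S.hA hmℓ hζ h
  refine ⟨?_, fun h0 => h2 ?_⟩
  · rw [← map_pow, show (⟨ζ, h⟩ : A) ^ m = 1 from Subtype.ext (by push_cast; exact hζ.1), map_one]
  · rw [← map_one π, S.res_eq_iff, map_one] at h0
    exact h0

include S in
theorem res_rootSet_injective {m : ℕ} (hm : m.Prime) (hmℓ : m ≠ ℓ) {ζ ζ' : Qb}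
    (hζ : ζ ∈ rootSet m) (hζ' : ζ' ∈ rootSet m) {h : ζ ∈ A} {h' : ζ' ∈ A}
    (he : π ⟨ζ, h⟩ = π ⟨ζ', h'⟩) : ζ = ζ' :=
  residue_rootSet_injective hm S.hA hmℓ hζ.1 hζ'.1 (S.res_eq_iff.1 he)

/-- The reduction of a place over `ζ` lies over the residue of `ζ`. -/
theorem liesOver_r {P : Place Qb F} {ζ : Qb} (hζ : ζ ∈ A)
    (hP : 0 < P.ord (S.x - algebraMap Qb F ζ)) :
    LiesOver (S.G.red S.x) (S.r P) (π ⟨ζ, hζ⟩) ∧
      ∀ P' : Place Qb F, P' ≠ P → S.r P' = S.r P → 0 < P'.ord (S.x - algebraMap Qb F ζ) →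
        2 ≤ (S.r P).ord (S.G.red S.x - algebraMap k Fb (π ⟨ζ, hζ⟩)) := by
  set u := S.x - algebraMap Qb F ζ with hu
  have huV : u ∈ S.G.V := S.G.V.sub_mem S.hx.mem (S.G.const_mem ⟨ζ, hζ⟩)
  have hred : S.G.red u = S.G.red S.x - algebraMap k Fb (π ⟨ζ, hζ⟩) := by
    rw [hu, S.G.red_sub S.hx.mem (S.G.const_mem ⟨ζ, hζ⟩),
      show algebraMap Qb F ζ = algebraMap Qb F ((⟨ζ, hζ⟩ : A) : Qb) from rfl, S.G.red_const]
  have hred0 : S.G.red u ≠ 0 := by
    rw [hred, sub_ne_zero]
    exact S.hx.not_const _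
  have hu0 : u ≠ 0 := fun h => hred0 (by rw [h, S.G.red_zero])
  set T : Divisor Qb F := divOf u + poleDiv S.x with hT
  have hTapp : ∀ v : Place Qb F, T v = v.ord u + max 0 (-v.ord S.x) := fun v => by
    rw [hT, Finsupp.add_apply, S.hx.curve.divOf_apply, S.hx.curve.poleDiv_apply]
  have hTnn : ∀ v : Place Qb F, 0 ≤ T v := fun v => by
    rw [hTapp]
    rcases le_or_gt 0 (v.ord S.x) with hv | hv
    · have h1 : 0 ≤ v.ord u := by
        have := (Vanish.self (v := v) S.x).mono hv |>.sub (Vanish.const (v := v) ζ)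
        exact Vanish.zero_iff.1 this
      omega
    · have h1 := FF.ord_add_of_lt v (f := S.x) (fun h => by simp [h] at hv)
        (g := -algebraMap Qb F ζ) (Or.inr (by rw [FF.ord_neg, FF.ord_algebraMap]; exact hv))
      rw [← sub_eq_add_neg] at h1
      rw [hu, h1.2]
      omega
  have hmap : Finsupp.mapDomain S.r T = divOf (S.G.red u) + poleDiv (S.G.red S.x) := by
    rw [hT, Finsupp.mapDomain_add, S.isRed.mapDomain_divOf huV hred0, S.mapDomain_poleDiv]
  have hval : Finsupp.mapDomain S.r T (S.r P) =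
      (S.r P).ord (S.G.red u) + max 0 (-(S.r P).ord (S.G.red S.x)) := by
    rw [hmap, Finsupp.add_apply, S.hx.curveBar.divOf_apply, S.hx.curveBar.poleDiv_apply]
  have hge := le_mapDomain_of_nonneg S.r T (S.r P) (fun a _ => hTnn a) (a := P) rfl
  have hPT : 1 ≤ T P := by rw [hTapp]; omega
  have hfin : 0 ≤ (S.r P).ord (S.G.red S.x) := by
    by_contra hneg
    have h1 := FF.ord_add_of_lt (S.r P) (f := S.G.red S.x) (S.hx.red_ne_zero)
      (g := -algebraMap k Fb (π ⟨ζ, hζ⟩))
      (Or.inr (by rw [FF.ord_neg, FF.ord_algebraMap]; omega))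
    rw [← sub_eq_add_neg, ← hred] at h1
    rw [hval, h1.2] at hge
    omega
  rw [hval, max_eq_left (by omega), add_zero, hred] at hge
  refine ⟨lt_of_lt_of_le hPT hge, fun P' hne hr hP' => ?_⟩
  have h2 := add_le_mapDomain_of_nonneg S.r T (S.r P) (fun a _ => hTnn a) (a := P) (a' := P')
    rfl hr hne.symm
  rw [hval, max_eq_left (by omega), add_zero, hred] at h2
  have : 1 ≤ T P' := by rw [hTapp]; omega
  omega

/-- Primes putting the tuples in general position. -/
structure PlacePrimes (X : Set (Pic0 Qb F)) where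
  mp : Fin S.g → ℕ
  prime : ∀ i, (mp i).Prime
  ne : ∀ i, mp i ≠ ℓ
  injective : Function.Injective mp
  hOne_red : ∀ pl, S.IsTuple mp pl → ∀ a ∈ X,
    FF.hOne (Finsupp.mapDomain S.r (rep a + S.base pl)) = 0
  simple : ∀ pl, S.IsTuple mp pl → ∀ (i : Fin S.g) (t : k),
    LiesOver (S.G.red S.x) (S.r (pl i)) t →
      (S.r (pl i)).ord (S.G.red S.x - algebraMap k Fb t) = 1

/-- Every finite set of classes has primes in general position. -/
theorem nonempty_placePrimes {X : Set (Pic0 Qb F)} (hX : X.Finite) :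
    Nonempty (S.PlacePrimes X) := by
  have := hX.to_subtype
  obtain ⟨m, hm, hinj, hgood⟩ := exists_placePrimes ℓ (S.G.red S.x) S.finite_ram
    (fun a : X => Finsupp.mapDomain S.r (rep (a : Pic0 Qb F)))
    (fun a => by rw [S.degree_mapDomain, degree_rep]) S.g
  have hvalid : ∀ pl, S.IsTuple m pl → ValidTuple (S.G.red S.x) m fun i => S.r (pl i) := by
    intro pl hpl i
    obtain ⟨ζ, hζ, hord⟩ := hpl i
    have hζA : ζ ∈ A := mem_of_pow_eq_one (hm i).1.pos hζ.1
    obtain ⟨h1, h2⟩ := S.res_rootSet (hm i).1 (hm i).2 hζ hζA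
    exact ⟨_, h1, h2, (S.liesOver_r hζA hord).1⟩
  refine ⟨⟨m, fun i => (hm i).1, fun i => (hm i).2, hinj, fun pl hpl a ha => ?_,
    fun pl hpl i t ht => (hgood _ (hvalid pl hpl)).2 i t ht⟩⟩
  have h := (hgood _ (hvalid pl hpl)).1 ⟨a, ha⟩
  rw [S.genusBar_eq, Nat.sub_self] at h
  rw [Finsupp.mapDomain_add, base, Finsupp.mapDomain_finsetSum]
  simp only [Finsupp.mapDomain_single]
  exact Nat.le_zero.1 h

namespace PlacePrimes

variable {S} {X : Set (Pic0 Qb F)} (M : S.PlacePrimes X)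

theorem finite_tuples : {pl : Fin S.g → Place Qb F | S.IsTuple M.mp pl}.Finite := by
  let T : Fin S.g → Set (Place Qb F) := fun i =>
    ⋃ ζ ∈ rootSet (M.mp i), {P | LiesOver S.x P ζ}
  have hT : ∀ i, (T i).Finite := fun i =>
    (finite_rootSet (M.prime i).pos).biUnion fun ζ _ => finite_liesOver S.x ζ
  refine (Set.Finite.pi hT).subset fun pl hpl i _ => ?_
  obtain ⟨ζ, hζ, hord⟩ := hpl i
  exact Set.mem_biUnion hζ hord

theorem exists_tuple : ∃ pl, S.IsTuple M.mp pl := by
  have hx : Transcendental Qb S.x := by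
    by_contra h
    obtain ⟨c, hc⟩ := FF.mem_range_of_not_transcendental h
    obtain ⟨Q, hQ⟩ := S.hx.exists_pole_bar
    have hcA : c ∈ A := S.hx.mem_A_of_algebraMap_mem (hc ▸ S.hx.mem)
    exact S.hx.not_const (π ⟨c, hcA⟩) (by
      rw [← hc, show algebraMap Qb F c = algebraMap Qb F ((⟨c, hcA⟩ : A) : Qb) from rfl,
        S.G.red_const])
  choose ζ hζ using fun i => nonempty_rootSet (M.prime i)
  choose P hP using fun i => FF.exists_ord_sub_pos hx (ζ i)
  exact ⟨P, fun i => ⟨ζ i, hζ i, hP i⟩⟩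

theorem isTuple_smul {pl : Fin S.g → Place Qb F} (h : S.IsTuple M.mp pl) (σ : GQ) :
    S.IsTuple M.mp fun i => S.gal σ • pl i := by
  intro i
  obtain ⟨ζ, hζ, hord⟩ := h i
  refine ⟨σ ζ, map_mem_rootSet σ hζ, ?_⟩
  rwa [show S.x - algebraMap Qb F (σ ζ) = S.gal σ • (S.x - algebraMap Qb F ζ) by
    rw [smul_sub, S.gal_x, S.gal_smul_algebraMap], SemilinearAut.ord_smul]

theorem base_smul (pl : Fin S.g → Place Qb F) (σ : GQ) :
    S.base (fun i => S.gal σ • pl i) = S.gal σ • S.base pl := by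
  simp [base, Finset.smul_sum]

variable {pl pl' : Fin S.g → Place Qb F}

/-- A place in two tuples sits in the same slot with the same root. -/
theorem slot_eq (h : S.IsTuple M.mp pl) (h' : S.IsTuple M.mp pl') {i j : Fin S.g}
    (he : S.r (pl i) = S.r (pl' j)) : i = j ∧ pl i = pl' j := by
  obtain ⟨ζ, hζ, hord⟩ := h i
  obtain ⟨ζ', hζ', hord'⟩ := h' j
  have hζA : ζ ∈ A := mem_of_pow_eq_one (M.prime i).pos hζ.1
  have hζA' : ζ' ∈ A := mem_of_pow_eq_one (M.prime j).pos hζ'.1
  obtain ⟨h1, h2⟩ := S.liesOver_r hζA hord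
  obtain ⟨h1', -⟩ := S.liesOver_r hζA' hord'
  rw [← he] at h1'
  have ht := LiesOver.unique h1 h1'
  have hij : i = j := by
    by_contra hne
    obtain ⟨a1, a2⟩ := S.res_rootSet (M.prime i) (M.ne i) hζ hζA
    obtain ⟨b1, -⟩ := S.res_rootSet (M.prime j) (M.ne j) hζ' hζA'
    rw [← ht] at b1
    exact a2 (eq_one_of_pow_eq_one_two (M.prime i) (M.prime j) (fun h => hne (M.injective h))
      a1 b1)
  refine ⟨hij, ?_⟩
  subst hij
  obtain rfl := S.res_rootSet_injective (M.prime i) (M.ne i) hζ hζ' ht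
  by_contra hne
  have h3 := h2 (pl' i) (Ne.symm hne) he.symm hord'
  have h4 := M.simple pl h i _ h1
  omega

theorem eq_of_mapDomain_base_eq (h : S.IsTuple M.mp pl) (h' : S.IsTuple M.mp pl')
    (he : Finsupp.mapDomain S.r (S.base pl) = Finsupp.mapDomain S.r (S.base pl')) : pl = pl' := by
  classical
  simp only [base, Finsupp.mapDomain_finsetSum, Finsupp.mapDomain_single] at he
  funext i
  have h1 := congrArg (fun D : Divisor k Fb => D (S.r (pl i))) he
  simp only [Finsupp.finsetSum_apply, Finsupp.single_apply] at h1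
  obtain ⟨j, hj⟩ : ∃ j, S.r (pl' j) = S.r (pl i) := by
    by_contra hno
    push Not at hno
    simp only [hno, if_false, Finset.sum_const_zero] at h1
    have h2 := Finset.single_le_sum (f := fun j => if S.r (pl j) = S.r (pl i) then (1 : ℤ) else 0)
      (fun j _ => by split <;> omega) (Finset.mem_univ i)
    simp only [if_pos] at h2
    omega
  obtain ⟨hij, hp⟩ := M.slot_eq h h' hj.symm
  rw [hp, hij]

section Eff

variable {a : Pic0 Qb F} (h : S.IsTuple M.mp pl) (ha : a ∈ X)
include h ha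

theorem ell_red_eq_one : FF.ell (Finsupp.mapDomain S.r (rep a + S.base pl)) = 1 := by
  have h1 := FF.riemann_roch (Finsupp.mapDomain S.r (rep a + S.base pl))
  rw [M.hOne_red pl h a ha, S.degree_mapDomain, map_add, degree_rep, S.degree_base,
    S.genusBar_eq] at h1
  omega

theorem ell_eq_one : FF.ell (rep a + S.base pl) = 1 := by
  have h1 := S.ell_le (rep a + S.base pl)
  rw [M.ell_red_eq_one h ha] at h1
  have h2 := FF.degree_add_one_sub_genusFF_le_ell (rep a + S.base pl)
  rw [map_add, degree_rep, S.degree_base, S.genus_eq] at h2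
  omega

end Eff

open Classical in
/-- The effective divisor in the class `a` shifted by the base divisor. -/
def eff (_M : S.PlacePrimes X) (pl : Fin S.g → Place Qb F) (a : Pic0 Qb F) : Divisor Qb F :=
  if h : FF.ell (rep a + S.base pl) = 1 then
    (FF.existsUnique_effective_of_ell_eq_one h).choose else 0

section Eff

variable {a : Pic0 Qb F} (h : S.IsTuple M.mp pl) (ha : a ∈ X)
include h ha

theorem eff_spec : 0 ≤ M.eff pl a ∧
    Divisor.IsPrincipal (M.eff pl a - (rep a + S.base pl)) := by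
  rw [eff, dif_pos (M.ell_eq_one h ha)]
  exact (FF.existsUnique_effective_of_ell_eq_one (M.ell_eq_one h ha)).choose_spec.1

theorem eff_unique {E : Divisor Qb F} (h0 : 0 ≤ E)
    (hp : Divisor.IsPrincipal (E - (rep a + S.base pl))) : M.eff pl a = E :=
  (FF.existsUnique_effective_of_ell_eq_one (M.ell_eq_one h ha)).unique (M.eff_spec h ha) ⟨h0, hp⟩

theorem degree_eff : Divisor.degree (M.eff pl a) = (S.g : ℤ) := by
  have := FF.degree_eq_of_isPrincipal (M.eff_spec h ha).2
  rw [map_sub, map_add, degree_rep, S.degree_base] at this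
  omega

theorem mapDomain_eff_spec : 0 ≤ Finsupp.mapDomain S.r (M.eff pl a) ∧
    Divisor.IsPrincipal
      (Finsupp.mapDomain S.r (M.eff pl a) - Finsupp.mapDomain S.r (rep a + S.base pl)) := by
  obtain ⟨h0, hp⟩ := M.eff_spec h ha
  refine ⟨S.isRed.mapDomain_nonneg h0, ?_⟩
  have := S.isRed.mapDomain_principal hp
  rwa [← Finsupp.mapDomain.addMonoidHom_apply, map_sub] at this

theorem mapDomain_eff_unique {E : Divisor k Fb} (h0 : 0 ≤ E)
    (hp : Divisor.IsPrincipal (E - Finsupp.mapDomain S.r (rep a + S.base pl))) :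
    Finsupp.mapDomain S.r (M.eff pl a) = E :=
  (FF.existsUnique_effective_of_ell_eq_one (M.ell_red_eq_one h ha)).unique
    (M.mapDomain_eff_spec h ha) ⟨h0, hp⟩

end Eff

theorem eff_zero (h : S.IsTuple M.mp pl) (h0 : (0 : Pic0 Qb F) ∈ X) :
    M.eff pl 0 = S.base pl := by
  refine M.eff_unique h h0 (S.base_nonneg pl) ?_
  have h1 : Pic0.mk ⟨rep (0 : Pic0 Qb F), degree_rep 0⟩ =
      Pic0.mk (0 : Divisor.degZero (K := Qb) (F := F)) := by rw [mk_rep, Pic0.mk_zero]
  have h2 := mk_eq_mk_iff.1 h1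
  simpa [sub_add_cancel_right] using h2

theorem eff_smul (hst : ∀ σ : GQ, ∀ a ∈ X, S.gal σ • a ∈ X) (h : S.IsTuple M.mp pl)
    {a : Pic0 Qb F} (ha : a ∈ X) (σ : GQ) :
    M.eff (fun i => S.gal σ • pl i) (S.gal σ • a) = S.gal σ • M.eff pl a := by
  obtain ⟨h0, hp⟩ := M.eff_spec h ha
  refine M.eff_unique (M.isTuple_smul h σ) (hst σ a ha) ?_ ?_
  · intro v
    rw [SemilinearAut.divisor_smul_apply]
    exact h0 _
  · rw [base_smul]
    have h1 : Divisor.IsPrincipal
        (S.gal σ • (M.eff pl a - (rep a + S.base pl))) := SemilinearAut.smul_mem_principal _ hp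
    have h2 : Pic0.mk ⟨rep (S.gal σ • a), degree_rep _⟩ =
        Pic0.mk (SemilinearAut.degZeroSMulHom (S.gal σ) ⟨rep a, degree_rep a⟩) := by
      rw [← SemilinearAut.pic0_smul_mk, mk_rep, mk_rep]
    have h3 := mk_eq_mk_iff.1 h2
    rw [SemilinearAut.coe_degZeroSMulHom] at h3
    have h4 := Divisor.principal.add_mem (Divisor.mem_principal.2 h1) (Divisor.mem_principal.2 h3)
    rw [Divisor.mem_principal] at h4
    convert h4 using 1
    rw [smul_sub, smul_add]
    abel

theorem mapDomain_eff_eq_of_red (h : S.IsTuple M.mp pl) {a b : Pic0 Qb F} (ha : a ∈ X)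
    (hb : b ∈ X) (hab : Divisor.IsPrincipal (Finsupp.mapDomain S.r (rep a - rep b))) :
    Finsupp.mapDomain S.r (M.eff pl a) = Finsupp.mapDomain S.r (M.eff pl b) := by
  obtain ⟨h0, hp⟩ := M.mapDomain_eff_spec h hb
  refine M.mapDomain_eff_unique h ha h0 ?_
  have h4 := Divisor.principal.sub_mem (Divisor.mem_principal.2 hp) (Divisor.mem_principal.2 hab)
  rw [Divisor.mem_principal] at h4
  convert h4 using 1
  simp only [← Finsupp.mapDomain.addMonoidHom_apply, map_sub, map_add]
  abel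

end PlacePrimes

end Setup

end FLTAgent.FlatJ
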