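/-
Generators of Riemann-Roch spaces with spanning reductions; moment vectors as complements.
-/
import Fermat.Agent.FlatJ.Decomp
import Fermat.Agent.FlatJ.Places

/-!
`GenSys W v`: integral elements of `W` whose reductions span that of `W`; stable under products of
Riemann-Roch spaces of large degree and multiplication by functions with nonzero reduction.
`vec j t`: moment vectors in the fixed basis of `L(j D)`. `exists_vecPrimes`: primes whose roots
give moment vectors forming good complements of finitely many given subspaces.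
-/

set_option autoImplicit false
set_option linter.style.haveILetI false
set_option linter.unusedSectionVars false

noncomputable section

open AlgebraicCurve

namespace FLTAgent.FlatJ

open FLTAgent.Reduction

/-- A tuple of roots of unity of the given orders. -/
def IsRoots {r : ℕ} (m : Fin r → ℕ) (t : Fin r → Qb) : Prop := ∀ i, t i ∈ rootSet (m i)

theorem finite_isRoots {r : ℕ} {m : Fin r → ℕ} (hm : ∀ i, (m i).Prime) :
    {t : Fin r → Qb | IsRoots m t}.Finite :=
  (Set.Finite.pi fun i => finite_rootSet (hm i).pos).subset fun _ ht i _ => ht i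

theorem exists_isRoots {r : ℕ} {m : Fin r → ℕ} (hm : ∀ i, (m i).Prime) : ∃ t, IsRoots m t := by
  choose t ht using fun i => nonempty_rootSet (hm i)
  exact ⟨t, ht⟩

theorem IsRoots.map {r : ℕ} {m : Fin r → ℕ} {t : Fin r → Qb} (h : IsRoots m t) (σ : GQ) :
    IsRoots m fun i => σ (t i) := fun i => map_mem_rootSet σ (h i)

theorem IsRoots.mem {r : ℕ} {m : Fin r → ℕ} (hm : ∀ i, (m i).Prime) {t : Fin r → Qb}
    (h : IsRoots m t) (A : ValuationSubring Qb) (i : Fin r) : t i ∈ A :=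
  mem_of_pow_eq_one (hm i).pos (h i).1

namespace Setup

variable {ℓ : ℕ} [Fact ℓ.Prime] {F k Fb : Type*} [Field F] [Algebra Qb F] [Field k] [Field Fb]
  [Algebra k Fb] [IsAlgClosed k] [FF.IsFF Qb F] [FF.IsFF k Fb] {A : ValuationSubring Qb}
  {π : A →+* k} (S : Setup ℓ F k Fb A π)

include S in
theorem res_zero_iff {a : A} : π a = 0 ↔ (a : Qb) ∈ A.nonunits := by
  rw [S.G.res_eq_zero_iff, ← mem_nonunits_iff, ← IsLocalRing.mem_maximalIdeal,
    ← ValuationSubring.coe_mem_nonunits_iff]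

theorem dv_nonneg : 0 ≤ S.dv := fun v => by
  rw [dv, Finsupp.zero_apply, Finsupp.smul_apply, smul_eq_mul, S.hx.curve.poleDiv_apply]
  exact mul_nonneg (Nat.cast_nonneg _) (le_max_left _ _)

theorem smul_dv_mono {i j : ℤ} (h : i ≤ j) : i • S.dv ≤ j • S.dv := fun v => by
  rw [Finsupp.smul_apply, Finsupp.smul_apply, smul_eq_mul, smul_eq_mul]
  exact mul_le_mul_of_nonneg_right h (S.dv_nonneg v)

theorem Lv_mono {i j : ℕ} (h : i ≤ j) : S.Lv i ≤ S.Lv j :=
  FF.riemannRochSpace_mono (S.smul_dv_mono (by exact_mod_cast h))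

theorem big : 10 * (S.g : ℤ) + 10 ≤ Divisor.degree S.dv := by
  have := S.le_degree_dv
  simp only [n₀] at this
  omega

theorem dim_eq {j : ℕ} (hj : j ≠ 0) :
    (S.dim j : ℤ) = (j : ℤ) * Divisor.degree S.dv + 1 - S.g := by
  have h1 := S.finrank_Lv hj
  have hb := S.big
  have h2 : Divisor.degree S.dv ≤ (j : ℤ) * Divisor.degree S.dv :=
    le_mul_of_one_le_left (by omega) (by exact_mod_cast Nat.one_le_iff_ne_zero.2 hj)
  have h3 := FF.ell_eq_of_large (D := (j : ℤ) • S.dv)
    (by rw [S.genus_eq, map_zsmul, smul_eq_mul]; omega)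
  rw [S.genus_eq, map_zsmul, smul_eq_mul] at h3
  rw [← h1]
  exact h3

theorem ell_eq {E : Divisor Qb F} (h : 2 * (S.g : ℤ) - 2 < Divisor.degree E) :
    (FF.ell E : ℤ) = Divisor.degree E + 1 - S.g := by
  have := FF.ell_eq_of_large (D := E) (by rw [S.genus_eq]; exact h)
  rwa [S.genus_eq] at this

theorem gal_dv (σ : GQ) : S.gal σ • S.dv = S.dv := by
  ext v
  rw [SemilinearAut.divisor_smul_apply, dv, Finsupp.smul_apply, Finsupp.smul_apply,
    S.hx.curve.poleDiv_apply, S.hx.curve.poleDiv_apply]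
  have h := SemilinearAut.ord_smul (S.gal σ) ((S.gal σ)⁻¹ • v) S.x
  rw [smul_inv_smul, S.gal_x] at h
  rw [h]

theorem gal_mem_L' (σ : GQ) {E : Divisor Qb F} {f : F} (hf : f ∈ riemannRochSpace E) :
    S.gal σ • f ∈ riemannRochSpace (S.gal σ • E) := by
  rcases eq_or_ne f 0 with rfl | hf0
  · rw [smul_zero]; exact zero_mem _
  refine FF.mem_riemannRochSpace_of_ord fun v => ?_
  have h := SemilinearAut.ord_smul (S.gal σ) ((S.gal σ)⁻¹ • v) f
  rw [smul_inv_smul] at h
  rw [h, SemilinearAut.divisor_smul_apply]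
  exact FF.ord_of_mem_riemannRochSpace hf hf0 _

theorem finrank_redSub_eq {W : Submodule Qb F} {j : ℕ} (hj : j ≠ 0) (hW : W ≤ S.Lv j) :
    Module.finrank k (S.G.redSub W) = Module.finrank Qb W := by
  have hWe : W ≤ Submodule.span Qb (Set.range (S.e j)) := by rw [S.span_e hj]; exact hW
  obtain ⟨d, w, hw, hspan⟩ := (S.e_redIndep j).exists_basis W hWe
  rw [← hspan, S.G.redSub_span_eq hw, finrank_span_eq_card hw.2,
    finrank_span_eq_card hw.linearIndependent]

theorem redSub_mono {W W' : Submodule Qb F} (h : W ≤ W') : S.G.redSub W ≤ S.G.redSub W' := by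
  rintro _ ⟨y, hy, hyV, rfl⟩
  exact ⟨y, h hy, hyV, rfl⟩

theorem redSub_le_LvBar {W : Submodule Qb F} {j : ℕ} (hW : W ≤ S.Lv j) :
    S.G.redSub W ≤ S.LvBar j := by
  refine (S.redSub_mono hW).trans ?_
  have := S.redSub_L_le ((j : ℤ) • S.dv)
  rwa [S.mapDomain_smul_dv] at this

theorem redSub_mulLeft {u : F} (hu : u ∈ S.G.V) (hu0 : S.G.red u ≠ 0) {W : Submodule Qb F}
    {i j : ℕ} (hi : i ≠ 0) (hj : j ≠ 0) (hW : W ≤ S.Lv i)
    (huW : W.map (LinearMap.mulLeft Qb u) ≤ S.Lv j) :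
    S.G.redSub (W.map (LinearMap.mulLeft Qb u)) =
      (S.G.redSub W).map (LinearMap.mulLeft k (S.G.red u)) := by
  haveI : FiniteDimensional k (S.LvBar j) := FF.finiteDimensional_riemannRochSpace _
  haveI : FiniteDimensional k (S.G.redSub (W.map (LinearMap.mulLeft Qb u))) :=
    Submodule.finiteDimensional_of_le (S.redSub_le_LvBar huW)
  refine (Submodule.eq_of_le_of_finrank_le ?_ ?_).symm
  · rintro _ ⟨_, ⟨y, hy, hyV, rfl⟩, rfl⟩
    exact ⟨u * y, ⟨y, hy, rfl⟩, S.G.V.mul_mem hu hyV, S.G.red_mul hu hyV⟩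
  · have e1 := S.finrank_redSub_eq hj huW
    have e2 := S.finrank_redSub_eq hi hW
    have e3 := LinearEquiv.finrank_eq (Submodule.equivMapOfInjective (LinearMap.mulLeft Qb u)
      (mul_right_injective₀ (S.G.ne_zero_of_red hu0)) W)
    have e4 := LinearEquiv.finrank_eq (Submodule.equivMapOfInjective
      (LinearMap.mulLeft k (S.G.red u)) (mul_right_injective₀ hu0) (S.G.redSub W))
    omega

/-- Generators with spanning reductions. -/
structure GenSys (W : Submodule Qb F) {α : Type*} (v : α → F) : Prop where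
  mem : ∀ a, v a ∈ W
  mem_V : ∀ a, v a ∈ S.G.V
  span_red : S.G.redSub W ≤ Submodule.span k (Set.range fun a => S.G.red (v a))

theorem genSys_e {j : ℕ} (hj : j ≠ 0) : S.GenSys (S.Lv j) (S.e j) := by
  refine ⟨fun i => ?_, (S.e_redIndep j).1, ?_⟩
  · rw [Setup.Lv, ← S.span_e hj]; exact Submodule.subset_span ⟨i, rfl⟩
  · rw [← S.G.redSub_span_eq (S.e_redIndep j), S.span_e hj]

namespace GenSys

variable {S} {α β : Type*} {v : α → F} {w : β → F}

theorem span_eq {W : Submodule Qb F} (h : S.GenSys W v) :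
    Submodule.span k (Set.range fun a => S.G.red (v a)) = S.G.redSub W :=
  le_antisymm (Submodule.span_le.2 (by
    rintro _ ⟨a, rfl⟩
    exact ⟨v a, h.mem a, h.mem_V a, rfl⟩)) h.span_red

theorem mul {E E' E'' : Divisor Qb F} (h : S.GenSys (riemannRochSpace E) v)
    (h' : S.GenSys (riemannRochSpace E') w) (hE : 2 * (S.g : ℤ) ≤ Divisor.degree E)
    (hE' : 2 * (S.g : ℤ) - 1 ≤ Divisor.degree E' - Divisor.degree E) (hsum : E + E' = E'') :
    S.GenSys (riemannRochSpace E'') fun p : α × β => v p.1 * w p.2 := by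
  subst hsum
  refine ⟨fun p => FF.mul_mem_riemannRochSpace (h.mem p.1) (h'.mem p.2),
    fun p => S.G.V.mul_mem (h.mem_V p.1) (h'.mem_V p.2), ?_⟩
  refine (S.redSub_L_le _).trans ?_
  rw [Finsupp.mapDomain_add, ← mul_L_eq
    (by rw [S.degree_mapDomain, S.genusBar_eq]; exact hE)
    (by rw [S.degree_mapDomain, S.degree_mapDomain, S.genusBar_eq]; exact hE'),
    ← S.redSub_L_eq (by omega), ← S.redSub_L_eq (by omega), ← h.span_eq, ← h'.span_eq,
    Submodule.span_mul_span]
  refine Submodule.span_mono ?_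
  rintro _ ⟨_, ⟨a, rfl⟩, _, ⟨b, rfl⟩, rfl⟩
  exact ⟨(a, b), S.G.red_mul (h.mem_V a) (h'.mem_V b)⟩

theorem mulLeft {W : Submodule Qb F} (h : S.GenSys W v) {u : F} (hu : u ∈ S.G.V)
    (hu0 : S.G.red u ≠ 0) {i j : ℕ} (hi : i ≠ 0) (hj : j ≠ 0) (hW : W ≤ S.Lv i)
    (huW : W.map (LinearMap.mulLeft Qb u) ≤ S.Lv j) :
    S.GenSys (W.map (LinearMap.mulLeft Qb u)) fun a => u * v a := by
  refine ⟨fun a => ⟨v a, h.mem a, rfl⟩, fun a => S.G.V.mul_mem hu (h.mem_V a), ?_⟩
  rw [S.redSub_mulLeft hu hu0 hi hj hW huW, ← h.span_eq, Submodule.map_span]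
  refine Submodule.span_mono ?_
  rintro _ ⟨_, ⟨a, rfl⟩, rfl⟩
  exact ⟨a, S.G.red_mul hu (h.mem_V a)⟩

end GenSys

/-- Moment vectors in the rational bases. -/
def vec (j : ℕ) {r : ℕ} (t : Fin r → Qb) (l : Fin r) : F := moment (S.e j) (t l)

theorem moment_e_mem_Lv {j : ℕ} (hj : j ≠ 0) (t : Qb) : moment (S.e j) t ∈ S.Lv j := by
  rw [Setup.Lv, ← S.span_e hj]
  exact Submodule.sum_mem _ fun i _ => Submodule.smul_mem _ _ (Submodule.subset_span ⟨i, rfl⟩)

theorem coord_moment_e (j : ℕ) (t : Qb) (i : Fin (S.dim j)) :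
    S.coord j (moment (S.e j) t) i = t ^ (i : ℕ) :=
  congrFun (S.coord_sum j fun i => t ^ (i : ℕ)) i

theorem gal_moment {n : ℕ} (v : Fin n → F) (t : Qb) (σ : GQ) :
    S.gal σ • moment v t = moment (fun i => S.gal σ • v i) (σ t) := by
  simp only [moment, Finset.smul_sum, S.gal_smul_smul, map_pow]

theorem moment_mem_V {n : ℕ} {v : Fin n → F} (hv : ∀ i, v i ∈ S.G.V) {t : Qb} (ht : t ∈ A) :
    moment v t ∈ S.G.V :=
  S.G.V.sum_mem fun i _ => S.G.smul_mem' (pow_mem ht _) (hv i)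

theorem red_moment {n : ℕ} {v : Fin n → F} (hv : ∀ i, v i ∈ S.G.V) (t : A) :
    S.G.red (moment v (t : Qb)) = moment (fun i => S.G.red (v i)) (π t) := by
  have := S.G.red_sum_smul hv fun i : Fin n => t ^ (i : ℕ)
  push_cast at this
  simp only [moment, this, map_pow]

theorem gal_vec (j : ℕ) {r : ℕ} (t : Fin r → Qb) (l : Fin r) (σ : GQ) :
    S.gal σ • S.vec j t l = S.vec j (fun l => σ (t l)) l := by
  simp only [vec, S.gal_moment, S.smul_e]

/-- Roots of unity whose moment vectors complement finitely many subspaces with good reduction. -/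
theorem exists_vecPrimes {j : ℕ} (hj : j ≠ 0) {ι : Type*} [Finite ι] (W : ι → Submodule Qb F)
    (r : ℕ) (hle : ∀ a, W a ≤ S.Lv j) (hdim : ∀ a, Module.finrank Qb (W a) + r = S.dim j) :
    ∃ m : Fin r → ℕ, (∀ i, (m i).Prime ∧ m i ≠ ℓ) ∧
      ∀ t, IsRoots m t → ∀ a, S.GoodCompl j (W a) (S.vec j t) := by
  obtain ⟨m, hm, hgood⟩ := exists_complementPrimes ℓ (fun i => S.G.red (S.e j i))
    (W := S.LvBar j) (S.span_red_e hj) (fun a => S.G.redSub (W a))
    (fun a => S.redSub_le_LvBar (hle a)) r (fun a => by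
      rw [S.finrank_redSub_eq hj (hle a), S.finrank_LvBar hj, hdim a])
  refine ⟨m, hm, fun t ht a => ?_⟩
  have htA := fun l => ht.mem (fun i => (hm i).1) A l
  refine ⟨hj, hle a, fun l => S.moment_e_mem_Lv hj _,
    fun l => S.moment_mem_V (S.e_redIndep j).1 (htA l), (hdim a).le, ?_⟩
  have h := hgood (fun l => π ⟨t l, htA l⟩) (fun l => S.res_rootSet (hm l).1 (hm l).2 (ht l) _) a
  have hred : (fun l => S.G.red (S.vec j t l)) =
      fun l => moment (fun i => S.G.red (S.e j i)) (π ⟨t l, htA l⟩) :=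
    funext fun l => S.red_moment (S.e_redIndep j).1 ⟨t l, htA l⟩
  rw [hred]
  haveI : FiniteDimensional k (S.LvBar j) := FF.finiteDimensional_riemannRochSpace _
  refine (Submodule.eq_of_le_of_finrank_le (sup_le (S.redSub_le_LvBar (hle a))
    (Submodule.span_le.2 ?_)) ?_).ge
  · rintro _ ⟨l, rfl⟩
    rw [SetLike.mem_coe, Setup.LvBar, ← S.span_red_e hj]
    exact Submodule.sum_mem _ fun i _ => Submodule.smul_mem _ _ (Submodule.subset_span ⟨i, rfl⟩)
  · rw [h, S.finrank_redSub_eq hj (hle a), S.finrank_LvBar hj, hdim a]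

end Setup

end FLTAgent.FlatJ
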