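/-
Coordinates of divisor classes: the spaces `L(D - E)` along moment complements, and the functions
realising sums of classes.
-/
import Fermat.Agent.FlatJ.Gens

/-!
For a base divisor `D₀` and `a, b ∈ X`: the space `W = L(D - E_a)` of codimension `g` in
`L(D)`, which determines `a`, and the line `L(3D₀ - E_a - E_b)` with its generator `lineGen` of
nonzero reduction, whose divisor gives `E_{-(a+b)}` on both fibres (`eff_neg_add`,
`mapDomain_eff_neg_add`), provided `-(a + b) ∈ X`.
-/

set_option autoImplicit false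
set_option linter.style.haveILetI false
set_option linter.unusedSectionVars false

noncomputable section

open AlgebraicCurve

namespace FLTAgent.FlatJ

open FLTAgent.Reduction

namespace Setup

variable {ℓ : ℕ} [Fact ℓ.Prime] {F k Fb : Type*} [Field F] [Algebra Qb F] [Field k] [Field Fb]
  [Algebra k Fb] [IsAlgClosed k] [FF.IsFF Qb F] [FF.IsFF k Fb] {A : ValuationSubring Qb}
  {π : A →+* k} {S : Setup ℓ F k Fb A π} {X : Set (Pic0 Qb F)}

namespace PlacePrimes

variable (M : S.PlacePrimes X)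

/-- The space `L(D - E)` attached to a class. -/
abbrev W (pl : Fin S.g → Place Qb F) (a : Pic0 Qb F) : Submodule Qb F :=
  riemannRochSpace (S.dv - M.eff pl a)

variable {pl : Fin S.g → Place Qb F} {a b : Pic0 Qb F}

theorem degree_sub_eff (h : S.IsTuple M.mp pl) (ha : a ∈ X) :
    Divisor.degree (S.dv - M.eff pl a) = Divisor.degree S.dv - S.g := by
  rw [map_sub, M.degree_eff h ha]

theorem W_le (h : S.IsTuple M.mp pl) (ha : a ∈ X) : M.W pl a ≤ S.Lv 1 :=
  FF.riemannRochSpace_mono (by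
    rw [Nat.cast_one, one_smul]
    exact sub_le_self _ (M.eff_spec h ha).1)

theorem finrank_W_add (h : S.IsTuple M.mp pl) (ha : a ∈ X) :
    Module.finrank Qb (M.W pl a) + S.g = S.dim 1 := by
  have hb := S.big
  have h1 := S.ell_eq (E := S.dv - M.eff pl a) (by rw [M.degree_sub_eff h ha]; omega)
  rw [M.degree_sub_eff h ha] at h1
  have h2 := S.dim_eq one_ne_zero
  change FF.ell (S.dv - M.eff pl a) + S.g = S.dim 1
  omega

theorem eq_of_eff_eq (h : S.IsTuple M.mp pl) (ha : a ∈ X) (hb : b ∈ X)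
    (he : M.eff pl a = M.eff pl b) : a = b := by
  have h1 := Divisor.principal.sub_mem (Divisor.mem_principal.2 (M.eff_spec h ha).2)
    (Divisor.mem_principal.2 (M.eff_spec h hb).2)
  rw [Divisor.mem_principal, he] at h1
  rw [← mk_rep a, ← mk_rep b, mk_eq_mk_iff]
  convert h1 using 1
  abel

/-- The divisor `3 D₀ - E - E'`. -/
def zDiv (pl : Fin S.g → Place Qb F) (a b : Pic0 Qb F) : Divisor Qb F :=
  (3 : ℤ) • S.base pl - M.eff pl a - M.eff pl b

open Classical in
/-- The function of `L(3 D₀ - E - E')` with nonzero reduction. -/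
def lineGen (pl : Fin S.g → Place Qb F) (a b : Pic0 Qb F) : F :=
  if h : ∃ φ ∈ riemannRochSpace (M.zDiv pl a b), φ ∈ S.G.V ∧ S.G.red φ ≠ 0 then h.choose else 1

section Line

variable (h : S.IsTuple M.mp pl) (ha : a ∈ X) (hb : b ∈ X) (hab : -(a + b) ∈ X)
include h ha hb

theorem degree_zDiv : Divisor.degree (M.zDiv pl a b) = (S.g : ℤ) := by
  rw [zDiv, map_sub, map_sub, map_zsmul, M.degree_eff h ha, M.degree_eff h hb, S.degree_base,
    smul_eq_mul]
  ring

theorem isPrincipal_zDiv_sub :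
    Divisor.IsPrincipal (M.zDiv pl a b - (rep (-(a + b)) + S.base pl)) := by
  have h1 : Pic0.mk (0 : Divisor.degZero (K := Qb) (F := F)) =
      Pic0.mk (⟨rep a, degree_rep a⟩ + ⟨rep b, degree_rep b⟩ +
        ⟨rep (-(a + b)), degree_rep _⟩ : Divisor.degZero (K := Qb) (F := F)) := by
    simp only [Pic0.mk, QuotientAddGroup.mk_add, QuotientAddGroup.mk_zero]
    change (0 : Pic0 Qb F) = Pic0.mk ⟨rep a, degree_rep a⟩ + Pic0.mk ⟨rep b, degree_rep b⟩ +
      Pic0.mk ⟨rep (-(a + b)), degree_rep _⟩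
    rw [mk_rep, mk_rep, mk_rep, add_neg_cancel]
  have h2 := mk_eq_mk_iff.1 h1
  rw [AddSubgroup.coe_zero, sub_zero, AddSubgroup.coe_add, AddSubgroup.coe_add] at h2
  have h3 := Divisor.principal.neg_mem (Divisor.principal.add_mem (Divisor.principal.add_mem
    (Divisor.mem_principal.2 (M.eff_spec h ha).2) (Divisor.mem_principal.2 (M.eff_spec h hb).2))
    (Divisor.mem_principal.2 h2))
  rw [Divisor.mem_principal] at h3
  convert h3 using 1
  rw [zDiv]
  module

theorem isPrincipal_red_zDiv_sub :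
    Divisor.IsPrincipal (Finsupp.mapDomain S.r (M.zDiv pl a b) -
      Finsupp.mapDomain S.r (rep (-(a + b)) + S.base pl)) := by
  have := S.isRed.mapDomain_principal (M.isPrincipal_zDiv_sub h ha hb)
  rwa [← Finsupp.mapDomain.addMonoidHom_apply, map_sub] at this

include hab

theorem ell_zDiv : FF.ell (M.zDiv pl a b) = 1 := by
  rw [FF.ell_congr (M.isPrincipal_zDiv_sub h ha hb), M.ell_eq_one h hab]

theorem ell_red_zDiv : FF.ell (Finsupp.mapDomain S.r (M.zDiv pl a b)) = 1 := by
  rw [FF.ell_congr (M.isPrincipal_red_zDiv_sub h ha hb), M.ell_red_eq_one h hab]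

theorem lineGen_spec : M.lineGen pl a b ∈ riemannRochSpace (M.zDiv pl a b) ∧
    M.lineGen pl a b ∈ S.G.V ∧ S.G.red (M.lineGen pl a b) ≠ 0 := by
  have hex : ∃ φ ∈ riemannRochSpace (M.zDiv pl a b), φ ∈ S.G.V ∧ S.G.red φ ≠ 0 := by
    by_contra hno
    push Not at hno
    have hbot : S.G.redSub (riemannRochSpace (M.zDiv pl a b)) = ⊥ := by
      rw [eq_bot_iff]
      rintro _ ⟨y, hy, hyV, rfl⟩
      exact (Submodule.mem_bot k).2 (hno y hy hyV)
    have h1 := (S.hx.finrank_redSub_L (M.zDiv pl a b)).1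
    rw [hbot, finrank_bot] at h1
    have h2 := M.ell_zDiv h ha hb hab
    change Module.finrank Qb (riemannRochSpace (M.zDiv pl a b)) = 1 at h2
    omega
  rw [lineGen, dif_pos hex]
  exact hex.choose_spec

theorem exists_smul_lineGen {f : Fb}
    (hf : f ∈ riemannRochSpace (Finsupp.mapDomain S.r (M.zDiv pl a b))) :
    ∃ t : k, f = t • S.G.red (M.lineGen pl a b) := by
  obtain ⟨hφ, hφV, hφ0⟩ := M.lineGen_spec h ha hb hab
  haveI : FiniteDimensional k (riemannRochSpace (Finsupp.mapDomain S.r (M.zDiv pl a b))) :=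
    FF.finiteDimensional_riemannRochSpace _
  have hne : (⟨_, S.red_mem_L hφ hφV⟩ :
      riemannRochSpace (Finsupp.mapDomain S.r (M.zDiv pl a b))) ≠ 0 :=
    fun h0 => hφ0 (congrArg Subtype.val h0)
  obtain ⟨t, ht⟩ := exists_smul_eq_of_finrank_eq_one (M.ell_red_zDiv h ha hb hab) hne ⟨f, hf⟩
  exact ⟨t, (congrArg Subtype.val ht).symm⟩

/-- The effective divisor of `-(a + b)` from the divisor of `lineGen`. -/
theorem eff_neg_add (v : Place Qb F) : M.eff pl (-(a + b)) v =
    v.ord (M.lineGen pl a b) + 3 * S.base pl v - M.eff pl a v - M.eff pl b v := by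
  obtain ⟨hφ, hφV, hφ0⟩ := M.lineGen_spec h ha hb hab
  have hne := S.G.ne_zero_of_red hφ0
  obtain ⟨E, hE, hP, hEv⟩ := FF.exists_effective_equiv hφ hne
  have h1 := Divisor.principal.add_mem (Divisor.mem_principal.2 hP)
    (Divisor.mem_principal.2 (M.isPrincipal_zDiv_sub h ha hb))
  rw [Divisor.mem_principal, sub_add_sub_cancel] at h1
  rw [M.eff_unique h hab hE h1, hEv, zDiv, Finsupp.sub_apply, Finsupp.sub_apply,
    Finsupp.smul_apply, smul_eq_mul]
  ring

theorem mapDomain_eff_neg_add (v : Place k Fb) : Finsupp.mapDomain S.r (M.eff pl (-(a + b))) v =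
    v.ord (S.G.red (M.lineGen pl a b)) + 3 * Finsupp.mapDomain S.r (S.base pl) v -
      Finsupp.mapDomain S.r (M.eff pl a) v - Finsupp.mapDomain S.r (M.eff pl b) v := by
  obtain ⟨hφ, hφV, hφ0⟩ := M.lineGen_spec h ha hb hab
  have heq : M.eff pl (-(a + b)) =
      divOf (M.lineGen pl a b) + ((3 : ℤ) • S.base pl - M.eff pl a - M.eff pl b) :=
    Finsupp.ext fun v => by
      rw [M.eff_neg_add h ha hb hab v, Finsupp.add_apply, Finsupp.sub_apply, Finsupp.sub_apply,
        Finsupp.smul_apply, smul_eq_mul, S.hx.curve.divOf_apply]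
      ring
  rw [heq, Finsupp.mapDomain_add, S.isRed.mapDomain_divOf hφV hφ0, Finsupp.add_apply,
    S.hx.curveBar.divOf_apply, ← Finsupp.mapDomain.addMonoidHom_apply, map_sub, map_sub, map_zsmul]
  simp only [Finsupp.mapDomain.addMonoidHom_apply, Finsupp.sub_apply, Finsupp.smul_apply,
    smul_eq_mul]
  ring

end Line

end PlacePrimes

end Setup

end FLTAgent.FlatJ
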