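/-
Frames: choices of primes putting all auxiliary data in general position.
-/
import Fermat.Agent.FlatJ.Chart

/-!
`Frame1 X`: `PlacePrimes` and primes whose moment vectors complement all `L(D - E_a)`. The
coefficients `cCoef` of the fixed basis along such a complement are the coordinates of a class:
integral, equivariant (`cCoef_smul`), injective (`eq_of_cCoef_eq`) and congruent for classes
with the same reduction (`cCoef_congr`). Also `gen` (generators of `L(D - E_a)`), the auxiliary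
function `uFn` in `L(3D - 3D₀)` and a prime keeping its reduction nonzero (`exists_uPrime`).
-/

set_option autoImplicit false
set_option linter.style.haveILetI false
set_option linter.unusedSectionVars false

noncomputable section

open AlgebraicCurve

namespace FLTAgent.FlatJ

open FLTAgent.Reduction

namespace Setup

variable {ℓ : ℕ} [Fact ℓ.Prime] {F k Fb : Type*} [Field F] [Algebra Qb F] [Field k] [Field Fb]
  [Algebra k Fb] [IsAlgClosed k] [FF.IsFF Qb F] [FF.IsFF k Fb] {A : ValuationSubring Qb}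
  {π : A →+* k} (S : Setup ℓ F k Fb A π)

/-- Places and complements in general position. -/
structure Frame1 (X : Set (Pic0 Qb F)) where
  M : S.PlacePrimes X
  mc : Fin S.g → ℕ
  prime_c : ∀ i, (mc i).Prime
  ne_c : ∀ i, mc i ≠ ℓ
  compl_c : ∀ pl, S.IsTuple M.mp pl → ∀ rc, IsRoots mc rc → ∀ a ∈ X,
    S.GoodCompl 1 (M.W pl a) (S.vec 1 rc)

/-- Every finite set of classes has primes putting places and complements in general position. -/
theorem nonempty_frame1 {X : Set (Pic0 Qb F)} (hX : X.Finite) : Nonempty (S.Frame1 X) := by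
  obtain ⟨M⟩ := S.nonempty_placePrimes hX
  haveI : Finite {pl // S.IsTuple M.mp pl} := M.finite_tuples.to_subtype
  haveI := hX.to_subtype
  obtain ⟨m, hm, hgood⟩ := S.exists_vecPrimes one_ne_zero
    (fun p : {pl // S.IsTuple M.mp pl} × X => M.W p.1.1 p.2.1) S.g
    (fun p => M.W_le p.1.2 p.2.2) (fun p => M.finrank_W_add p.1.2 p.2.2)
  exact ⟨⟨M, m, fun i => (hm i).1, fun i => (hm i).2,
    fun pl hpl rc hrc a ha => hgood rc hrc (⟨pl, hpl⟩, ⟨a, ha⟩)⟩⟩

open Classical in
/-- Coefficients of the rational basis along the complement of `L(D - E)`. -/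
def cCoef {X : Set (Pic0 Qb F)} (T : S.Frame1 X) (pl : Fin S.g → Place Qb F) (rc : Fin S.g → Qb)
    (a : Pic0 Qb F) (i : Fin (S.dim 1)) : Fin S.g → Qb :=
  if h : S.GoodCompl 1 (T.M.W pl a) (S.vec 1 rc) then h.coeff (S.e 1 i) else 0

/-- The generators of `L(D - E)`. -/
def gen {X : Set (Pic0 Qb F)} (T : S.Frame1 X) (pl : Fin S.g → Place Qb F) (rc : Fin S.g → Qb)
    (a : Pic0 Qb F) (i : Fin (S.dim 1)) : F :=
  S.e 1 i - ∑ m, S.cCoef T pl rc a i m • S.vec 1 rc m

/-- The auxiliary function vanishing thrice on `D₀`. -/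
def uFn {X : Set (Pic0 Qb F)} (T : S.Frame1 X) (pl : Fin S.g → Place Qb F) (rc : Fin S.g → Qb)
    (ru : Qb) : F :=
  moment (S.gen T pl rc 0) ru ^ 3

/-- A linear form on `L(5 D)` with algebraic coefficients. -/
def lam (t : Qb) : F →ₗ[Qb] Qb :=
  ∑ i : Fin (S.dim 5), t ^ (i : ℕ) • (LinearMap.proj i).comp (S.coord 5)

theorem lam_apply (t : Qb) (f : F) :
    S.lam t f = ∑ i : Fin (S.dim 5), t ^ (i : ℕ) * S.coord 5 f i := by
  simp [lam]

namespace Frame1

variable {S} {X : Set (Pic0 Qb F)} (T : S.Frame1 X)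
variable {pl : Fin S.g → Place Qb F} {rc : Fin S.g → Qb} {a b : Pic0 Qb F}

theorem e_mem_Lv {j : ℕ} (hj : j ≠ 0) (i : Fin (S.dim j)) : S.e j i ∈ S.Lv j :=
  (S.genSys_e hj).mem i

section Basic

variable (h : S.IsTuple T.M.mp pl) (hr : IsRoots T.mc rc) (ha : a ∈ X)
include h hr ha

theorem cCoef_eq (i : Fin (S.dim 1)) :
    S.cCoef T pl rc a i = (T.compl_c pl h rc hr a ha).coeff (S.e 1 i) := by
  rw [cCoef, dif_pos (T.compl_c pl h rc hr a ha)]

theorem gen_mem (i : Fin (S.dim 1)) : S.gen T pl rc a i ∈ T.M.W pl a := by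
  rw [gen, T.cCoef_eq h hr ha]
  exact (T.compl_c pl h rc hr a ha).sub_mem (e_mem_Lv one_ne_zero i)

theorem cCoef_mem (i : Fin (S.dim 1)) (m : Fin S.g) : S.cCoef T pl rc a i m ∈ A := by
  rw [T.cCoef_eq h hr ha]
  exact (T.compl_c pl h rc hr a ha).coeff_mem_A (e_mem_Lv one_ne_zero i) ((S.e_redIndep 1).1 i) m

theorem cCoef_unique (i : Fin (S.dim 1)) {c : Fin S.g → Qb}
    (hc : S.e 1 i - ∑ m, c m • S.vec 1 rc m ∈ T.M.W pl a) : S.cCoef T pl rc a i = c := by
  rw [T.cCoef_eq h hr ha]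
  exact (T.compl_c pl h rc hr a ha).coeff_unique (e_mem_Lv one_ne_zero i) hc

theorem gen_mem_V (i : Fin (S.dim 1)) : S.gen T pl rc a i ∈ S.G.V :=
  S.G.V.sub_mem ((S.e_redIndep 1).1 i) (S.G.V.sum_mem fun m _ =>
    S.G.smul_mem' (T.cCoef_mem h hr ha i m) ((T.compl_c pl h rc hr a ha).mem_V m))

theorem red_gen (i : Fin (S.dim 1)) : S.G.red (S.gen T pl rc a i) = S.G.red (S.e 1 i) -
    ∑ m, π ⟨S.cCoef T pl rc a i m, T.cCoef_mem h hr ha i m⟩ • S.G.red (S.vec 1 rc m) := by
  have h1 := S.G.red_sum_smul (T.compl_c pl h rc hr a ha).mem_V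
    fun m => ⟨S.cCoef T pl rc a i m, T.cCoef_mem h hr ha i m⟩
  rw [gen, S.G.red_sub ((S.e_redIndep 1).1 i), h1]
  exact S.G.V.sum_mem fun m _ =>
    S.G.smul_mem' (T.cCoef_mem h hr ha i m) ((T.compl_c pl h rc hr a ha).mem_V m)

theorem sum_coord_gen {f : F} (hf : f ∈ T.M.W pl a) :
    ∑ i, S.coord 1 f i • S.gen T pl rc a i = f := by
  have hf1 : f ∈ S.Lv 1 := T.M.W_le h ha hf
  have h0 : (T.compl_c pl h rc hr a ha).coeff f = 0 :=
    (T.compl_c pl h rc hr a ha).coeff_of_mem hf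
  have h1 : ∀ m, ∑ i, S.coord 1 f i * S.cCoef T pl rc a i m = 0 := fun m => by
    have := congrFun (congrArg (T.compl_c pl h rc hr a ha).coeff (S.sum_coord one_ne_zero hf1)) m
    rw [h0, map_sum, Finset.sum_apply] at this
    simpa [T.cCoef_eq h hr ha] using this
  simp only [gen, smul_sub, Finset.smul_sum, smul_smul, Finset.sum_sub_distrib]
  rw [S.sum_coord one_ne_zero hf1, Finset.sum_comm]
  simp only [← Finset.sum_smul, h1, zero_smul, Finset.sum_const_zero, sub_zero]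

theorem genSys : S.GenSys (T.M.W pl a) (S.gen T pl rc a) := by
  refine ⟨T.gen_mem h hr ha, T.gen_mem_V h hr ha, ?_⟩
  rintro _ ⟨y, hy, hyV, rfl⟩
  have hA := S.coord_mem_of_mem_V one_ne_zero (T.M.W_le h ha hy) hyV
  rw [← T.sum_coord_gen h hr ha hy,
    S.G.red_sum_smul (T.gen_mem_V h hr ha) fun i => ⟨_, hA i⟩]
  exact Submodule.sum_mem _ fun i _ => Submodule.smul_mem _ _ (Submodule.subset_span ⟨i, rfl⟩)

theorem cCoef_smul (hst : ∀ σ : GQ, ∀ a ∈ X, S.gal σ • a ∈ X) (σ : GQ) (i : Fin (S.dim 1))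
    (m : Fin S.g) :
    S.cCoef T (fun l => S.gal σ • pl l) (fun l => σ (rc l)) (S.gal σ • a) i m =
      σ (S.cCoef T pl rc a i m) := by
  refine congrFun (T.cCoef_unique (T.M.isTuple_smul h σ) (hr.map σ) (hst σ a ha) i
    (c := fun m => σ (S.cCoef T pl rc a i m)) ?_) m
  have h1 := S.gal_mem_L' σ (T.gen_mem h hr ha i)
  rw [smul_sub, S.gal_dv, ← T.M.eff_smul hst h ha] at h1
  convert h1 using 1
  rw [gen, smul_sub, S.smul_e, Finset.smul_sum]
  simp only [S.gal_smul_smul, S.gal_vec]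

/-- The coordinates determine the class. -/
theorem eq_of_cCoef_eq (hb : b ∈ X)
    (he : ∀ i m, S.cCoef T pl rc a i m = S.cCoef T pl rc b i m) : a = b := by
  refine T.M.eq_of_eff_eq h ha hb ?_
  have hW : T.M.W pl a = T.M.W pl b := by
    refine le_antisymm (fun f hf => ?_) fun f hf => ?_
    · rw [← T.sum_coord_gen h hr ha hf]
      refine Submodule.sum_mem _ fun i _ => Submodule.smul_mem _ _ ?_
      rw [show S.gen T pl rc a i = S.gen T pl rc b i by simp only [gen, he]]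
      exact T.gen_mem h hr hb i
    · rw [← T.sum_coord_gen h hr hb hf]
      refine Submodule.sum_mem _ fun i _ => Submodule.smul_mem _ _ ?_
      rw [show S.gen T pl rc b i = S.gen T pl rc a i by simp only [gen, he]]
      exact T.gen_mem h hr ha i
  refine eq_of_L_sub_eq ?_ (by rw [T.M.degree_eff h ha, T.M.degree_eff h hb]) hW
  rw [T.M.degree_sub_eff h ha, S.genus_eq]
  have := S.big
  omega

/-- Classes with the same reduction have congruent coordinates. -/
theorem cCoef_congr (hb : b ∈ X)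
    (hab : Divisor.IsPrincipal (Finsupp.mapDomain S.r (rep a - rep b))) (i : Fin (S.dim 1))
    (m : Fin S.g) : S.cCoef T pl rc a i m - S.cCoef T pl rc b i m ∈ A.nonunits := by
  have hbar : S.G.redSub (T.M.W pl a) = S.G.redSub (T.M.W pl b) := by
    have := S.big
    rw [S.redSub_L_eq (by rw [T.M.degree_sub_eff h ha]; omega),
      S.redSub_L_eq (by rw [T.M.degree_sub_eff h hb]; omega)]
    congr 1
    simp only [← Finsupp.mapDomain.addMonoidHom_apply, map_sub]
    simp only [Finsupp.mapDomain.addMonoidHom_apply, T.M.mapDomain_eff_eq_of_red h ha hb hab]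
  have h1 : S.G.red (S.gen T pl rc b i) - S.G.red (S.gen T pl rc a i) ∈
      S.G.redSub (T.M.W pl a) := by
    refine Submodule.sub_mem _ ?_ ⟨_, T.gen_mem h hr ha i, T.gen_mem_V h hr ha i, rfl⟩
    rw [hbar]
    exact ⟨_, T.gen_mem h hr hb i, T.gen_mem_V h hr hb i, rfl⟩
  rw [T.red_gen h hr hb, T.red_gen h hr ha, sub_sub_sub_cancel_left, ← Finset.sum_sub_distrib] at h1
  have h2 := (T.compl_c pl h rc hr a ha).eq_zero_of_red_sum_mem
    (c := fun m => ⟨S.cCoef T pl rc a i m, T.cCoef_mem h hr ha i m⟩ -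
      ⟨S.cCoef T pl rc b i m, T.cCoef_mem h hr hb i m⟩) (by
      simpa only [map_sub, sub_smul] using h1) m
  rw [S.res_zero_iff] at h2
  exact h2

theorem red_eff_eq_of_congr {pl' : Fin S.g → Place Qb F} (h' : S.IsTuple T.M.mp pl')
    (hb : b ∈ X)
    (he : ∀ i m, S.cCoef T pl rc a i m - S.cCoef T pl' rc b i m ∈ A.nonunits) :
    Finsupp.mapDomain S.r (T.M.eff pl a) = Finsupp.mapDomain S.r (T.M.eff pl' b) := by
  have hgen : ∀ i, S.G.red (S.gen T pl rc a i) = S.G.red (S.gen T pl' rc b i) := by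
    intro i
    rw [T.red_gen h hr ha, T.red_gen h' hr hb]
    congr 1
    refine Finset.sum_congr rfl fun m _ => ?_
    congr 1
    rw [← sub_eq_zero, ← map_sub, S.res_zero_iff]
    exact he i m
  have hbar : S.G.redSub (T.M.W pl a) = S.G.redSub (T.M.W pl' b) := by
    rw [← (T.genSys h hr ha).span_eq, ← (T.genSys h' hr hb).span_eq]
    simp only [hgen]
  have hb0 := S.big
  rw [S.redSub_L_eq (by rw [T.M.degree_sub_eff h ha]; omega),
    S.redSub_L_eq (by rw [T.M.degree_sub_eff h' hb]; omega)] at hbar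
  simp only [← Finsupp.mapDomain.addMonoidHom_apply, map_sub] at hbar
  simp only [Finsupp.mapDomain.addMonoidHom_apply] at hbar
  refine eq_of_L_sub_eq ?_ ?_ hbar
  · rw [map_sub, S.degree_mapDomain, S.degree_mapDomain, T.M.degree_eff h ha, S.genusBar_eq]
    omega
  · rw [S.degree_mapDomain, S.degree_mapDomain, T.M.degree_eff h ha, T.M.degree_eff h' hb]

end Basic

theorem exists_gen_red_ne_zero (h : S.IsTuple T.M.mp pl) (hr : IsRoots T.mc rc) (ha : a ∈ X) :
    ∃ i, S.G.red (S.gen T pl rc a i) ≠ 0 := by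
  by_contra hno
  push Not at hno
  have hspan := (T.genSys h hr ha).span_eq
  have hbot : S.G.redSub (T.M.W pl a) = ⊥ := by
    rw [← hspan, Submodule.span_eq_bot]
    rintro _ ⟨i, rfl⟩
    exact hno i
  have h1 := S.finrank_redSub_eq one_ne_zero (T.M.W_le h ha)
  have h2 := T.M.finrank_W_add h ha
  rw [hbot, finrank_bot] at h1
  have h3 := S.dim_eq one_ne_zero
  have := S.big
  omega

section U

variable {ru : Qb} (h : S.IsTuple T.M.mp pl) (hr : IsRoots T.mc rc) (h0 : (0 : Pic0 Qb F) ∈ X)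
  (hru : ru ∈ A)
include h hr h0

theorem uFn_mem_L : S.uFn T pl rc ru ∈
    riemannRochSpace ((3 : ℤ) • S.dv - (3 : ℤ) • S.base pl) := by
  have hy : moment (S.gen T pl rc 0) ru ∈ riemannRochSpace (S.dv - S.base pl) := by
    rw [← T.M.eff_zero h h0]
    exact Submodule.sum_mem _ fun i _ => Submodule.smul_mem _ _ (T.gen_mem h hr h0 i)
  have h3 := FF.mul_mem_riemannRochSpace (FF.mul_mem_riemannRochSpace hy hy) hy
  rw [uFn, pow_three, ← mul_assoc]
  convert h3 using 2
  module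

include hru

theorem uFn_mem_V : S.uFn T pl rc ru ∈ S.G.V :=
  pow_mem (S.moment_mem_V (T.gen_mem_V h hr h0) hru) 3

theorem red_uFn : S.G.red (S.uFn T pl rc ru) = S.G.red (moment (S.gen T pl rc 0) ru) ^ 3 :=
  S.G.red_pow (S.moment_mem_V (T.gen_mem_V h hr h0) hru) 3

end U

/-- A prime at whose nontrivial roots of unity `uFn` has nonzero reduction. -/
theorem exists_uPrime (h0 : (0 : Pic0 Qb F) ∈ X) : ∃ m : ℕ, m.Prime ∧ m ≠ ℓ ∧
    ∀ pl, S.IsTuple T.M.mp pl → ∀ rc, IsRoots T.mc rc → ∀ ru ∈ rootSet m,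
      S.G.red (S.uFn T pl rc ru) ≠ 0 := by
  haveI : Finite {pl // S.IsTuple T.M.mp pl} := T.M.finite_tuples.to_subtype
  haveI : Finite {rc // IsRoots T.mc rc} := (finite_isRoots T.prime_c).to_subtype
  obtain ⟨m, hm, hne, hgood⟩ := exists_nonzeroPrime (k := k) (V := Fb) ℓ
    (fun (p : {pl // S.IsTuple T.M.mp pl} × {rc // IsRoots T.mc rc}) i =>
      S.G.red (S.gen T p.1.1 p.2.1 0 i))
    (fun p => T.exists_gen_red_ne_zero p.1.2 p.2.2 h0)
  refine ⟨m, hm, hne, fun pl hpl rc hrc ru hru => ?_⟩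
  have hA : ru ∈ A := mem_of_pow_eq_one hm.pos hru.1
  obtain ⟨h1, h2⟩ := S.res_rootSet hm hne hru hA
  rw [T.red_uFn hpl hrc h0 hA, show ru = ((⟨ru, hA⟩ : A) : Qb) from rfl,
    S.red_moment (T.gen_mem_V hpl hrc h0)]
  exact pow_ne_zero _ (hgood _ h1 h2 (⟨pl, hpl⟩, ⟨rc, hrc⟩))

end Frame1

end Setup

end FLTAgent.FlatJ
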