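/-
Integrality over `ℤ_(ℓ)` from the places over `ℓ`.
-/
import Fermat.Agent.FlatJ.Base

/-!
An algebraic number lying in all places over `ℓ` is integral over `ℤ_(ℓ)`
(`isIntegral_Rl_of_forall_mem`). As these places are Galois conjugate, an equivariant function
on a Galois set with values in one of them has integral values (`isIntegral_apply`).
-/

set_option autoImplicit false

noncomputable section

namespace FLTAgent.FlatJ

variable {ℓ : ℕ} [Fact ℓ.Prime]

theorem liesOverPrime_of_Rl_le {V : ValuationSubring Qb}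
    (h : ∀ r : Rl ℓ, algebraMap (Rl ℓ) Qb r ∈ V) (hV : ¬ V.LiesOverPrime ℓ) (y : Qb) : y ∈ V := by
  have hℓ : (ℓ : Qb) ∈ V := natCast_mem _ _
  have hinv : (ℓ : Qb)⁻¹ ∈ V := by
    unfold ValuationSubring.LiesOverPrime at hV
    rw [ValuationSubring.mem_nonunits_iff_or, not_or, not_not] at hV
    exact hV.2
  have hden : ∀ q : ℚ, algebraMap ℚ Qb q ∈ V := by
    intro q
    obtain ⟨e, m, hm, hqm⟩ := Nat.exists_eq_pow_mul_and_not_dvd q.den_nz ℓ
      (Fact.out : ℓ.Prime).ne_one
    have hm0 : m ≠ 0 := fun h0 => hm (h0 ▸ dvd_zero _)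
    have hmem : ((q.num : ℚ) / m) ∈ Rl ℓ := by
      rw [mem_Rl_iff]
      refine Nat.Coprime.coprime_dvd_left (?_ : _ ∣ m) (Nat.coprime_comm.1
        ((Fact.out : ℓ.Prime).coprime_iff_not_dvd.2 hm))
      have h1 : ((q.num : ℚ) / (m : ℤ)).den ∣ (m : ℤ).natAbs := by
        rw [← Rat.divInt_eq_div]
        exact_mod_cast Int.natCast_dvd_natCast.1 (by simpa using Rat.den_dvd q.num (m : ℤ))
      simpa using h1
    have hq : algebraMap ℚ Qb q = algebraMap ℚ Qb ((q.num : ℚ) / m) * ((ℓ : Qb)⁻¹) ^ e := by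
      conv_lhs => rw [← Rat.num_div_den q, hqm]
      rw [map_div₀, map_div₀, map_intCast, map_natCast, map_natCast]
      push_cast
      rw [inv_pow, ← div_eq_mul_inv, div_div, mul_comm]
    rw [hq]
    exact mul_mem (h ⟨_, hmem⟩) (pow_mem hinv e)
  have halg : IsIntegral ℚ y := ((AlgebraicClosure.isAlgebraic ℚ).isAlgebraic y).isIntegral
  obtain ⟨p, hp, hpy⟩ := halg
  let φ : ℚ →+* V := (algebraMap ℚ Qb).codRestrict V.toSubring hden
  have hint : IsIntegral V y := ⟨p.map φ, hp.map φ, by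
    rw [Polynomial.eval₂_map]
    exact hpy⟩
  obtain ⟨z, hz⟩ := IsIntegrallyClosed.isIntegral_iff.mp hint
  exact hz ▸ z.2

/-- An algebraic number integral at all places over `ℓ` is integral over `ℤ_(ℓ)`. -/
theorem isIntegral_Rl_of_forall_mem {x : Qb}
    (h : ∀ V : ValuationSubring Qb, V.LiesOverPrime ℓ → x ∈ V) : IsIntegral (Rl ℓ) x := by
  by_contra hx
  have hx' : x ∉ (integralClosure (Rl ℓ) Qb).toSubring := hx
  have : IsIntegrallyClosedIn (integralClosure (Rl ℓ) Qb).toSubring Qb :=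
    inferInstanceAs (IsIntegrallyClosedIn (integralClosure (Rl ℓ) Qb) Qb)
  obtain ⟨V, hV, hxV⟩ := Subring.exists_le_valuationSubring_of_isIntegrallyClosedIn hx'
  refine hxV (Classical.byCases (h V) fun hn => liesOverPrime_of_Rl_le (fun r => ?_) hn x)
  exact hV (isIntegral_algebraMap (R := Rl ℓ) (A := Qb) (x := r))

/-- An equivariant function on a Galois set whose values lie in one place over `ℓ` has integral
values. -/
theorem isIntegral_apply {Ω : Type*} [MulAction GQ Ω] {A : ValuationSubring Qb}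
    (hA : A.LiesOverPrime ℓ) {f : Ω → Qb} (hf : ∀ (σ : GQ) ω, f (σ • ω) = σ (f ω))
    (hmem : ∀ ω, f ω ∈ A) (ω : Ω) : IsIntegral (Rl ℓ) (f ω) := by
  refine isIntegral_Rl_of_forall_mem fun V hV => ?_
  obtain ⟨τ, rfl⟩ := GalCommon.exists_smul_eq_of_liesOverPrime (Fact.out : ℓ.Prime) hA hV
  rw [ValuationSubring.mem_pointwise_smul_iff_inv_smul_mem]
  show τ⁻¹ (f ω) ∈ A
  rw [← hf]
  exact hmem _

end FLTAgent.FlatJ
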