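/-
The primes defining the auxiliary data for addition, and the spaces to be complemented.
-/
import Fermat.Agent.FlatJ.Frame
import Fermat.Agent.FlatJ.Integral

/-!
`Frame X` collects every prime used for addition: those of `Frame1`, one for `u`, one for the
normalising form `lam`, and those of complements of `W10 = u L(5D - E - E')` in `L(10D)` and
of `W11 = u φ L(6D - 3D₀)` in `L(11D)`. `nonempty_frame`: such a frame exists for a finite
Galois stable `X` containing `0`, since only finitely many conditions have to be avoided.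
-/

set_option autoImplicit false
set_option linter.style.haveILetI false
set_option linter.unusedSectionVars false

noncomputable section

open AlgebraicCurve

namespace FLTAgent.FlatJ

open FLTAgent.Reduction

namespace Setup

variable {ℓ : ℕ} [Fact ℓ.Prime] {F k Fb : Type*} [Field F] [Algebra Qb F] [Field k] [Field Fb]
  [Algebra k Fb] [IsAlgClosed k] [FF.IsFF Qb F] [FF.IsFF k Fb] {A : ValuationSubring Qb}
  {π : A →+* k} (S : Setup ℓ F k Fb A π)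

/-- Two classes whose negated sum is again in `X`. -/
def Adm (X : Set (Pic0 Qb F)) (a b : Pic0 Qb F) : Prop := a ∈ X ∧ b ∈ X ∧ -(a + b) ∈ X

/-- The codimension of `u L(5D - E - E')` in `L(10 D)`. -/
def n10 : ℕ := (5 * Divisor.degree S.dv + 2 * (S.g : ℤ)).toNat

/-- The codimension of `u φ L(6D - 3D₀)` in `L(11 D)`. -/
def n11 : ℕ := (5 * Divisor.degree S.dv + 3 * (S.g : ℤ)).toNat

namespace Frame1

variable {S} {X : Set (Pic0 Qb F)} (T : S.Frame1 X)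

/-- `L(5D - E - E')`. -/
abbrev L5 (pl : Fin S.g → Place Qb F) (a b : Pic0 Qb F) : Submodule Qb F :=
  riemannRochSpace ((5 : ℤ) • S.dv - T.M.eff pl a - T.M.eff pl b)

/-- `L(6D - 3D₀)`. -/
abbrev L6 (_T : S.Frame1 X) (pl : Fin S.g → Place Qb F) : Submodule Qb F :=
  riemannRochSpace ((6 : ℤ) • S.dv - (3 : ℤ) • S.base pl)

/-- `u φ`. -/
abbrev lineVec (pl : Fin S.g → Place Qb F) (rc : Fin S.g → Qb) (ru : Qb) (a b : Pic0 Qb F) : F :=
  S.uFn T pl rc ru * T.M.lineGen pl a b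

/-- `u L(5D - E - E')`. -/
abbrev W10 (pl : Fin S.g → Place Qb F) (rc : Fin S.g → Qb) (ru : Qb) (a b : Pic0 Qb F) :
    Submodule Qb F :=
  (T.L5 pl a b).map (LinearMap.mulLeft Qb (S.uFn T pl rc ru))

/-- `u φ L(6D - 3D₀)`. -/
abbrev W11 (pl : Fin S.g → Place Qb F) (rc : Fin S.g → Qb) (ru : Qb) (a b : Pic0 Qb F) :
    Submodule Qb F :=
  (T.L6 pl).map (LinearMap.mulLeft Qb (T.lineVec pl rc ru a b))

variable {pl : Fin S.g → Place Qb F} {rc : Fin S.g → Qb} {ru : Qb} {a b : Pic0 Qb F}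
  (h : S.IsTuple T.M.mp pl) (hr : IsRoots T.mc rc) (h0 : (0 : Pic0 Qb F) ∈ X) (hru : ru ∈ A)
  (hu : S.G.red (S.uFn T pl rc ru) ≠ 0) (hab : Adm X a b)

include h hr h0 in
theorem uFn_mem_Lv : S.uFn T pl rc ru ∈ S.Lv 3 := by
  refine FF.riemannRochSpace_mono ?_ (T.uFn_mem_L h hr h0)
  rw [Nat.cast_ofNat]
  refine sub_le_self _ fun v => ?_
  rw [Finsupp.zero_apply, Finsupp.smul_apply, smul_eq_mul]
  exact mul_nonneg (by norm_num) (S.base_nonneg pl v)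

include h hab in
theorem degree_L5 : Divisor.degree ((5 : ℤ) • S.dv - T.M.eff pl a - T.M.eff pl b) =
    5 * Divisor.degree S.dv - 2 * S.g := by
  rw [map_sub, map_sub, map_zsmul, smul_eq_mul, T.M.degree_eff h hab.1, T.M.degree_eff h hab.2.1]
  ring

include h hab in
theorem L5_le : T.L5 pl a b ≤ S.Lv 5 :=
  FF.riemannRochSpace_mono (by
    rw [Nat.cast_ofNat, sub_sub]
    exact sub_le_self _ (add_nonneg (T.M.eff_spec h hab.1).1 (T.M.eff_spec h hab.2.1).1))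

theorem L6_le : T.L6 pl ≤ S.Lv 6 :=
  FF.riemannRochSpace_mono (by
    rw [Nat.cast_ofNat]
    refine sub_le_self _ fun v => ?_
    rw [Finsupp.zero_apply, Finsupp.smul_apply, smul_eq_mul]
    exact mul_nonneg (by norm_num) (S.base_nonneg pl v))

include h hr h0 in
theorem W10_le (hab : Adm X a b) : T.W10 pl rc ru a b ≤ S.Lv 10 := by
  rintro _ ⟨y, hy, rfl⟩
  have h8 := FF.mul_mem_riemannRochSpace (T.uFn_mem_Lv (ru := ru) h hr h0) (T.L5_le h hab hy)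
  rw [← add_smul] at h8
  exact FF.riemannRochSpace_mono (S.smul_dv_mono (by norm_num)) h8

include h hr h0 in
theorem finrank_W10 (hu : S.G.red (S.uFn T pl rc ru) ≠ 0) (hab : Adm X a b) :
    Module.finrank Qb (T.W10 pl rc ru a b) + S.n10 = S.dim 10 := by
  have e := LinearEquiv.finrank_eq (Submodule.equivMapOfInjective
    (LinearMap.mulLeft Qb (S.uFn T pl rc ru)) (mul_right_injective₀ (S.G.ne_zero_of_red hu))
    (T.L5 pl a b))
  have hb := S.big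
  have h1 := S.ell_eq (E := (5 : ℤ) • S.dv - T.M.eff pl a - T.M.eff pl b)
    (by rw [T.degree_L5 h hab]; omega)
  rw [T.degree_L5 h hab] at h1
  have h2 := S.dim_eq (j := 10) (by norm_num)
  have h3 : (S.n10 : ℤ) = 5 * Divisor.degree S.dv + 2 * (S.g : ℤ) :=
    Int.toNat_of_nonneg (by omega)
  rw [← e]
  change FF.ell ((5 : ℤ) • S.dv - T.M.eff pl a - T.M.eff pl b) + S.n10 = S.dim 10
  push_cast at h2
  omega

include h hr h0 hab in
theorem lineVec_mem_L : T.lineVec pl rc ru a b ∈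
    riemannRochSpace ((3 : ℤ) • S.dv - T.M.eff pl a - T.M.eff pl b) := by
  have hm := FF.mul_mem_riemannRochSpace (T.uFn_mem_L (ru := ru) h hr h0)
    (T.M.lineGen_spec h hab.1 hab.2.1 hab.2.2).1
  convert hm using 2
  rw [PlacePrimes.zDiv]
  abel

include h hr h0 hab in
theorem lineVec_mem_Lv : T.lineVec pl rc ru a b ∈ S.Lv 3 :=
  FF.riemannRochSpace_mono (by
    rw [Nat.cast_ofNat, sub_sub]
    exact sub_le_self _ (add_nonneg (T.M.eff_spec h hab.1).1 (T.M.eff_spec h hab.2.1).1))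
    (T.lineVec_mem_L h hr h0 hab)

include h hr h0 hru hab in
theorem lineVec_mem_V : T.lineVec pl rc ru a b ∈ S.G.V :=
  S.G.V.mul_mem (T.uFn_mem_V h hr h0 hru) (T.M.lineGen_spec h hab.1 hab.2.1 hab.2.2).2.1

include h hr h0 hru hu hab in
theorem red_lineVec : S.G.red (T.lineVec pl rc ru a b) =
    S.G.red (S.uFn T pl rc ru) * S.G.red (T.M.lineGen pl a b) ∧
    S.G.red (T.lineVec pl rc ru a b) ≠ 0 := by
  obtain ⟨-, hφV, hφ0⟩ := T.M.lineGen_spec h hab.1 hab.2.1 hab.2.2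
  have h1 := S.G.red_mul (T.uFn_mem_V h hr h0 hru) hφV
  exact ⟨h1, h1 ▸ mul_ne_zero hu hφ0⟩

include h hr h0 hab in
theorem W11_le : T.W11 pl rc ru a b ≤ S.Lv 11 := by
  rintro _ ⟨y, hy, rfl⟩
  have h9 := FF.mul_mem_riemannRochSpace (T.lineVec_mem_Lv (ru := ru) h hr h0 hab) (T.L6_le hy)
  rw [← add_smul] at h9
  exact FF.riemannRochSpace_mono (S.smul_dv_mono (by norm_num)) h9

include h hr h0 hru hu hab in
theorem finrank_W11 : Module.finrank Qb (T.W11 pl rc ru a b) + S.n11 = S.dim 11 := by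
  have e := LinearEquiv.finrank_eq (Submodule.equivMapOfInjective
    (LinearMap.mulLeft Qb (T.lineVec pl rc ru a b))
    (mul_right_injective₀ (S.G.ne_zero_of_red (T.red_lineVec h hr h0 hru hu hab).2)) (T.L6 pl))
  have hb := S.big
  have hd : Divisor.degree ((6 : ℤ) • S.dv - (3 : ℤ) • S.base pl) =
      6 * Divisor.degree S.dv - 3 * S.g := by
    rw [map_sub, map_zsmul, map_zsmul, S.degree_base, smul_eq_mul, smul_eq_mul]
  have h1 := S.ell_eq (E := (6 : ℤ) • S.dv - (3 : ℤ) • S.base pl) (by rw [hd]; omega)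
  rw [hd] at h1
  have h2 := S.dim_eq (j := 11) (by norm_num)
  have h3 : (S.n11 : ℤ) = 5 * Divisor.degree S.dv + 3 * (S.g : ℤ) :=
    Int.toNat_of_nonneg (by omega)
  rw [← e]
  change FF.ell ((6 : ℤ) • S.dv - (3 : ℤ) • S.base pl) + S.n11 = S.dim 11
  push_cast at h2
  omega

end Frame1

/-- A complete choice of primes. -/
structure Frame (X : Set (Pic0 Qb F)) where
  stable : ∀ σ : GQ, ∀ a ∈ X, S.gal σ • a ∈ X
  zero_mem : (0 : Pic0 Qb F) ∈ X
  finite : X.Finite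
  T : S.Frame1 X
  mu : ℕ
  prime_u : mu.Prime
  ne_u : mu ≠ ℓ
  red_u : ∀ pl, S.IsTuple T.M.mp pl → ∀ rc, IsRoots T.mc rc → ∀ ru ∈ rootSet mu,
    S.G.red (S.uFn T pl rc ru) ≠ 0
  ml : ℕ
  prime_l : ml.Prime
  ne_l : ml ≠ ℓ
  pairing : ∀ pl, S.IsTuple T.M.mp pl → ∀ rc, IsRoots T.mc rc → ∀ ru ∈ rootSet mu,
    ∀ a b, Adm X a b → ∀ rl ∈ rootSet ml, S.lam rl (T.lineVec pl rc ru a b) ∉ A.nonunits
  m10 : Fin S.n10 → ℕ
  prime10 : ∀ i, (m10 i).Prime
  ne10 : ∀ i, m10 i ≠ ℓ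
  compl10 : ∀ pl, S.IsTuple T.M.mp pl → ∀ rc, IsRoots T.mc rc → ∀ ru ∈ rootSet mu,
    ∀ a b, Adm X a b → ∀ r, IsRoots m10 r → S.GoodCompl 10 (T.W10 pl rc ru a b) (S.vec 10 r)
  m11 : Fin S.n11 → ℕ
  prime11 : ∀ i, (m11 i).Prime
  ne11 : ∀ i, m11 i ≠ ℓ
  compl11 : ∀ pl, S.IsTuple T.M.mp pl → ∀ rc, IsRoots T.mc rc → ∀ ru ∈ rootSet mu,
    ∀ a b, Adm X a b → ∀ r, IsRoots m11 r → S.GoodCompl 11 (T.W11 pl rc ru a b) (S.vec 11 r)

/-- A finite Galois stable set of classes containing `0` has a frame. -/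
theorem nonempty_frame {X : Set (Pic0 Qb F)} (hX : X.Finite) (h0 : (0 : Pic0 Qb F) ∈ X)
    (hst : ∀ σ : GQ, ∀ a ∈ X, S.gal σ • a ∈ X) : Nonempty (S.Frame X) := by
  obtain ⟨T⟩ := S.nonempty_frame1 hX
  obtain ⟨mu, hmu, hmune, hu⟩ := T.exists_uPrime h0
  haveI : Finite {pl // S.IsTuple T.M.mp pl} := T.M.finite_tuples.to_subtype
  haveI : Finite {rc // IsRoots T.mc rc} := (finite_isRoots T.prime_c).to_subtype
  haveI : Finite {ru // ru ∈ rootSet mu} := (finite_rootSet hmu.pos).to_subtype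
  haveI : Finite {p : Pic0 Qb F × Pic0 Qb F // Adm X p.1 p.2} :=
    ((hX.prod hX).subset fun p hp => Set.mk_mem_prod hp.1 hp.2.1).to_subtype
  let I := {pl // S.IsTuple T.M.mp pl} × {rc // IsRoots T.mc rc} × {ru // ru ∈ rootSet mu} ×
    {p : Pic0 Qb F × Pic0 Qb F // Adm X p.1 p.2}
  have hruA : ∀ ru ∈ rootSet mu, ru ∈ A := fun ru h => mem_of_pow_eq_one hmu.pos h.1
  have hw := fun p : I => T.lineVec_mem_V p.1.2 p.2.1.2 h0 (hruA _ p.2.2.1.2) p.2.2.2.2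
  have hL := fun p : I => S.Lv_mono (show 3 ≤ 5 by norm_num)
    (T.lineVec_mem_Lv (ru := p.2.2.1.1) p.1.2 p.2.1.2 h0 p.2.2.2.2)
  have hA := fun p : I => S.coord_mem_of_mem_V (j := 5) (by norm_num) (hL p) (hw p)
  obtain ⟨ml, hml, hmlne, hpair⟩ := exists_nonzeroPrime (k := k) (V := k) ℓ
    (fun (p : I) i => π ⟨_, hA p i⟩) (fun p => by
      by_contra hno
      push Not at hno
      refine (T.red_lineVec p.1.2 p.2.1.2 h0 (hruA _ p.2.2.1.2)
        (hu _ p.1.2 _ p.2.1.2 _ p.2.2.1.2) p.2.2.2.2).2 ?_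
      rw [(S.mem_V_of_coord (j := 5) (by norm_num) (hL p) (hA p)).2]
      simp [hno])
  obtain ⟨m10, hm10, hc10⟩ := S.exists_vecPrimes (j := 10) (by norm_num)
    (fun p : I => T.W10 p.1.1 p.2.1.1 p.2.2.1.1 p.2.2.2.1.1 p.2.2.2.1.2) S.n10
    (fun p => T.W10_le p.1.2 p.2.1.2 h0 p.2.2.2.2)
    (fun p => T.finrank_W10 p.1.2 p.2.1.2 h0 (hu _ p.1.2 _ p.2.1.2 _ p.2.2.1.2) p.2.2.2.2)
  obtain ⟨m11, hm11, hc11⟩ := S.exists_vecPrimes (j := 11) (by norm_num)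
    (fun p : I => T.W11 p.1.1 p.2.1.1 p.2.2.1.1 p.2.2.2.1.1 p.2.2.2.1.2) S.n11
    (fun p => T.W11_le p.1.2 p.2.1.2 h0 p.2.2.2.2)
    (fun p => T.finrank_W11 p.1.2 p.2.1.2 h0 (hruA _ p.2.2.1.2)
      (hu _ p.1.2 _ p.2.1.2 _ p.2.2.1.2) p.2.2.2.2)
  refine ⟨⟨hst, h0, hX, T, mu, hmu, hmune, hu, ml, hml, hmlne, fun pl hpl rc hrc ru hru a b hab rl hrl => ?_,
    m10, fun i => (hm10 i).1, fun i => (hm10 i).2,
    fun pl hpl rc hrc ru hru a b hab r hr =>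
      hc10 r hr (⟨pl, hpl⟩, ⟨rc, hrc⟩, ⟨ru, hru⟩, ⟨(a, b), hab⟩),
    m11, fun i => (hm11 i).1, fun i => (hm11 i).2,
    fun pl hpl rc hrc ru hru a b hab r hr =>
      hc11 r hr (⟨pl, hpl⟩, ⟨rc, hrc⟩, ⟨ru, hru⟩, ⟨(a, b), hab⟩)⟩⟩
  let p : I := (⟨pl, hpl⟩, ⟨rc, hrc⟩, ⟨ru, hru⟩, ⟨(a, b), hab⟩)
  have hrlA : rl ∈ A := mem_of_pow_eq_one hml.pos hrl.1
  obtain ⟨h1, h2⟩ := S.res_rootSet hml hmlne hrl hrlA
  intro hn
  have hlamA : S.lam rl (T.lineVec pl rc ru a b) ∈ A := by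
    rw [lam_apply]
    exact sum_mem fun i _ => mul_mem (pow_mem hrlA _) (hA p i)
  refine hpair _ h1 h2 p ?_
  rw [← (S.res_zero_iff (a := ⟨_, hlamA⟩)).2 hn,
    show (⟨_, hlamA⟩ : A) = ∑ i : Fin (S.dim 5), (⟨rl, hrlA⟩ : A) ^ (i : ℕ) * ⟨_, hA p i⟩ from
      Subtype.ext (by push_cast; exact S.lam_apply rl _)]
  rw [map_sum, moment]
  refine Finset.sum_congr rfl fun i _ => ?_
  rw [map_mul π, map_pow π]
  rfl

end Setup

end FLTAgent.FlatJ
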