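/-
The finite Galois set of auxiliary data and the coordinate functions of classes.
-/
import Fermat.Agent.FlatJ.Datum

/-!
`Frame.Datum`: places and roots of unity of the orders prescribed by a frame, a nonempty
finite Galois set. `cc` are the coordinates of a class at a datum and `val` the constants
attached to a datum; distinct data have constants incongruent at every place over `ℓ`
(`exists_val_not_congr`), which gives the unramifiedness needed for descent.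
-/

set_option autoImplicit false
set_option linter.style.haveILetI false
set_option linter.unusedSectionVars false

noncomputable section

open AlgebraicCurve

open scoped Pointwise

namespace FLTAgent.FlatJ

open FLTAgent.Reduction

namespace Setup

variable {ℓ : ℕ} [Fact ℓ.Prime] {F k Fb : Type*} [Field F] [Algebra Qb F] [Field k] [Field Fb]
  [Algebra k Fb] [IsAlgClosed k] [FF.IsFF Qb F] [FF.IsFF k Fb] {A : ValuationSubring Qb}
  {π : A →+* k} {S : Setup ℓ F k Fb A π} {X : Set (Pic0 Qb F)}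

namespace Frame

variable (Fr : S.Frame X)

/-- The auxiliary data: places and roots of unity of the prescribed orders. -/
@[ext]
structure Datum where
  pl : Fin S.g → Place Qb F
  hpl : S.IsTuple Fr.T.M.mp pl
  rc : Fin S.g → Qb
  hrc : IsRoots Fr.T.mc rc
  ru : Qb
  hru : ru ∈ rootSet Fr.mu
  rl : Qb
  hrl : rl ∈ rootSet Fr.ml
  r10 : Fin S.n10 → Qb
  hr10 : IsRoots Fr.m10 r10
  r11 : Fin S.n11 → Qb
  hr11 : IsRoots Fr.m11 r11

namespace Datum

variable {Fr}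

theorem ru_mem (θ : Fr.Datum) (V : ValuationSubring Qb) : θ.ru ∈ V :=
  mem_of_pow_eq_one Fr.prime_u.pos θ.hru.1

theorem rl_mem (θ : Fr.Datum) (V : ValuationSubring Qb) : θ.rl ∈ V :=
  mem_of_pow_eq_one Fr.prime_l.pos θ.hrl.1

theorem red_u (θ : Fr.Datum) : S.G.red (S.uFn Fr.T θ.pl θ.rc θ.ru) ≠ 0 :=
  Fr.red_u _ θ.hpl _ θ.hrc _ θ.hru

end Datum

theorem nonempty_datum : Nonempty Fr.Datum := by
  obtain ⟨pl, hpl⟩ := Fr.T.M.exists_tuple
  obtain ⟨rc, hrc⟩ := exists_isRoots Fr.T.prime_c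
  obtain ⟨ru, hru⟩ := nonempty_rootSet Fr.prime_u
  obtain ⟨rl, hrl⟩ := nonempty_rootSet Fr.prime_l
  obtain ⟨r10, h10⟩ := exists_isRoots Fr.prime10
  obtain ⟨r11, h11⟩ := exists_isRoots Fr.prime11
  exact ⟨⟨pl, hpl, rc, hrc, ru, hru, rl, hrl, r10, h10, r11, h11⟩⟩

instance finite_datum : Finite Fr.Datum := by
  haveI : Finite {pl // S.IsTuple Fr.T.M.mp pl} := Fr.T.M.finite_tuples.to_subtype
  haveI : Finite {t // IsRoots Fr.T.mc t} := (finite_isRoots Fr.T.prime_c).to_subtype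
  haveI : Finite {t // IsRoots Fr.m10 t} := (finite_isRoots Fr.prime10).to_subtype
  haveI : Finite {t // IsRoots Fr.m11 t} := (finite_isRoots Fr.prime11).to_subtype
  haveI : Finite {t // t ∈ rootSet Fr.mu} := (finite_rootSet Fr.prime_u.pos).to_subtype
  haveI : Finite {t // t ∈ rootSet Fr.ml} := (finite_rootSet Fr.prime_l.pos).to_subtype
  refine Finite.of_injective (β := {pl // S.IsTuple Fr.T.M.mp pl} × {t // IsRoots Fr.T.mc t} ×
    {t // t ∈ rootSet Fr.mu} × {t // t ∈ rootSet Fr.ml} × {t // IsRoots Fr.m10 t} ×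
    {t // IsRoots Fr.m11 t})
    (fun θ => (⟨θ.pl, θ.hpl⟩, ⟨θ.rc, θ.hrc⟩, ⟨θ.ru, θ.hru⟩, ⟨θ.rl, θ.hrl⟩, ⟨θ.r10, θ.hr10⟩,
      ⟨θ.r11, θ.hr11⟩)) fun θ θ' h => ?_
  simp only [Prod.mk.injEq, Subtype.mk.injEq] at h
  obtain ⟨h1, h2, h3, h4, h5, h6⟩ := h
  exact Datum.ext h1 h2 h3 h4 h5 h6

instance : MulAction GQ Fr.Datum where
  smul σ θ :=
    { pl := fun i => S.gal σ • θ.pl i
      hpl := Fr.T.M.isTuple_smul θ.hpl σ
      rc := fun i => σ (θ.rc i)
      hrc := θ.hrc.map σ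
      ru := σ θ.ru
      hru := map_mem_rootSet σ θ.hru
      rl := σ θ.rl
      hrl := map_mem_rootSet σ θ.hrl
      r10 := fun i => σ (θ.r10 i)
      hr10 := θ.hr10.map σ
      r11 := fun i => σ (θ.r11 i)
      hr11 := θ.hr11.map σ }
  one_smul θ := Datum.ext (funext fun i => by
    show S.gal 1 • θ.pl i = θ.pl i
    rw [map_one, one_smul]) rfl rfl rfl rfl rfl
  mul_smul σ τ θ := Datum.ext (funext fun i => by
    show S.gal (σ * τ) • θ.pl i = S.gal σ • S.gal τ • θ.pl i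
    rw [map_mul, mul_smul]) rfl rfl rfl rfl rfl

/-- The coordinates of a class. -/
def cc (θ : Fr.Datum) (a : Pic0 Qb F) (i : Fin (S.dim 1)) (m : Fin S.g) : Qb :=
  S.cCoef Fr.T θ.pl θ.rc a i m

theorem cc_mem {θ : Fr.Datum} {a : Pic0 Qb F} (ha : a ∈ X) (i : Fin (S.dim 1)) (m : Fin S.g) :
    Fr.cc θ a i m ∈ A :=
  Fr.T.cCoef_mem θ.hpl θ.hrc ha i m

theorem cc_smul {θ : Fr.Datum} {a : Pic0 Qb F} (ha : a ∈ X) (σ : GQ) (i : Fin (S.dim 1))
    (m : Fin S.g) : Fr.cc (σ • θ) (S.gal σ • a) i m = σ (Fr.cc θ a i m) :=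
  Fr.T.cCoef_smul θ.hpl θ.hrc ha Fr.stable σ i m

theorem cc_smul_zero {θ : Fr.Datum} (σ : GQ) (i : Fin (S.dim 1)) (m : Fin S.g) :
    Fr.cc (σ • θ) 0 i m = σ (Fr.cc θ 0 i m) := by
  have := Fr.cc_smul (θ := θ) Fr.zero_mem σ i m
  have hz : S.gal σ • (0 : Pic0 Qb F) = 0 := smul_zero (A := Pic0 Qb F) (S.gal σ)
  rwa [hz] at this

theorem eq_of_cc_eq {θ : Fr.Datum} {a b : Pic0 Qb F} (ha : a ∈ X) (hb : b ∈ X)
    (he : ∀ i m, Fr.cc θ a i m = Fr.cc θ b i m) : a = b :=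
  Fr.T.eq_of_cCoef_eq θ.hpl θ.hrc ha hb he

theorem cc_congr {θ : Fr.Datum} {a b : Pic0 Qb F} (ha : a ∈ X) (hb : b ∈ X)
    (hab : Divisor.IsPrincipal (Finsupp.mapDomain S.r (rep a - rep b))) (i : Fin (S.dim 1))
    (m : Fin S.g) : Fr.cc θ a i m - Fr.cc θ b i m ∈ A.nonunits :=
  Fr.T.cCoef_congr θ.hpl θ.hrc ha hb hab i m

/-- The index of the constants attached to a datum. -/
abbrev CIdx (_Fr : S.Frame X) : Type :=
  (Fin S.g ⊕ Unit) ⊕ (Unit ⊕ (Fin S.n10 ⊕ (Fin S.n11 ⊕ (Fin (S.dim 1) × Fin S.g))))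

/-- The constants attached to a datum. -/
def val (θ : Fr.Datum) : Fr.CIdx → Qb :=
  Sum.elim (Sum.elim θ.rc fun _ => θ.ru) (Sum.elim (fun _ => θ.rl)
    (Sum.elim θ.r10 (Sum.elim θ.r11 fun p => Fr.cc θ 0 p.1 p.2)))

theorem val_smul (σ : GQ) (θ : Fr.Datum) (c : Fr.CIdx) : Fr.val (σ • θ) c = σ (Fr.val θ c) := by
  rcases c with (i | i) | i | i | i | ⟨i, m⟩
  exacts [rfl, rfl, rfl, rfl, rfl, Fr.cc_smul_zero σ i m]

theorem val_mem (θ : Fr.Datum) (c : Fr.CIdx) : Fr.val θ c ∈ A := by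
  rcases c with (i | i) | i | i | i | ⟨i, m⟩
  exacts [θ.hrc.mem Fr.T.prime_c A i, θ.ru_mem A, θ.rl_mem A, θ.hr10.mem Fr.prime10 A i,
    θ.hr11.mem Fr.prime11 A i, Fr.cc_mem Fr.zero_mem i m]

include Fr in
theorem eq_of_sub_mem_nonunits {m : ℕ} (hm : m.Prime) (hmℓ : m ≠ ℓ) {t t' : Qb}
    (ht : t ∈ rootSet m) (ht' : t' ∈ rootSet m) (h : t - t' ∈ A.nonunits) : t = t' := by
  have hA : t ∈ A := mem_of_pow_eq_one hm.pos ht.1
  have hA' : t' ∈ A := mem_of_pow_eq_one hm.pos ht'.1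
  refine S.res_rootSet_injective hm hmℓ ht ht' (h := hA) (h' := hA') ?_
  rw [← sub_eq_zero, ← map_sub, S.res_zero_iff]
  exact h

/-- Different data have constants differing modulo the place of the reduction. -/
theorem eq_of_val_congr {θ θ' : Fr.Datum}
    (h : ∀ c, Fr.val θ c - Fr.val θ' c ∈ A.nonunits) : θ = θ' := by
  have hrc : θ.rc = θ'.rc := funext fun i => Fr.eq_of_sub_mem_nonunits (Fr.T.prime_c i)
    (Fr.T.ne_c i) (θ.hrc i) (θ'.hrc i) (h (.inl (.inl i)))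
  refine Datum.ext ?_ hrc
    (Fr.eq_of_sub_mem_nonunits Fr.prime_u Fr.ne_u θ.hru θ'.hru (h (.inl (.inr ()))))
    (Fr.eq_of_sub_mem_nonunits Fr.prime_l Fr.ne_l θ.hrl θ'.hrl (h (.inr (.inl ()))))
    (funext fun i => Fr.eq_of_sub_mem_nonunits (Fr.prime10 i) (Fr.ne10 i) (θ.hr10 i) (θ'.hr10 i)
      (h (.inr (.inr (.inl i)))))
    (funext fun i => Fr.eq_of_sub_mem_nonunits (Fr.prime11 i) (Fr.ne11 i) (θ.hr11 i) (θ'.hr11 i)
      (h (.inr (.inr (.inr (.inl i))))))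
  refine Fr.T.M.eq_of_mapDomain_base_eq θ.hpl θ'.hpl ?_
  have h1 := Fr.T.red_eff_eq_of_congr (pl' := θ'.pl) θ.hpl θ.hrc Fr.zero_mem θ'.hpl Fr.zero_mem
    (a := 0) (b := 0) fun i m => by
      have := h (.inr (.inr (.inr (.inr (i, m)))))
      simp only [val, Sum.elim_inr, cc, ← hrc] at this
      exact this
  rwa [Fr.T.M.eff_zero θ.hpl Fr.zero_mem, Fr.T.M.eff_zero θ'.hpl Fr.zero_mem] at h1

/-- Different data have constants differing modulo every place over `ℓ`. -/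
theorem exists_val_not_congr {θ θ' : Fr.Datum} (hne : θ ≠ θ') {V : ValuationSubring Qb}
    (hV : V.LiesOverPrime ℓ) : ∃ c, Fr.val θ c - Fr.val θ' c ∉ V.nonunits := by
  obtain ⟨τ, rfl⟩ := GalCommon.exists_smul_eq_of_liesOverPrime (Fact.out : ℓ.Prime) S.hA hV
  by_contra hno
  push Not at hno
  refine hne (smul_left_cancel τ⁻¹ (Fr.eq_of_val_congr fun c => ?_))
  rw [val_smul, val_smul, ← map_sub, ← GalCommon.map_mem_nonunits_iff (σ := τ), AlgEquiv.aut_inv,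
    AlgEquiv.apply_symm_apply]
  exact hno c

end Frame

end Setup

end FLTAgent.FlatJ
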