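/-
Families of functions in `L(j D)` with coordinates in a ring of equivariant integral functions.
-/
import Fermat.Agent.FlatJ.Gens

/-!
`InB B j φ`: a family `φ` of functions in `L(j D)` whose coordinates belong to an `EquivRing`
`B`; closed under the linear operations and products. `coeff_mem`: coefficients of such a
family along a family of good complements again belong to `B`, being the solution of a system
that is full modulo `A` (`EquivRing.mem_of_system`).
-/

set_option autoImplicit false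
set_option linter.style.haveILetI false
set_option linter.unusedSectionVars false

noncomputable section

open AlgebraicCurve

namespace FLTAgent.FlatJ

open FLTAgent.Reduction

namespace Setup

variable {ℓ : ℕ} [Fact ℓ.Prime] {F k Fb : Type*} [Field F] [Algebra Qb F] [Field k] [Field Fb]
  [Algebra k Fb] [IsAlgClosed k] [FF.IsFF Qb F] [FF.IsFF k Fb] {A : ValuationSubring Qb}
  {π : A →+* k} (S : Setup ℓ F k Fb A π) {Ω : Type*} [MulAction GQ Ω]

/-- A family in `L(j D)` with coordinates in the ring. -/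
structure InB (B : EquivRing ℓ Ω) (j : ℕ) (φ : Ω → F) : Prop where
  mem : ∀ ω, φ ω ∈ S.Lv j
  coord : ∀ i, (fun ω => S.coord j (φ ω) i) ∈ B.ring

variable {S} {B : EquivRing ℓ Ω}

include S in
theorem fixed_mem {x : Qb} (hfix : ∀ σ : GQ, σ x = x) (hx : x ∈ A) :
    (fun _ : Ω => x) ∈ B.ring := by
  obtain ⟨r, rfl⟩ := exists_Rl_of_fixed S.hA hfix hx
  exact B.ring.algebraMap_mem r

theorem coord_fixed {j : ℕ} (hj : j ≠ 0) {f : F} (hf : f ∈ S.Lv j)
    (hfix : ∀ σ : GQ, S.gal σ • f = f) (i : Fin (S.dim j)) (σ : GQ) :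
    σ (S.coord j f i) = S.coord j f i := by
  rw [← S.coord_gal hj σ hf, hfix σ]

theorem inB_fixed {j : ℕ} (hj : j ≠ 0) {f : F} (hf : f ∈ S.Lv j) (hV : f ∈ S.G.V)
    (hfix : ∀ σ : GQ, S.gal σ • f = f) : S.InB B j fun _ => f :=
  ⟨fun _ => hf, fun i => fixed_mem (S := S) (coord_fixed hj hf hfix i)
    (S.coord_mem_of_mem_V hj hf hV i)⟩

theorem inB_e {j : ℕ} (hj : j ≠ 0) (i : Fin (S.dim j)) : S.InB B j fun _ => S.e j i :=
  inB_fixed hj ((S.genSys_e hj).mem i) ((S.e_redIndep j).1 i) fun σ => S.smul_e j σ i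

namespace InB

variable {i j : ℕ} {φ ψ : Ω → F}

theorem mem_V (h : S.InB B j φ) (hj : j ≠ 0) (ω : Ω) : φ ω ∈ S.G.V :=
  (S.mem_V_of_coord hj (h.mem ω) fun i => B.apply_mem S.hA (h.coord i) ω).1

theorem sub (h : S.InB B j φ) (h' : S.InB B j ψ) : S.InB B j fun ω => φ ω - ψ ω := by
  refine ⟨fun ω => Submodule.sub_mem _ (h.mem ω) (h'.mem ω), fun a => ?_⟩
  convert sub_mem (h.coord a) (h'.coord a) using 1
  funext ω
  simp

theorem smul {c : Ω → Qb} (hc : c ∈ B.ring) (h : S.InB B j φ) :
    S.InB B j fun ω => c ω • φ ω := by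
  refine ⟨fun ω => Submodule.smul_mem _ _ (h.mem ω), fun a => ?_⟩
  convert mul_mem hc (h.coord a) using 1
  funext ω
  simp

theorem sum {ι : Type*} [Fintype ι] {Φ : ι → Ω → F} (h : ∀ x, S.InB B j (Φ x)) :
    S.InB B j fun ω => ∑ x, Φ x ω := by
  refine ⟨fun ω => Submodule.sum_mem _ fun x _ => (h x).mem ω, fun a => ?_⟩
  convert sum_mem (t := Finset.univ) fun x (_ : x ∈ Finset.univ) => (h x).coord a using 1
  funext ω
  simp [Finset.sum_apply]

theorem moment {n : ℕ} {Φ : Fin n → Ω → F} (h : ∀ x, S.InB B j (Φ x)) {t : Ω → Qb}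
    (ht : t ∈ B.ring) : S.InB B j fun ω => FlatJ.moment (fun x => Φ x ω) (t ω) :=
  InB.sum fun x => InB.smul (pow_mem ht (x : ℕ)) (h x)

theorem mono (h : S.InB B i φ) (hi : i ≠ 0) (hij : i ≤ j) : S.InB B j φ := by
  refine ⟨fun ω => S.Lv_mono hij (h.mem ω), fun a => ?_⟩
  have hj : j ≠ 0 := by omega
  have key : (fun ω => S.coord j (φ ω) a) = ∑ b, (fun ω => S.coord i (φ ω) b) *
      fun _ : Ω => S.coord j (S.e i b) a := by
    funext ω
    conv_lhs => rw [← S.sum_coord hi (h.mem ω)]
    simp [Finset.sum_apply]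
  rw [key]
  exact sum_mem fun b _ => mul_mem (h.coord b)
    ((inB_fixed (S := S) (B := B) hj (S.Lv_mono hij ((S.genSys_e hi).mem b)) ((S.e_redIndep i).1 b)
      fun σ => S.smul_e i σ b).coord a)

theorem mul (h : S.InB B i φ) (h' : S.InB B j ψ) (hi : i ≠ 0) (hj : j ≠ 0) :
    S.InB B (i + j) fun ω => φ ω * ψ ω := by
  have hmem : ∀ {f f' : F}, f ∈ S.Lv i → f' ∈ S.Lv j → f * f' ∈ S.Lv (i + j) := by
    intro f f' hf hf'
    have := FF.mul_mem_riemannRochSpace hf hf'
    rwa [← add_smul, ← Nat.cast_add] at this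
  refine ⟨fun ω => hmem (h.mem ω) (h'.mem ω), fun a => ?_⟩
  have key : (fun ω => S.coord (i + j) (φ ω * ψ ω) a) = ∑ b, ∑ c,
      (fun ω => S.coord i (φ ω) b) * (fun ω => S.coord j (ψ ω) c) *
        fun _ : Ω => S.coord (i + j) (S.e i b * S.e j c) a := by
    funext ω
    conv_lhs => rw [← S.sum_coord hi (h.mem ω), ← S.sum_coord hj (h'.mem ω)]
    simp [Finset.sum_apply, Finset.sum_mul, Finset.mul_sum, mul_assoc]
    rw [Finset.sum_comm]
    exact Finset.sum_congr rfl fun b _ => Finset.sum_congr rfl fun c _ => by ring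
  rw [key]
  exact sum_mem fun b _ => sum_mem fun c _ => mul_mem (mul_mem (h.coord b) (h'.coord c))
    ((inB_fixed (S := S) (B := B) (by omega)
      (hmem ((S.genSys_e hi).mem b) ((S.genSys_e hj).mem c))
      (S.G.V.mul_mem ((S.e_redIndep i).1 b) ((S.e_redIndep j).1 c))
      fun σ => by rw [smul_mul', S.smul_e, S.smul_e]).coord a)

end InB

theorem inB_vec {j : ℕ} (hj : j ≠ 0) {r : ℕ} {t : Fin r → Ω → Qb} (ht : ∀ l, t l ∈ B.ring)
    (l : Fin r) : S.InB B j fun ω => S.vec j (fun l => t l ω) l :=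
  InB.moment (fun x => inB_e hj x) (ht l)

variable [Finite Ω]

/-- Coefficients along complements are functions in the ring. -/
theorem coeff_mem {j : ℕ} (hj : j ≠ 0) {W : Ω → Submodule Qb F} {α : Type*} {v : α → Ω → F}
    (hv : ∀ a, S.InB B j (v a)) (hgen : ∀ ω, S.GenSys (W ω) fun a => v a ω) {r : ℕ}
    {C : Fin r → Ω → F} (hC : ∀ l, S.InB B j (C l))
    (hcompl : ∀ ω, S.GoodCompl j (W ω) fun l => C l ω) {φ : Ω → F} (hφ : S.InB B j φ)
    (l : Fin r) : (fun ω => (hcompl ω).coeff (φ ω) l) ∈ B.ring := by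
  classical
  have hx : ∀ i, (fun ω => (hcompl ω).coeff (S.e j i) l) ∈ B.ring := by
    refine B.mem_of_system (ι := α ⊕ Fin r)
      (M := fun s i ω => S.coord j (Sum.elim v C s ω) i)
      (b := Sum.elim (fun _ _ => 0) fun m _ => if m = l then 1 else 0)
      (fun s i => ?_) (fun s => ?_) (fun ω s => ?_) S.hA (fun ω => ?_)
    · rcases s with a | m
      exacts [(hv a).coord i, (hC m).coord i]
    · rcases s with a | m
      · exact zero_mem _
      · by_cases hm : m = l
        · simp only [Sum.elim_inr, hm, if_true]; exact one_mem _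
        · simp only [Sum.elim_inr, hm, if_false]; exact zero_mem _
    · have hmem : Sum.elim v C s ω ∈ S.Lv j := by
        rcases s with a | m
        exacts [(hv a).mem ω, (hC m).mem ω]
      have h1 := congrFun (congrArg (hcompl ω).coeff (S.sum_coord hj hmem)) l
      rw [map_sum, Finset.sum_apply] at h1
      simp only [map_smul, Pi.smul_apply, smul_eq_mul] at h1
      rw [h1]
      rcases s with a | m
      · simp [(hcompl ω).coeff_of_mem ((hgen ω).mem a)]
      · rw [Sum.elim_inr, Sum.elim_inr, (hcompl ω).coeff_C, Pi.single_apply]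
        simp only [eq_comm]
    · refine S.fullAt_of_span hj (fun s => Sum.elim v C s ω) (fun s => ?_) (fun s => ?_) ?_
      · rcases s with a | m
        exacts [(hv a).mem ω, (hC m).mem ω]
      · rcases s with a | m
        exacts [(hv a).mem_V hj ω, (hC m).mem_V hj ω]
      · refine (hcompl ω).span_red.trans (sup_le ?_ ?_)
        · exact (hgen ω).span_red.trans
            (Submodule.span_mono (by rintro _ ⟨a, rfl⟩; exact ⟨Sum.inl a, rfl⟩))
        · exact Submodule.span_mono (by rintro _ ⟨m, rfl⟩; exact ⟨Sum.inr m, rfl⟩)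
  have key : (fun ω => (hcompl ω).coeff (φ ω) l) =
      ∑ i, (fun ω => S.coord j (φ ω) i) * fun ω => (hcompl ω).coeff (S.e j i) l := by
    funext ω
    conv_lhs => rw [← S.sum_coord hj (hφ.mem ω)]
    simp [Finset.sum_apply]
  rw [key]
  exact sum_mem fun i _ => mul_mem (hφ.coord i) (hx i)

end Setup

end FLTAgent.FlatJ
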