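/-
The ring of coordinates of pairs of classes and the families of functions built from it.
-/
import Fermat.Agent.FlatJ.Points
import Fermat.Agent.FlatJ.Ring

/-!
`Pt`: a datum with an admissible pair of classes `(a, b)`, a finite Galois set. `pairRing` is
the `EquivRing` generated by the constants of the datum and the coordinates of `a` and `b`;
the families `gen`, `uAt`, `z5`, `z6`, `y5` have coordinates in it, and the latter three generate
the auxiliary Riemann-Roch spaces with spanning reductions.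
-/

set_option autoImplicit false
set_option linter.style.haveILetI false
set_option linter.unusedSectionVars false

noncomputable section

open AlgebraicCurve

namespace FLTAgent.FlatJ

open FLTAgent.Reduction

/-- Functions with integral values on a finite set are integral. -/
theorem isIntegral_pi_finite {ℓ : ℕ} {Ω : Type*} [Finite Ω] {f : Ω → Qb}
    (h : ∀ ω, IsIntegral (Rl ℓ) (f ω)) : IsIntegral (Rl ℓ) f := by
  classical
  haveI := Fintype.ofFinite Ω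
  choose p hp hpf using h
  refine ⟨∏ ω, p ω, Polynomial.monic_prod_of_monic _ _ fun ω _ => hp ω, funext fun ω => ?_⟩
  have h1 := Polynomial.hom_eval₂ (∏ x, p x) (algebraMap (Rl ℓ) (Ω → Qb))
    (Pi.evalRingHom (fun _ : Ω => Qb) ω) f
  change (Pi.evalRingHom (fun _ : Ω => Qb) ω) _ = (0 : Qb)
  rw [h1]
  change Polynomial.eval₂ (algebraMap (Rl ℓ) Qb) (f ω) (∏ x, p x) = 0
  rw [Polynomial.eval₂_finsetProd]
  exact Finset.prod_eq_zero (Finset.mem_univ ω) (hpf ω)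

namespace Setup

variable {ℓ : ℕ} [Fact ℓ.Prime] {F k Fb : Type*} [Field F] [Algebra Qb F] [Field k] [Field Fb]
  [Algebra k Fb] [IsAlgClosed k] [FF.IsFF Qb F] [FF.IsFF k Fb] {A : ValuationSubring Qb}
  {π : A →+* k} {S : Setup ℓ F k Fb A π} {X : Set (Pic0 Qb F)}

namespace Frame

variable (Fr : S.Frame X)

/-- A datum with a pair of classes. -/
structure Pt where
  θ : Fr.Datum
  a : Pic0 Qb F
  b : Pic0 Qb F
  adm : Adm X a b

instance finite_pt : Finite Fr.Pt := by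
  haveI := Fr.finite.to_subtype
  refine Finite.of_injective (β := Fr.Datum × X × X)
    (fun p => (p.θ, ⟨p.a, p.adm.1⟩, ⟨p.b, p.adm.2.1⟩)) ?_
  rintro ⟨θ, a, b, h⟩ ⟨θ', a', b', h'⟩ he
  simp only [Prod.mk.injEq, Subtype.mk.injEq] at he
  obtain ⟨rfl, rfl, rfl⟩ := he
  rfl

include Fr in
theorem adm_smul {a b : Pic0 Qb F} (h : Adm X a b) (σ : GQ) :
    Adm X (S.gal σ • a) (S.gal σ • b) := by
  refine ⟨Fr.stable σ a h.1, Fr.stable σ b h.2.1, ?_⟩
  have := Fr.stable σ _ h.2.2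
  rwa [show S.gal σ • -(a + b) = -(S.gal σ • a + S.gal σ • b) from
    ((DistribSMul.toAddMonoidHom (Pic0 Qb F) (S.gal σ)).map_neg (a + b)).trans
      (congrArg Neg.neg (map_add (DistribSMul.toAddMonoidHom (Pic0 Qb F) (S.gal σ)) a b))] at this

instance : MulAction GQ Fr.Pt where
  smul σ p := ⟨σ • p.θ, S.gal σ • p.a, S.gal σ • p.b, Fr.adm_smul p.adm σ⟩
  one_smul := by
    rintro ⟨θ, a, b, h⟩
    show (⟨(1 : GQ) • θ, S.gal 1 • a, S.gal 1 • b, _⟩ : Fr.Pt) = _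
    simp only [one_smul, map_one]
  mul_smul σ τ := by
    rintro ⟨θ, a, b, h⟩
    show (⟨(σ * τ) • θ, S.gal (σ * τ) • a, S.gal (σ * τ) • b, _⟩ : Fr.Pt) =
      (⟨σ • τ • θ, S.gal σ • S.gal τ • a, S.gal σ • S.gal τ • b, _⟩ : Fr.Pt)
    simp only [mul_smul, map_mul]

/-- The generating functions. -/
def gfun : Fr.CIdx ⊕ ((Fin (S.dim 1) × Fin S.g) ⊕ (Fin (S.dim 1) × Fin S.g)) → Fr.Pt → Qb :=
  Sum.elim (fun c p => Fr.val p.θ c)
    (Sum.elim (fun x p => Fr.cc p.θ p.a x.1 x.2) fun x p => Fr.cc p.θ p.b x.1 x.2)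

theorem gfun_smul (c : Fr.CIdx ⊕ ((Fin (S.dim 1) × Fin S.g) ⊕ (Fin (S.dim 1) × Fin S.g)))
    (σ : GQ) (p : Fr.Pt) : Fr.gfun c (σ • p) = σ (Fr.gfun c p) := by
  rcases c with c | x | x
  exacts [Fr.val_smul σ p.θ c, Fr.cc_smul p.adm.1 σ x.1 x.2, Fr.cc_smul p.adm.2.1 σ x.1 x.2]

theorem gfun_mem (c : Fr.CIdx ⊕ ((Fin (S.dim 1) × Fin S.g) ⊕ (Fin (S.dim 1) × Fin S.g)))
    (p : Fr.Pt) : Fr.gfun c p ∈ A := by
  rcases c with c | x | x
  exacts [Fr.val_mem p.θ c, Fr.cc_mem p.adm.1 x.1 x.2, Fr.cc_mem p.adm.2.1 x.1 x.2]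

/-- The ring of coordinates of pairs. -/
def pairRing : EquivRing ℓ Fr.Pt where
  ring := Algebra.adjoin (Rl ℓ) (Set.range Fr.gfun)
  finite := Module.Finite.iff_fg.2 (fg_adjoin_of_finite (Set.finite_range _) (by
    rintro _ ⟨c, rfl⟩
    exact isIntegral_pi_finite fun p => isIntegral_apply S.hA (Fr.gfun_smul c) (Fr.gfun_mem c) p))
  equivariant := fun f hf => by
    induction hf using Algebra.adjoin_induction with
    | mem f hf => obtain ⟨c, rfl⟩ := hf; exact Fr.gfun_smul c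
    | algebraMap r =>
      intro σ p
      show algebraMap (Rl ℓ) Qb r = σ (algebraMap (Rl ℓ) Qb r)
      exact (σ.commutes (r : ℚ)).symm
    | add f g _ _ hf hg => intro σ p; simp [hf σ p, hg σ p]
    | mul f g _ _ hf hg => intro σ p; simp [hf σ p, hg σ p]

theorem gfun_mem_ring (c : Fr.CIdx ⊕ ((Fin (S.dim 1) × Fin S.g) ⊕ (Fin (S.dim 1) × Fin S.g))) :
    Fr.gfun c ∈ Fr.pairRing.ring :=
  Algebra.subset_adjoin ⟨c, rfl⟩

/-- The generators attached to a class depending on the point. -/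
theorem inB_gen {a : Fr.Pt → Pic0 Qb F}
    (ha : ∀ i m, (fun p => Fr.cc p.θ (a p) i m) ∈ Fr.pairRing.ring) (i : Fin (S.dim 1)) :
    S.InB Fr.pairRing 1 fun p => S.gen Fr.T p.θ.pl p.θ.rc (a p) i :=
  (inB_e one_ne_zero i).sub (InB.sum fun m => InB.smul (ha i m)
    (inB_vec one_ne_zero (t := fun l (p : Fr.Pt) => p.θ.rc l)
      (fun l => Fr.gfun_mem_ring (.inl (.inl (.inl l)))) m))

theorem inB_gen_a (i : Fin (S.dim 1)) :
    S.InB Fr.pairRing 1 fun p => S.gen Fr.T p.θ.pl p.θ.rc p.a i :=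
  Fr.inB_gen (a := fun p : Fr.Pt => p.a) (fun i m => Fr.gfun_mem_ring (.inr (.inl (i, m)))) i

theorem inB_gen_b (i : Fin (S.dim 1)) :
    S.InB Fr.pairRing 1 fun p => S.gen Fr.T p.θ.pl p.θ.rc p.b i :=
  Fr.inB_gen (a := fun p : Fr.Pt => p.b) (fun i m => Fr.gfun_mem_ring (.inr (.inr (i, m)))) i

theorem inB_gen_zero (i : Fin (S.dim 1)) :
    S.InB Fr.pairRing 1 fun p => S.gen Fr.T p.θ.pl p.θ.rc 0 i :=
  Fr.inB_gen (a := fun _ => 0)
    (fun i m => Fr.gfun_mem_ring (.inl (.inr (.inr (.inr (.inr (i, m))))))) i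

/-- `u` at a point. -/
def uAt (p : Fr.Pt) : F := S.uFn Fr.T p.θ.pl p.θ.rc p.θ.ru

theorem inB_u : S.InB Fr.pairRing 3 Fr.uAt := by
  have h1 := InB.moment (fun i => Fr.inB_gen_zero i) (t := fun p : Fr.Pt => p.θ.ru)
    (Fr.gfun_mem_ring (.inl (.inl (.inr ()))))
  have h2 := h1.mul (h1.mul h1 one_ne_zero one_ne_zero) one_ne_zero (by norm_num)
  refine ⟨fun p => ?_, fun i => ?_⟩
  · have := h2.mem p
    rwa [uAt, uFn, pow_three]
  · have := h2.coord i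
    simp only [← pow_three] at this
    exact this

/-- Generators of `L(5D - 3D₀)`. -/
def z5 (x : Fin (S.dim 1) × Fin (S.dim 1) × Fin (S.dim 1) × Fin (S.dim 2)) (p : Fr.Pt) : F :=
  S.gen Fr.T p.θ.pl p.θ.rc 0 x.1 *
    (S.gen Fr.T p.θ.pl p.θ.rc 0 x.2.1 * (S.gen Fr.T p.θ.pl p.θ.rc 0 x.2.2.1 * S.e 2 x.2.2.2))

/-- Generators of `L(6D - 3D₀)`. -/
def z6 (x : Fin (S.dim 1) × Fin (S.dim 1) × Fin (S.dim 1) × Fin (S.dim 3)) (p : Fr.Pt) : F :=
  S.gen Fr.T p.θ.pl p.θ.rc 0 x.1 *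
    (S.gen Fr.T p.θ.pl p.θ.rc 0 x.2.1 * (S.gen Fr.T p.θ.pl p.θ.rc 0 x.2.2.1 * S.e 3 x.2.2.2))

/-- Generators of `L(5D - E - E')`. -/
def y5 (x : Fin (S.dim 1) × Fin (S.dim 1) × Fin (S.dim 3)) (p : Fr.Pt) : F :=
  S.gen Fr.T p.θ.pl p.θ.rc p.b x.1 * (S.gen Fr.T p.θ.pl p.θ.rc p.a x.2.1 * S.e 3 x.2.2)

theorem inB_z5 (x) : S.InB Fr.pairRing 5 (Fr.z5 x) :=
  (Fr.inB_gen_zero _).mul ((Fr.inB_gen_zero _).mul ((Fr.inB_gen_zero _).mul
    (inB_e two_ne_zero _) one_ne_zero two_ne_zero) one_ne_zero (by norm_num))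
    one_ne_zero (by norm_num)

theorem inB_z6 (x) : S.InB Fr.pairRing 6 (Fr.z6 x) :=
  (Fr.inB_gen_zero _).mul ((Fr.inB_gen_zero _).mul ((Fr.inB_gen_zero _).mul
    (inB_e three_ne_zero _) one_ne_zero three_ne_zero) one_ne_zero (by norm_num))
    one_ne_zero (by norm_num)

theorem inB_y5 (x) : S.InB Fr.pairRing 5 (Fr.y5 x) :=
  (Fr.inB_gen_b _).mul ((Fr.inB_gen_a _).mul (inB_e three_ne_zero _) one_ne_zero three_ne_zero)
    one_ne_zero (by norm_num)

section GenSys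

variable (p : Fr.Pt)

theorem genSys_gen_zero : S.GenSys (riemannRochSpace (S.dv - S.base p.θ.pl))
    (S.gen Fr.T p.θ.pl p.θ.rc 0) := by
  have := Fr.T.genSys p.θ.hpl p.θ.hrc Fr.zero_mem
  unfold PlacePrimes.W at this
  rwa [Fr.T.M.eff_zero p.θ.hpl Fr.zero_mem] at this

theorem genSys_cube {j : ℕ} (hj : 2 ≤ j) :
    S.GenSys (riemannRochSpace (((j : ℤ) + 3) • S.dv - (3 : ℤ) • S.base p.θ.pl))
      fun x : Fin (S.dim 1) × Fin (S.dim 1) × Fin (S.dim 1) × Fin (S.dim j) =>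
        S.gen Fr.T p.θ.pl p.θ.rc 0 x.1 * (S.gen Fr.T p.θ.pl p.θ.rc 0 x.2.1 *
          (S.gen Fr.T p.θ.pl p.θ.rc 0 x.2.2.1 * S.e j x.2.2.2)) := by
  have hb := S.big
  have hd : Divisor.degree (S.dv - S.base p.θ.pl) = Divisor.degree S.dv - S.g := by
    rw [map_sub, S.degree_base]
  have hjd : 2 * Divisor.degree S.dv ≤ (j : ℤ) * Divisor.degree S.dv :=
    mul_le_mul_of_nonneg_right (by exact_mod_cast hj) (by omega)
  have h0 := Fr.genSys_gen_zero p
  have h1 := h0.mul (S.genSys_e (j := j) (by omega)) (by rw [hd]; omega)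
    (by rw [hd, map_zsmul, smul_eq_mul]; omega)
    (E'' := ((j : ℤ) + 1) • S.dv - S.base p.θ.pl) (by module)
  have h2 := h0.mul h1 (by rw [hd]; omega)
    (by rw [hd, map_sub, map_zsmul, smul_eq_mul, S.degree_base, add_mul, one_mul]; omega)
    (E'' := ((j : ℤ) + 2) • S.dv - (2 : ℤ) • S.base p.θ.pl) (by module)
  exact h0.mul h2 (by rw [hd]; omega)
    (by rw [hd, map_sub, map_zsmul, map_zsmul, smul_eq_mul, smul_eq_mul, S.degree_base, add_mul]
        omega)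
    (E'' := ((j : ℤ) + 3) • S.dv - (3 : ℤ) • S.base p.θ.pl) (by module)

theorem genSys_z5 : S.GenSys (riemannRochSpace ((5 : ℤ) • S.dv - (3 : ℤ) • S.base p.θ.pl))
    fun x => Fr.z5 x p :=
  Fr.genSys_cube p le_rfl

theorem genSys_z6 : S.GenSys (Fr.T.L6 p.θ.pl) fun x => Fr.z6 x p :=
  Fr.genSys_cube p (j := 3) (by norm_num)

theorem genSys_y5 : S.GenSys (Fr.T.L5 p.θ.pl p.a p.b) fun x => Fr.y5 x p := by
  have hb := S.big
  have ha := Fr.T.M.degree_sub_eff p.θ.hpl p.adm.1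
  have hb' := Fr.T.M.degree_sub_eff p.θ.hpl p.adm.2.1
  have h1 := (Fr.T.genSys p.θ.hpl p.θ.hrc p.adm.1).mul (S.genSys_e three_ne_zero)
    (by rw [ha]; omega) (by rw [ha, map_zsmul, smul_eq_mul]; push_cast; omega)
    (E'' := (4 : ℤ) • S.dv - Fr.T.M.eff p.θ.pl p.a) (by module)
  exact (Fr.T.genSys p.θ.hpl p.θ.hrc p.adm.2.1).mul h1 (by rw [hb']; omega)
    (by rw [hb', map_sub, map_zsmul, smul_eq_mul, Fr.T.M.degree_eff p.θ.hpl p.adm.1]; omega)
    (by module)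

end GenSys

end Frame

end Setup

end FLTAgent.FlatJ
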