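/-
The coordinates of `-(a + b)` are integral polynomial functions of those of `a` and `b`.
-/
import Fermat.Agent.FlatJ.Pairs

/-!
`cc_neg_add_mem`: the coordinates of `-(a + b)` belong to the ring of those of `a` and `b`
(`pairRing`). Two systems, full modulo `A` by `Fibre` on the special fibre and solved with
`EquivRing.mem_of_system`: first the normalised generator `lineFn` of the line
`u L(3D₀ - E - E')`, then the coordinates of `-(a + b)`, i.e. the coefficients of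
the fixed basis along the complement of `L(D - E'')`. `cc_neg_add_mem_of` is the same for
families of pairs indexed by any set.
-/

set_option autoImplicit false
set_option linter.style.haveILetI false
set_option linter.unusedSectionVars false

noncomputable section

open AlgebraicCurve

namespace FLTAgent.FlatJ

open FLTAgent.Reduction

namespace Setup

variable {ℓ : ℕ} [Fact ℓ.Prime] {F k Fb : Type*} [Field F] [Algebra Qb F] [Field k] [Field Fb]
  [Algebra k Fb] [IsAlgClosed k] [FF.IsFF Qb F] [FF.IsFF k Fb] {A : ValuationSubring Qb}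
  {π : A →+* k} {S : Setup ℓ F k Fb A π} {X : Set (Pic0 Qb F)}

namespace Frame

variable (Fr : S.Frame X)

/-- `u φ` at a point. -/
abbrev lineAt (p : Fr.Pt) : F := Fr.T.lineVec p.θ.pl p.θ.rc p.θ.ru p.a p.b

theorem compl10_at (p : Fr.Pt) : S.GoodCompl 10
    (Fr.T.W10 p.θ.pl p.θ.rc p.θ.ru p.a p.b) (S.vec 10 p.θ.r10) :=
  Fr.compl10 _ p.θ.hpl _ p.θ.hrc _ p.θ.hru _ _ p.adm _ p.θ.hr10

theorem compl11_at (p : Fr.Pt) : S.GoodCompl 11
    (Fr.T.W11 p.θ.pl p.θ.rc p.θ.ru p.a p.b) (S.vec 11 p.θ.r11) :=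
  Fr.compl11 _ p.θ.hpl _ p.θ.hrc _ p.θ.hru _ _ p.adm _ p.θ.hr11

theorem lam_ne_zero (p : Fr.Pt) :
    S.lam p.θ.rl (Fr.lineAt p) ∉ A.nonunits :=
  Fr.pairing _ p.θ.hpl _ p.θ.hrc _ p.θ.hru _ _ p.adm _ p.θ.hrl

theorem lineAt_mem_Lv (p : Fr.Pt) : Fr.lineAt p ∈ S.Lv 5 :=
  S.Lv_mono (by norm_num) (Fr.T.lineVec_mem_Lv p.θ.hpl p.θ.hrc Fr.zero_mem p.adm)

theorem lineAt_mem_V (p : Fr.Pt) : Fr.lineAt p ∈ S.G.V :=
  Fr.T.lineVec_mem_V p.θ.hpl p.θ.hrc Fr.zero_mem (p.θ.ru_mem A) p.adm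

theorem red_lineAt (p : Fr.Pt) : S.G.red (Fr.lineAt p) =
    S.G.red (Fr.uAt p) * S.G.red (Fr.T.M.lineGen p.θ.pl p.a p.b) ∧
    S.G.red (Fr.lineAt p) ≠ 0 :=
  Fr.T.red_lineVec p.θ.hpl p.θ.hrc Fr.zero_mem (p.θ.ru_mem A) p.θ.red_u p.adm

theorem coord_lineAt_mem (p : Fr.Pt) (i : Fin (S.dim 5)) : S.coord 5 (Fr.lineAt p) i ∈ A :=
  S.coord_mem_of_mem_V (by norm_num) (Fr.lineAt_mem_Lv p) (Fr.lineAt_mem_V p) i

theorem lam_mem (p : Fr.Pt) : S.lam p.θ.rl (Fr.lineAt p) ∈ A := by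
  rw [lam_apply]
  exact sum_mem fun i _ => mul_mem (pow_mem (p.θ.rl_mem A) _) (Fr.coord_lineAt_mem p i)

theorem lam_inv_mem (p : Fr.Pt) : (S.lam p.θ.rl (Fr.lineAt p))⁻¹ ∈ A := by
  have h := Fr.lam_ne_zero p
  rw [ValuationSubring.mem_nonunits_iff_or, not_or, not_not] at h
  exact h.2

theorem lam_lineAt_ne (p : Fr.Pt) : S.lam p.θ.rl (Fr.lineAt p) ≠ 0 := fun h =>
  Fr.lam_ne_zero p (by rw [h, ValuationSubring.mem_nonunits_iff]; simp)

/-- The normalised function on the line. -/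
def lineFn (p : Fr.Pt) : F := (S.lam p.θ.rl (Fr.lineAt p))⁻¹ • Fr.lineAt p

theorem redSub_L5_eq (p : Fr.Pt) : S.G.redSub (Fr.T.L5 p.θ.pl p.a p.b) =
    riemannRochSpace ((5 : ℤ) • S.dvBar - Finsupp.mapDomain S.r (Fr.T.M.eff p.θ.pl p.a) -
      Finsupp.mapDomain S.r (Fr.T.M.eff p.θ.pl p.b)) := by
  have := S.big
  rw [S.redSub_L_eq (by rw [Fr.T.degree_L5 p.θ.hpl p.adm]; omega)]
  congr 1
  rw [← Finsupp.mapDomain.addMonoidHom_apply, map_sub, map_sub]
  simp only [Finsupp.mapDomain.addMonoidHom_apply, S.mapDomain_smul_dv]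

theorem redSub_sub_base_eq (p : Fr.Pt) {j : ℤ} (hj : 4 ≤ j) :
    S.G.redSub (riemannRochSpace (j • S.dv - (3 : ℤ) • S.base p.θ.pl)) =
    riemannRochSpace (j • S.dvBar - (3 : ℤ) • Finsupp.mapDomain S.r (S.base p.θ.pl)) := by
  have := S.big
  have : 4 * Divisor.degree S.dv ≤ j * Divisor.degree S.dv :=
    mul_le_mul_of_nonneg_right hj (by omega)
  rw [S.redSub_L_eq (by
      rw [map_sub, map_zsmul, map_zsmul, S.degree_base, smul_eq_mul, smul_eq_mul]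
      omega)]
  congr 1
  rw [← Finsupp.mapDomain.addMonoidHom_apply, map_sub, map_zsmul _ (3 : ℤ)]
  simp only [Finsupp.mapDomain.addMonoidHom_apply, S.mapDomain_smul_dv]

theorem degree_red_base (p : Fr.Pt) :
    Divisor.degree (Finsupp.mapDomain S.r (S.base p.θ.pl)) = (genusFF k Fb : ℤ) := by
  rw [S.degree_mapDomain, S.degree_base, S.genusBar_eq]

theorem red_zDiv_eq (p : Fr.Pt) : Finsupp.mapDomain S.r (Fr.T.M.zDiv p.θ.pl p.a p.b) =
    (3 : ℤ) • Finsupp.mapDomain S.r (S.base p.θ.pl) -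
      Finsupp.mapDomain S.r (Fr.T.M.eff p.θ.pl p.a) -
      Finsupp.mapDomain S.r (Fr.T.M.eff p.θ.pl p.b) := by
  rw [PlacePrimes.zDiv, ← Finsupp.mapDomain.addMonoidHom_apply, map_sub, map_sub, map_zsmul]
  simp only [Finsupp.mapDomain.addMonoidHom_apply]

theorem lineFn_mul_mem (p : Fr.Pt) {z : F}
    (hz : z ∈ riemannRochSpace ((5 : ℤ) • S.dv - (3 : ℤ) • S.base p.θ.pl)) :
    Fr.lineFn p * z ∈ Fr.T.W10 p.θ.pl p.θ.rc p.θ.ru p.a p.b := by
  have h1 := (Fr.T.M.lineGen_spec p.θ.hpl p.adm.1 p.adm.2.1 p.adm.2.2).1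
  have h2 := FF.mul_mem_riemannRochSpace h1 hz
  rw [lineFn, smul_mul_assoc]
  refine Submodule.smul_mem _ _ ⟨Fr.T.M.lineGen p.θ.pl p.a p.b * z, ?_, ?_⟩
  · rw [SetLike.mem_coe]
    convert h2 using 2
    rw [PlacePrimes.zDiv]
    abel
  · rw [LinearMap.mulLeft_apply, lineAt, Frame1.lineVec, mul_assoc]

theorem genSys_W10 (p : Fr.Pt) : S.GenSys (Fr.T.W10 p.θ.pl p.θ.rc p.θ.ru p.a p.b)
    fun x => Fr.uAt p * Fr.y5 x p :=
  (Fr.genSys_y5 p).mulLeft (Fr.T.uFn_mem_V p.θ.hpl p.θ.hrc Fr.zero_mem (p.θ.ru_mem A))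
    p.θ.red_u (i := 5) (j := 10) (by norm_num) (by norm_num)
    (Fr.T.L5_le p.θ.hpl p.adm) (Fr.T.W10_le p.θ.hpl p.θ.hrc Fr.zero_mem p.adm)

theorem inB_vec10 (l : Fin S.n10) : S.InB Fr.pairRing 10 fun p => S.vec 10 p.θ.r10 l :=
  inB_vec (by norm_num) (t := fun l (p : Fr.Pt) => p.θ.r10 l)
    (fun l => Fr.gfun_mem_ring (.inl (.inr (.inr (.inl l))))) l

theorem inB_vec11 (l : Fin S.n11) : S.InB Fr.pairRing 11 fun p => S.vec 11 p.θ.r11 l :=
  inB_vec (by norm_num) (t := fun l (p : Fr.Pt) => p.θ.r11 l)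
    (fun l => Fr.gfun_mem_ring (.inl (.inr (.inr (.inr (.inl l)))))) l

theorem coeff10_mem {φ : Fr.Pt → F} (hφ : S.InB Fr.pairRing 10 φ) (l : Fin S.n10) :
    (fun p => (Fr.compl10_at p).coeff (φ p) l) ∈ Fr.pairRing.ring :=
  coeff_mem (by norm_num)
    (v := fun x p => Fr.uAt p * Fr.y5 x p)
    (fun x => (Fr.inB_u.mul (Fr.inB_y5 x) three_ne_zero (by norm_num)).mono (by norm_num)
      (by norm_num))
    Fr.genSys_W10 (C := fun l p => S.vec 10 p.θ.r10 l) Fr.inB_vec10 Fr.compl10_at hφ l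

theorem inB_lineFn : S.InB Fr.pairRing 5 Fr.lineFn := by
  classical
  refine ⟨fun p => Submodule.smul_mem _ _ (Fr.lineAt_mem_Lv p), fun i => ?_⟩
  refine Fr.pairRing.mem_of_system
    (ι := ((Fin (S.dim 1) × Fin (S.dim 1) × Fin (S.dim 1) × Fin (S.dim 2)) × Fin S.n10) ⊕ Unit)
    (M := Sum.elim (fun xl i p => (Fr.compl10_at p).coeff (S.e 5 i * Fr.z5 xl.1 p) xl.2)
      fun _ i p => p.θ.rl ^ (i : ℕ))
    (b := Sum.elim (fun _ _ => 0) fun _ _ => 1)
    (x := fun i p => S.coord 5 (Fr.lineFn p) i)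
    (fun s i => ?_) (fun s => ?_) (fun p s => ?_) S.hA (fun p => ?_) i
  · rcases s with ⟨x, l⟩ | _
    · exact Fr.coeff10_mem ((inB_e (by norm_num) i).mul (Fr.inB_z5 x) (by norm_num) (by norm_num)) l
    · exact pow_mem (Fr.gfun_mem_ring (.inl (.inr (.inl ())))) _
  · rcases s with s | _
    exacts [ZeroMemClass.zero_mem _, OneMemClass.one_mem _]
  · rcases s with ⟨x, l⟩ | _
    · have hz : Fr.z5 x p ∈ riemannRochSpace ((5 : ℤ) • S.dv - (3 : ℤ) • S.base p.θ.pl) :=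
        (Fr.genSys_z5 p).mem x
      have hw := Fr.lineFn_mul_mem p hz
      have h1 := congrFun ((Fr.compl10_at p).coeff_of_mem hw) l
      have hL : Fr.lineFn p ∈ S.Lv 5 := Submodule.smul_mem _ _ (Fr.lineAt_mem_Lv p)
      rw [← S.sum_coord (j := 5) (by norm_num) hL, Finset.sum_mul,
        map_sum, Finset.sum_apply] at h1
      simp only [smul_mul_assoc, map_smul, Pi.smul_apply, smul_eq_mul, Pi.zero_apply] at h1
      simp only [Sum.elim_inl]
      rw [← h1]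
      exact Finset.sum_congr rfl fun i _ => mul_comm _ _
    · simp only [Sum.elim_inr]
      rw [← S.lam_apply, lineFn, map_smul, smul_eq_mul, inv_mul_cancel₀ (Fr.lam_lineAt_ne p)]
  · intro c hc hsum i
    set f := ∑ i, c i • S.e 5 i with hf
    have hfV : f ∈ S.G.V :=
      S.G.V.sum_mem fun i _ => S.G.smul_mem' (hc i) ((S.e_redIndep 5).1 i)
    have hfL : f ∈ S.Lv 5 :=
      Submodule.sum_mem _ fun i _ => Submodule.smul_mem _ _ ((S.genSys_e (by norm_num)).mem i)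
    have hu0 : S.G.red (Fr.uAt p) ≠ 0 := p.θ.red_u
    have huV := Fr.T.uFn_mem_V p.θ.hpl p.θ.hrc Fr.zero_mem (p.θ.ru_mem A)
    have hkey : ∀ x, S.G.red f * S.G.red (Fr.z5 x p) ∈
        (riemannRochSpace ((5 : ℤ) • S.dvBar - Finsupp.mapDomain S.r (Fr.T.M.eff p.θ.pl p.a) -
          Finsupp.mapDomain S.r (Fr.T.M.eff p.θ.pl p.b))).map
            (LinearMap.mulLeft k (S.G.red (Fr.uAt p))) := by
      intro x
      have hzV := (Fr.inB_z5 x).mem_V (by norm_num) p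
      have hm : f * Fr.z5 x p ∈ S.Lv 10 :=
        (FF.riemannRochSpace_mono (le_of_eq (by rw [← add_smul]; norm_num))
          (FF.mul_mem_riemannRochSpace hfL ((Fr.inB_z5 x).mem p)))
      have h1 := (Fr.compl10_at p).red_mem_of_coeff hm (S.G.V.mul_mem hfV hzV) fun l => by
        have := hsum (.inl (x, l))
        rw [hf, Finset.sum_mul, map_sum, Finset.sum_apply]
        simp only [smul_mul_assoc, map_smul, Pi.smul_apply, smul_eq_mul]
        simpa only [Sum.elim_inl, mul_comm] using this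
      rw [S.G.red_mul hfV hzV, S.redSub_mulLeft huV hu0 (i := 5) (j := 10) (by norm_num)
        (by norm_num) (Fr.T.L5_le p.θ.hpl p.adm)
        (Fr.T.W10_le p.θ.hpl p.θ.hrc Fr.zero_mem p.adm), Fr.redSub_L5_eq] at h1
      exact h1
    have hline : S.G.red f / S.G.red (Fr.uAt p) ∈
        riemannRochSpace (Finsupp.mapDomain S.r (Fr.T.M.zDiv p.θ.pl p.a p.b)) := by
      rw [Fr.red_zDiv_eq]
      refine (line_condition S.bigDeg_dvBar (Fr.degree_red_base p) hu0).1 fun z hz => ?_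
      rw [← Fr.redSub_sub_base_eq p (by norm_num), ← (Fr.genSys_z5 p).span_eq] at hz
      induction hz using Submodule.span_induction with
      | mem z hz => obtain ⟨x, rfl⟩ := hz; exact hkey x
      | zero => rw [mul_zero]; exact Submodule.zero_mem _
      | add z z' _ _ h1 h2 => rw [mul_add]; exact Submodule.add_mem _ h1 h2
      | smul t z _ h1 => rw [mul_smul_comm]; exact Submodule.smul_mem _ t h1
    obtain ⟨t, ht⟩ := Fr.T.M.exists_smul_lineGen p.θ.hpl p.adm.1 p.adm.2.1 p.adm.2.2 hline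
    rw [div_eq_iff hu0, smul_mul_assoc, mul_comm (S.G.red _) (S.G.red (Fr.uAt p)),
      ← (Fr.red_lineAt p).1, (S.mem_V_of_coord (by norm_num) (Fr.lineAt_mem_Lv p)
      (Fr.coord_lineAt_mem p)).2, hf,
      S.G.red_sum_smul (S.e_redIndep 5).1 fun i => ⟨c i, hc i⟩, Finset.smul_sum] at ht
    have hcoef : ∀ i, π ⟨c i, hc i⟩ = t * π ⟨_, Fr.coord_lineAt_mem p i⟩ := fun i =>
      sub_eq_zero.1 (Fintype.linearIndependent_iff.1 (S.e_redIndep 5).2
        (fun i => π ⟨c i, hc i⟩ - t * π ⟨_, Fr.coord_lineAt_mem p i⟩)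
        (by simp only [sub_smul, mul_smul, Finset.sum_sub_distrib]; exact sub_eq_zero.2 ht) i)
    have hlam : (⟨_, Fr.lam_mem p⟩ : A) =
        ∑ i : Fin (S.dim 5), (⟨p.θ.rl, p.θ.rl_mem A⟩ : A) ^ (i : ℕ) *
          ⟨_, Fr.coord_lineAt_mem p i⟩ :=
      Subtype.ext (by push_cast; exact S.lam_apply _ _)
    have h0 : π (∑ i : Fin (S.dim 5), (⟨p.θ.rl, p.θ.rl_mem A⟩ : A) ^ (i : ℕ) * ⟨c i, hc i⟩) = 0 := by
      rw [S.res_zero_iff]
      push_cast
      exact hsum (.inr ())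
    have hmul : t * π ⟨_, Fr.lam_mem p⟩ = 0 := by
      rw [← h0, hlam, map_sum, map_sum, Finset.mul_sum]
      refine Finset.sum_congr rfl fun i _ => ?_
      rw [map_mul π, map_mul π, hcoef]
      ring
    have ht0 : t = 0 := (mul_eq_zero.1 hmul).resolve_right fun h =>
      Fr.lam_ne_zero p (S.res_zero_iff.1 h)
    have := hcoef i
    rw [ht0, zero_mul, S.res_zero_iff] at this
    exact this

theorem lineFn_mem_V (p : Fr.Pt) : Fr.lineFn p ∈ S.G.V :=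
  S.G.smul_mem' (Fr.lam_inv_mem p) (Fr.lineAt_mem_V p)

theorem red_lineFn_ne_zero (p : Fr.Pt) : S.G.red (Fr.lineFn p) ≠ 0 := by
  rw [lineFn, show (S.lam p.θ.rl (Fr.lineAt p))⁻¹ = ((⟨_, Fr.lam_inv_mem p⟩ : A) : Qb) from rfl,
    S.G.red_smul _ (Fr.lineAt_mem_V p), smul_ne_zero_iff]
  refine ⟨fun h => ?_, (Fr.red_lineAt p).2⟩
  have h2 := mul_mem_nonunits_left (Fr.lam_mem p) (S.res_zero_iff.1 h)
  simp only [mul_inv_cancel₀ (Fr.lam_lineAt_ne p)] at h2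
  exact GalCommon.one_notMem_nonunits A h2

theorem W11_eq (p : Fr.Pt) : Fr.T.W11 p.θ.pl p.θ.rc p.θ.ru p.a p.b =
    (Fr.T.L6 p.θ.pl).map (LinearMap.mulLeft Qb (Fr.lineFn p)) := by
  have h0 := Fr.lam_lineAt_ne p
  refine le_antisymm ?_ ?_
  · rintro _ ⟨z, hz, rfl⟩
    refine ⟨S.lam p.θ.rl (Fr.lineAt p) • z, Submodule.smul_mem _ _ hz, ?_⟩
    rw [LinearMap.mulLeft_apply, LinearMap.mulLeft_apply, lineFn, smul_mul_smul_comm,
      inv_mul_cancel₀ h0, one_smul]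
  · rintro _ ⟨z, hz, rfl⟩
    refine ⟨(S.lam p.θ.rl (Fr.lineAt p))⁻¹ • z, Submodule.smul_mem _ _ hz, ?_⟩
    rw [LinearMap.mulLeft_apply, LinearMap.mulLeft_apply, lineFn, smul_mul_assoc, mul_smul_comm]

theorem genSys_W11 (p : Fr.Pt) : S.GenSys (Fr.T.W11 p.θ.pl p.θ.rc p.θ.ru p.a p.b)
    fun x => Fr.lineFn p * Fr.z6 x p := by
  rw [Fr.W11_eq p]
  exact (Fr.genSys_z6 p).mulLeft (Fr.lineFn_mem_V p) (Fr.red_lineFn_ne_zero p) (i := 6) (j := 11)
    (by norm_num) (by norm_num) Fr.T.L6_le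
    (Fr.W11_eq p ▸ Fr.T.W11_le p.θ.hpl p.θ.hrc Fr.zero_mem p.adm)

theorem coeff11_mem {φ : Fr.Pt → F} (hφ : S.InB Fr.pairRing 11 φ) (l : Fin S.n11) :
    (fun p => (Fr.compl11_at p).coeff (φ p) l) ∈ Fr.pairRing.ring :=
  coeff_mem (by norm_num) (v := fun x p => Fr.lineFn p * Fr.z6 x p)
    (fun x => Fr.inB_lineFn.mul (Fr.inB_z6 x) (by norm_num) (by norm_num))
    Fr.genSys_W11 (C := fun l p => S.vec 11 p.θ.r11 l) Fr.inB_vec11 Fr.compl11_at hφ l

theorem inB_vec1 (m : Fin S.g) : S.InB Fr.pairRing 1 fun p => S.vec 1 p.θ.rc m :=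
  inB_vec one_ne_zero (t := fun l (p : Fr.Pt) => p.θ.rc l)
    (fun l => Fr.gfun_mem_ring (.inl (.inl (.inl l)))) m

theorem inB_y5u (x) {φ : Fr.Pt → F} (hφ : S.InB Fr.pairRing 1 φ) :
    S.InB Fr.pairRing 11 fun p => Fr.y5 x p * Fr.uAt p * φ p :=
  (((Fr.inB_y5 x).mul Fr.inB_u (by norm_num) three_ne_zero).mul hφ (by norm_num) one_ne_zero).mono
    (by norm_num) (by norm_num)

/-- The coordinates of `-(a + b)` lie in the ring. -/
theorem cc_neg_add_mem (i0 : Fin (S.dim 1)) (m0 : Fin S.g) :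
    (fun p : Fr.Pt => Fr.cc p.θ (-(p.a + p.b)) i0 m0) ∈ Fr.pairRing.ring := by
  classical
  refine Fr.pairRing.mem_of_system
    (ι := (Fin (S.dim 1) × Fin (S.dim 1) × Fin (S.dim 3)) × Fin S.n11)
    (M := fun xl m p =>
      (Fr.compl11_at p).coeff (Fr.y5 xl.1 p * Fr.uAt p * S.vec 1 p.θ.rc m) xl.2)
    (b := fun xl p => (Fr.compl11_at p).coeff (Fr.y5 xl.1 p * Fr.uAt p * S.e 1 i0) xl.2)
    (x := fun m p => Fr.cc p.θ (-(p.a + p.b)) i0 m)
    (fun xl m => Fr.coeff11_mem (Fr.inB_y5u xl.1 (Fr.inB_vec1 m)) xl.2)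
    (fun xl => Fr.coeff11_mem (Fr.inB_y5u xl.1 (inB_e one_ne_zero i0)) xl.2)
    (fun p xl => ?_) S.hA (fun p => ?_) m0
  · obtain ⟨x, l⟩ := xl
    have hg := Fr.T.gen_mem p.θ.hpl p.θ.hrc p.adm.2.2 i0
    have hE : Divisor.degree (Fr.T.M.eff p.θ.pl p.a) = (genusFF Qb F : ℤ) := by
      rw [Fr.T.M.degree_eff p.θ.hpl p.adm.1, S.genus_eq]
    have hE' : Divisor.degree (Fr.T.M.eff p.θ.pl p.b) = (genusFF Qb F : ℤ) := by
      rw [Fr.T.M.degree_eff p.θ.hpl p.adm.2.1, S.genus_eq]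
    have hspec := Fr.T.M.lineGen_spec p.θ.hpl p.adm.1 p.adm.2.1 p.adm.2.2
    have hmem := (sum_condition S.bigDeg_dv hE hE' (S.G.ne_zero_of_red p.θ.red_u)
      (S.G.ne_zero_of_red hspec.2.2)
      (Fr.T.M.eff_neg_add p.θ.hpl p.adm.1 p.adm.2.1 p.adm.2.2)).2 hg _ ((Fr.genSys_y5 p).mem x)
    have h1 := congrFun ((Fr.compl11_at p).coeff_of_mem (f :=
      S.gen Fr.T p.θ.pl p.θ.rc (-(p.a + p.b)) i0 * Fr.y5 x p * Fr.uAt p) hmem) l
    have heq : S.gen Fr.T p.θ.pl p.θ.rc (-(p.a + p.b)) i0 * Fr.y5 x p * Fr.uAt p =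
        Fr.y5 x p * Fr.uAt p * S.e 1 i0 -
          ∑ m, Fr.cc p.θ (-(p.a + p.b)) i0 m • (Fr.y5 x p * Fr.uAt p * S.vec 1 p.θ.rc m) := by
      rw [gen, mul_assoc, sub_mul, Finset.sum_mul]
      congr 1
      · ring
      · refine Finset.sum_congr rfl fun m _ => ?_
        rw [smul_mul_assoc, cc, mul_comm (S.vec 1 p.θ.rc m)]
    rw [heq, map_sub, map_sum, Pi.sub_apply, Finset.sum_apply, Pi.zero_apply, sub_eq_zero] at h1
    simp only [map_smul, Pi.smul_apply, smul_eq_mul] at h1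
    rw [h1]
    exact Finset.sum_congr rfl fun m _ => mul_comm _ _
  · intro c hc hsum
    set h := ∑ m, c m • S.vec 1 p.θ.rc m with hh
    have hCV : ∀ m, S.vec 1 p.θ.rc m ∈ S.G.V := fun m => (Fr.inB_vec1 m).mem_V one_ne_zero p
    have hhV : h ∈ S.G.V := S.G.V.sum_mem fun m _ => S.G.smul_mem' (hc m) (hCV m)
    have hhL : h ∈ S.Lv 1 :=
      Submodule.sum_mem _ fun m _ => Submodule.smul_mem _ _ ((Fr.inB_vec1 m).mem p)
    have hspec := Fr.T.M.lineGen_spec p.θ.hpl p.adm.1 p.adm.2.1 p.adm.2.2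
    have hkey : ∀ x, S.G.red h * S.G.red (Fr.y5 x p) * S.G.red (Fr.uAt p) ∈
        (riemannRochSpace ((6 : ℤ) • S.dvBar - (3 : ℤ) • Finsupp.mapDomain S.r (S.base p.θ.pl))).map
          (LinearMap.mulLeft k
            (S.G.red (Fr.uAt p) * S.G.red (Fr.T.M.lineGen p.θ.pl p.a p.b))) := by
      intro x
      have hyV := (Fr.inB_y5 x).mem_V (by norm_num) p
      have huV : Fr.uAt p ∈ S.G.V := Fr.inB_u.mem_V three_ne_zero p
      have hm : Fr.y5 x p * Fr.uAt p * h ∈ S.Lv 11 :=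
        FF.riemannRochSpace_mono
          (by rw [← add_smul, ← add_smul]; exact S.smul_dv_mono (by norm_num))
          (FF.mul_mem_riemannRochSpace
            (FF.mul_mem_riemannRochSpace ((Fr.inB_y5 x).mem p) (Fr.inB_u.mem p)) hhL)
      have h1 := (Fr.compl11_at p).red_mem_of_coeff hm
        (S.G.V.mul_mem (S.G.V.mul_mem hyV huV) hhV) fun l => by
        have := hsum (x, l)
        rw [hh, Finset.mul_sum, map_sum, Finset.sum_apply]
        simp only [mul_smul_comm, map_smul, Pi.smul_apply, smul_eq_mul]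
        simpa only [mul_comm (c _)] using this
      rw [S.G.red_mul (S.G.V.mul_mem hyV huV) hhV, S.G.red_mul hyV huV,
        S.redSub_mulLeft (Fr.lineAt_mem_V p) (Fr.red_lineAt p).2 (i := 6) (j := 11) (by norm_num)
        (by norm_num) Fr.T.L6_le
        (Fr.T.W11_le p.θ.hpl p.θ.hrc Fr.zero_mem p.adm),
        Fr.redSub_sub_base_eq p (by norm_num), (Fr.red_lineAt p).1] at h1
      convert h1 using 1
      ring
    have hW : S.G.red h ∈ S.G.redSub (Fr.T.M.W p.θ.pl (-(p.a + p.b))) := by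
      have hb := S.big
      rw [S.redSub_L_eq (by rw [Fr.T.M.degree_sub_eff p.θ.hpl p.adm.2.2]; omega)]
      rw [← Finsupp.mapDomain.addMonoidHom_apply, map_sub, Finsupp.mapDomain.addMonoidHom_apply,
        Finsupp.mapDomain.addMonoidHom_apply,
        show Finsupp.mapDomain S.r S.dv = S.dvBar by
          simpa using S.mapDomain_smul_dv 1]
      refine (sum_condition S.bigDeg_dvBar
        (E := Finsupp.mapDomain S.r (Fr.T.M.eff p.θ.pl p.a))
        (E' := Finsupp.mapDomain S.r (Fr.T.M.eff p.θ.pl p.b))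
        (D₀ := Finsupp.mapDomain S.r (S.base p.θ.pl))
        (by rw [S.degree_mapDomain, Fr.T.M.degree_eff p.θ.hpl p.adm.1, S.genusBar_eq])
        (by rw [S.degree_mapDomain, Fr.T.M.degree_eff p.θ.hpl p.adm.2.1, S.genusBar_eq])
        p.θ.red_u hspec.2.2
        (Fr.T.M.mapDomain_eff_neg_add p.θ.hpl p.adm.1 p.adm.2.1 p.adm.2.2)).1 fun y hy => ?_
      rw [← Fr.redSub_L5_eq, ← (Fr.genSys_y5 p).span_eq] at hy
      induction hy using Submodule.span_induction with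
      | mem y hy => obtain ⟨x, rfl⟩ := hy; exact hkey x
      | zero => rw [mul_zero, zero_mul]; exact Submodule.zero_mem _
      | add y y' _ _ h1 h2 => rw [mul_add, add_mul]; exact Submodule.add_mem _ h1 h2
      | smul t y _ h1 => rw [mul_smul_comm, smul_mul_assoc]; exact Submodule.smul_mem _ t h1
    have hsumred : S.G.red h = ∑ m, π ⟨c m, hc m⟩ • S.G.red (S.vec 1 p.θ.rc m) :=
      S.G.red_sum_smul hCV fun m => ⟨c m, hc m⟩
    rw [hsumred] at hW
    intro m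
    exact S.res_zero_iff.1 ((Fr.T.compl_c _ p.θ.hpl _ p.θ.hrc _ p.adm.2.2).eq_zero_of_red_sum_mem
      (c := fun m => ⟨c m, hc m⟩) hW m)

/-- Precomposition: coordinates of sums from coordinates of the summands. -/
theorem cc_neg_add_mem_of {Y : Type*} (P : Subalgebra (Rl ℓ) (Y → Qb))
    (hconst : ∀ (θ : Fr.Datum) (c : Fr.CIdx), (fun _ : Y => Fr.val θ c) ∈ P)
    (a b : Y → Pic0 Qb F) (hab : ∀ y, Adm X (a y) (b y))
    (ha : ∀ (θ : Fr.Datum) i m, (fun y => Fr.cc θ (a y) i m) ∈ P)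
    (hb : ∀ (θ : Fr.Datum) i m, (fun y => Fr.cc θ (b y) i m) ∈ P)
    (θ : Fr.Datum) (i : Fin (S.dim 1)) (m : Fin S.g) :
    (fun y => Fr.cc θ (-(a y + b y)) i m) ∈ P := by
  let Φ : (Fr.Pt → Qb) →ₐ[Rl ℓ] (Y → Qb) :=
    { toFun := fun f y => f ⟨θ, a y, b y, hab y⟩
      map_one' := rfl
      map_mul' := fun _ _ => rfl
      map_zero' := rfl
      map_add' := fun _ _ => rfl
      commutes' := fun _ => rfl }
  have hle : Fr.pairRing.ring ≤ P.comap Φ := Algebra.adjoin_le (by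
    rintro _ ⟨c, rfl⟩
    rw [SetLike.mem_coe, Subalgebra.mem_comap]
    rcases c with c | x | x
    exacts [hconst θ c, ha θ x.1 x.2, hb θ x.1 x.2])
  exact hle (Fr.cc_neg_add_mem i m)

end Frame

end Setup

end FLTAgent.FlatJ
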