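/-
Galois descent for rings of functions on a finite Galois set with unramified constants.
-/
import Fermat.Agent.FlatJ.Base

/-!
`FunRing ℓ X`: a Galois stable finite ring of functions `X → ℚ̄` in which every `σ` acts
trivially or moves some constant by a unit at every place over `ℓ`. Galois descent: the ring is
spanned by constants times invariants (`mem_span_smul_inv`) and some constant has trace one
(`exists_tr_eq_one`), as the constants separate the finitely many conjugations integrally.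
-/

set_option autoImplicit false

noncomputable section

namespace FLTAgent.FlatJ

section Action

variable {X : Type*} [MulAction GQ X]

/-- The action of `σ` on functions: `(σ f)(x) = σ (f (σ⁻¹ x))`. -/
def galFun (ℓ : ℕ) (σ : GQ) : (X → Qb) →ₐ[Rl ℓ] (X → Qb) where
  toFun f x := σ (f (σ⁻¹ • x))
  map_one' := funext fun _ => map_one σ
  map_mul' _ _ := funext fun _ => map_mul σ _ _
  map_zero' := funext fun _ => map_zero σ
  map_add' _ _ := funext fun _ => map_add σ _ _
  commutes' r := funext fun _ => σ.commutes (r : ℚ)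

variable {ℓ : ℕ}

@[simp]
theorem galFun_apply (σ : GQ) (f : X → Qb) (x : X) : galFun ℓ σ f x = σ (f (σ⁻¹ • x)) := rfl

theorem galFun_mul (σ τ : GQ) (f : X → Qb) : galFun ℓ (σ * τ) f = galFun ℓ σ (galFun ℓ τ f) :=
  funext fun x => by simp [mul_smul, mul_inv_rev, AlgEquiv.mul_apply]

theorem galFun_one (f : X → Qb) : galFun ℓ 1 f = f := funext fun x => by simp

theorem galFun_const (σ : GQ) (c : Qb) :
    galFun (X := X) ℓ σ (fun _ => c) = fun _ => σ c := rfl

theorem galFun_smul (σ : GQ) (c : Qb) (f : X → Qb) :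
    galFun ℓ σ (c • f) = σ c • galFun ℓ σ f :=
  funext fun x => by simp

end Action

/-- A Galois stable finite ring of functions whose constants separate the Galois action at every
place over `ℓ`. -/
structure FunRing (ℓ : ℕ) (X : Type*) [MulAction GQ X] where
  ring : Subalgebra (Rl ℓ) (X → Qb)
  finite : Module.Finite (Rl ℓ) ring
  stable : ∀ σ : GQ, ∀ f ∈ ring, galFun ℓ σ f ∈ ring
  unram : ∀ σ : GQ, (∀ f ∈ ring, galFun ℓ σ f = f) ∨
    ∀ A : ValuationSubring Qb, A.LiesOverPrime ℓ →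
      ∃ t : Qb, (fun _ => t) ∈ ring ∧ t - σ t ∉ A.nonunits

namespace FunRing

variable {ℓ : ℕ} {X : Type*} [MulAction GQ X] (S : FunRing ℓ X)

/-- The invariant subring. -/
def inv : Subalgebra (Rl ℓ) (X → Qb) where
  carrier := {f | f ∈ S.ring ∧ ∀ σ : GQ, galFun ℓ σ f = f}
  mul_mem' ha hb := ⟨mul_mem ha.1 hb.1, fun σ => by rw [map_mul, ha.2, hb.2]⟩
  add_mem' ha hb := ⟨add_mem ha.1 hb.1, fun σ => by rw [map_add, ha.2, hb.2]⟩
  algebraMap_mem' r := ⟨S.ring.algebraMap_mem r, fun σ => (galFun ℓ σ).commutes r⟩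

theorem mem_inv_iff {f : X → Qb} :
    f ∈ S.inv ↔ f ∈ S.ring ∧ ∀ σ : GQ, galFun ℓ σ f = f := Iff.rfl

theorem inv_le : S.inv ≤ S.ring := fun _ h => h.1

/-- The constants of the ring. -/
def consts : Subalgebra (Rl ℓ) Qb := S.ring.comap (Pi.constAlgHom (Rl ℓ) X Qb)

theorem mem_consts_iff {c : Qb} : c ∈ S.consts ↔ (fun _ : X => c) ∈ S.ring := Iff.rfl

theorem map_mem_consts (σ : GQ) {c : Qb} (hc : c ∈ S.consts) : σ c ∈ S.consts := by
  rw [mem_consts_iff] at hc ⊢
  have := S.stable σ _ hc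
  rwa [galFun_const] at this

theorem smul_mem {c : Qb} (hc : c ∈ S.consts) {f : X → Qb} (hf : f ∈ S.ring) : c • f ∈ S.ring := by
  have : c • f = (fun _ => c) * f := funext fun x => by simp
  rw [this]
  exact mul_mem ((S.mem_consts_iff).1 hc) hf

/-- Elements of the Galois group acting trivially on the ring. -/
def kernel : Subgroup GQ where
  carrier := {σ | ∀ f ∈ S.ring, galFun ℓ σ f = f}
  mul_mem' {σ τ} hσ hτ f hf := by rw [galFun_mul, hτ f hf, hσ f hf]
  one_mem' f _ := galFun_one f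
  inv_mem' {σ} hσ f hf := by
    conv_lhs => rw [← hσ f hf]
    rw [← galFun_mul, inv_mul_cancel, galFun_one]

theorem galFun_eq_of_coset {σ τ : GQ} (h : (σ : GQ ⧸ S.kernel) = τ) {f : X → Qb}
    (hf : f ∈ S.ring) : galFun ℓ σ f = galFun ℓ τ f := by
  have hm : σ⁻¹ * τ ∈ S.kernel := QuotientGroup.eq.1 h
  conv_lhs => rw [← hm f hf]
  rw [← galFun_mul, mul_inv_cancel_left]

theorem apply_eq_of_coset [Nonempty X] {σ τ : GQ} (h : (σ : GQ ⧸ S.kernel) = τ) {c : Qb}
    (hc : c ∈ S.consts) : σ c = τ c := by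
  have := S.galFun_eq_of_coset h ((S.mem_consts_iff).1 hc)
  rw [galFun_const, galFun_const] at this
  exact congrFun this (Classical.arbitrary X)

theorem out_one_apply [Nonempty X] {c : Qb} (hc : c ∈ S.consts) :
    (Quotient.out ((1 : GQ) : GQ ⧸ S.kernel)) c = c := by
  rw [S.apply_eq_of_coset (QuotientGroup.out_eq' _) hc]
  rfl

theorem galFun_out_one {f : X → Qb} (hf : f ∈ S.ring) :
    galFun ℓ (Quotient.out ((1 : GQ) : GQ ⧸ S.kernel)) f = f := by
  rw [S.galFun_eq_of_coset (QuotientGroup.out_eq' _) hf, galFun_one]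

variable [Finite X]

theorem finite_quotient : Finite (GQ ⧸ S.kernel) := by
  classical
  obtain ⟨s, hs⟩ := S.finite.fg_top
  let roots : Qb → Set Qb := fun a => {b | ∃ σ : GQ, σ a = b}
  have hroots : ∀ a, (roots a).Finite := fun a => by
    have ha : IsIntegral ℚ a := ((AlgebraicClosure.isAlgebraic ℚ).isAlgebraic a).isIntegral
    refine (Polynomial.finite_setOfPred_isRoot
      (p := (minpoly ℚ a).map (algebraMap ℚ Qb))
      (Polynomial.map_ne_zero (minpoly.ne_zero ha))).subset ?_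
    rintro b ⟨σ, rfl⟩
    show Polynomial.IsRoot _ _
    rw [Polynomial.IsRoot, Polynomial.eval_map, ← Polynomial.aeval_def,
      show σ a = (σ : Qb →ₐ[ℚ] Qb) a from rfl, Polynomial.aeval_algHom_apply, minpoly.aeval,
      map_zero]
  let T : Set Qb := ⋃ f ∈ s, ⋃ x : X, roots ((f : S.ring).1 x)
  have hT : T.Finite := s.finite_toSet.biUnion fun f _ => Set.finite_iUnion fun x => hroots _
  have := hT.to_subtype
  let φ : GQ ⧸ S.kernel → (↥s → X → ↥T) := fun q f x =>
    ⟨galFun ℓ q.out ((f : S.ring).1) x,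
      Set.mem_biUnion f.2 (Set.mem_iUnion.2 ⟨q.out⁻¹ • x, q.out, rfl⟩)⟩
  refine Finite.of_injective φ fun q q' h => ?_
  have hgen : ∀ f ∈ s, galFun ℓ q.out (f : S.ring).1 = galFun ℓ q'.out (f : S.ring).1 :=
    fun f hf => funext fun x => congrArg Subtype.val (congrFun (congrFun h ⟨f, hf⟩) x)
  have hall : ∀ f : S.ring, galFun ℓ q.out f.1 = galFun ℓ q'.out f.1 := by
    intro f
    have : ((galFun ℓ q.out).comp S.ring.val).toLinearMap f =
        ((galFun ℓ q'.out).comp S.ring.val).toLinearMap f :=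
      LinearMap.congr_fun (LinearMap.ext_on hs (fun f hf => hgen f hf)) f
    exact this
  rw [← QuotientGroup.out_eq' q, ← QuotientGroup.out_eq' q']
  refine QuotientGroup.eq.2 fun f hf => ?_
  rw [galFun_mul, ← hall ⟨f, hf⟩, ← galFun_mul, inv_mul_cancel, galFun_one]

instance : Fintype (GQ ⧸ S.kernel) :=
  have := S.finite_quotient
  Fintype.ofFinite _

/-- The sum over the conjugates. -/
def tr : (X → Qb) →ₗ[Rl ℓ] (X → Qb) :=
  ∑ q : GQ ⧸ S.kernel, (galFun ℓ q.out).toLinearMap

theorem tr_apply (f : X → Qb) : S.tr f = ∑ q : GQ ⧸ S.kernel, galFun ℓ q.out f := by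
  simp [tr]

theorem tr_mem {f : X → Qb} (hf : f ∈ S.ring) : S.tr f ∈ S.inv := by
  rw [tr_apply, mem_inv_iff]
  refine ⟨sum_mem fun q _ => S.stable _ _ hf, fun σ => ?_⟩
  rw [map_sum]
  refine Fintype.sum_equiv (MulAction.toPerm σ) _ _ fun q => ?_
  rw [← galFun_mul]
  refine S.galFun_eq_of_coset ?_ hf
  rw [MulAction.toPerm_apply, QuotientGroup.out_eq']
  conv_rhs => rw [← QuotientGroup.out_eq' q]
  rfl

/-- Functions on the conjugates given by pairs of constants. -/
def pairSpan : Submodule (Rl ℓ) (GQ ⧸ S.kernel → Qb) :=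
  Submodule.span (Rl ℓ) {F | ∃ a ∈ S.consts, ∃ b ∈ S.consts, F = fun q => a * q.out b}

theorem mk_mem_pairSpan {a b : Qb} (ha : a ∈ S.consts) (hb : b ∈ S.consts) :
    (fun q => a * q.out b) ∈ S.pairSpan :=
  Submodule.subset_span ⟨a, ha, b, hb, rfl⟩

theorem const_mem_pairSpan {a : Qb} (ha : a ∈ S.consts) : (fun _ => a) ∈ S.pairSpan := by
  simpa using S.mk_mem_pairSpan ha (one_mem S.consts)

theorem mul_mem_pairSpan {F F' : GQ ⧸ S.kernel → Qb} (hF : F ∈ S.pairSpan)
    (hF' : F' ∈ S.pairSpan) : F * F' ∈ S.pairSpan := by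
  induction hF using Submodule.span_induction with
  | mem F hF =>
    obtain ⟨a, ha, b, hb, rfl⟩ := hF
    induction hF' using Submodule.span_induction with
    | mem F' hF' =>
      obtain ⟨a', ha', b', hb', rfl⟩ := hF'
      have : ((fun q => a * q.out b) * fun q : GQ ⧸ S.kernel => a' * q.out b') =
          fun q => (a * a') * q.out (b * b') := funext fun q => by
        simp only [Pi.mul_apply, map_mul]; ring
      rw [this]
      exact S.mk_mem_pairSpan (mul_mem ha ha') (mul_mem hb hb')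
    | zero => simp
    | add x y _ _ hx hy => rw [mul_add]; exact add_mem hx hy
    | smul r x _ hx => rw [mul_smul_comm]; exact Submodule.smul_mem _ r hx
  | zero => simp
  | add x y _ _ hx hy => rw [add_mul]; exact add_mem hx hy
  | smul r x _ hx => rw [smul_mul_assoc]; exact Submodule.smul_mem _ r hx

theorem finite_consts [Nonempty X] : Module.Finite (Rl ℓ) S.consts := by
  have := S.finite
  refine Module.Finite.of_injective
    ({ toFun := fun c => ⟨fun _ => c.1, (S.mem_consts_iff).1 c.2⟩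
       map_add' := fun _ _ => rfl
       map_smul' := fun _ _ => rfl } : S.consts →ₗ[Rl ℓ] S.ring) ?_
  intro a b h
  exact Subtype.ext (congrFun (congrArg Subtype.val h) (Classical.arbitrary X))

variable [Fact ℓ.Prime] [Nonempty X]

theorem exists_separator {q : GQ ⧸ S.kernel} (hq : q ≠ ((1 : GQ) : GQ ⧸ S.kernel)) :
    ∃ F ∈ S.pairSpan, F ((1 : GQ) : GQ ⧸ S.kernel) = 1 ∧ F q = 0 := by
  have := S.finite_consts
  set σ := q.out with hσ
  let I : Ideal S.consts := Ideal.span (Set.range fun b : S.consts =>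
    (⟨(b : Qb) - σ b, sub_mem b.2 (S.map_mem_consts σ b.2)⟩ : S.consts))
  have key : ∀ x ∈ I, ∃ F ∈ S.pairSpan,
      F ((1 : GQ) : GQ ⧸ S.kernel) = (x : Qb) ∧ F q = 0 := by
    intro x hx
    induction hx using Submodule.span_induction with
    | mem x hx =>
      obtain ⟨b, rfl⟩ := hx
      refine ⟨(fun p => 1 * p.out (b : Qb)) - fun _ => σ (b : Qb),
        sub_mem (S.mk_mem_pairSpan (one_mem _) b.2)
          (S.const_mem_pairSpan (S.map_mem_consts σ b.2)), ?_, ?_⟩
      · simp only [Pi.sub_apply, one_mul, S.out_one_apply b.2]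
      · simp [hσ]
    | zero => exact ⟨0, zero_mem _, rfl, rfl⟩
    | add x y _ _ hx hy =>
      obtain ⟨F, hF, h1, h2⟩ := hx
      obtain ⟨F', hF', h1', h2'⟩ := hy
      exact ⟨F + F', add_mem hF hF', by simp [h1, h1'], by simp [h2, h2']⟩
    | smul a x _ hx =>
      obtain ⟨F, hF, h1, h2⟩ := hx
      refine ⟨(fun _ => (a : Qb)) * F, S.mul_mem_pairSpan (S.const_mem_pairSpan a.2) hF, ?_, ?_⟩
      · simp [h1, smul_eq_mul]
      · simp [h2]
  suffices h : (1 : S.consts) ∈ I by simpa using key 1 h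
  by_contra h
  obtain ⟨A, hA, hI⟩ := exists_place_of_ne_top S.consts I
    (fun htop => h (htop ▸ Submodule.mem_top))
  rcases S.unram σ with hker | hmove
  · apply hq
    rw [← QuotientGroup.out_eq' q]
    refine QuotientGroup.eq.2 ?_
    simpa using (S.kernel).inv_mem hker
  · obtain ⟨t, ht, hne⟩ := hmove A hA
    exact hne (hI _ (Ideal.subset_span ⟨⟨t, ht⟩, rfl⟩))

theorem exists_delta : ∃ F ∈ S.pairSpan,
    F ((1 : GQ) : GQ ⧸ S.kernel) = 1 ∧ ∀ q ≠ ((1 : GQ) : GQ ⧸ S.kernel), F q = 0 := by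
  classical
  choose F hF h1 h0 using fun q : {q : GQ ⧸ S.kernel // q ≠ ((1 : GQ) : GQ ⧸ S.kernel)} =>
    S.exists_separator q.2
  refine ⟨∏ q, F q, ?_, ?_, fun q hq => ?_⟩
  · refine Finset.prod_induction _ (· ∈ S.pairSpan) (fun a b => S.mul_mem_pairSpan)
      (S.const_mem_pairSpan (one_mem _)) fun q _ => hF q
  · simp [h1]
  · rw [Finset.prod_apply]
    exact Finset.prod_eq_zero (Finset.mem_univ ⟨q, hq⟩) (h0 ⟨q, hq⟩)

/-- Descent: the ring is generated over its constants by its invariants. -/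
theorem mem_span_inv {f : X → Qb} (hf : f ∈ S.ring) :
    f ∈ Submodule.span (Rl ℓ) {g | ∃ a ∈ S.consts, ∃ b ∈ S.consts,
      g = a • S.tr (b • f)} := by
  classical
  obtain ⟨F, hF, h1, h0⟩ := S.exists_delta
  let Λ : (GQ ⧸ S.kernel → Qb) →ₗ[Rl ℓ] (X → Qb) :=
    { toFun := fun F => ∑ q, F q • galFun ℓ q.out f
      map_add' := fun F F' => by simp [add_smul, Finset.sum_add_distrib]
      map_smul' := fun r F => by simp [Finset.smul_sum, smul_assoc] }
  have hΛ : Λ F = f := by
    show ∑ q, F q • galFun ℓ q.out f = f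
    rw [Finset.sum_eq_single ((1 : GQ) : GQ ⧸ S.kernel) (fun q _ hq => by rw [h0 q hq, zero_smul])
      (fun h => absurd (Finset.mem_univ _) h), h1, one_smul, S.galFun_out_one hf]
  suffices h : Λ F ∈ Submodule.span (Rl ℓ) {g | ∃ a ∈ S.consts, ∃ b ∈ S.consts,
      g = a • S.tr (b • f)} by rwa [hΛ] at h
  refine Submodule.span_induction (p := fun G _ => Λ G ∈ _) ?_ (by rw [map_zero]; exact zero_mem _)
    (fun x y _ _ hx hy => by rw [map_add]; exact add_mem hx hy)
    (fun r x _ hx => by rw [map_smul]; exact Submodule.smul_mem _ r hx) hF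
  rintro G ⟨a, ha, b, hb, rfl⟩
  refine Submodule.subset_span ⟨a, ha, b, hb, ?_⟩
  show ∑ q : GQ ⧸ S.kernel, (a * q.out b) • galFun ℓ q.out f = _
  rw [tr_apply, Finset.smul_sum]
  refine Finset.sum_congr rfl fun q _ => ?_
  rw [galFun_smul, smul_smul]

theorem mem_span_smul_inv {f : X → Qb} (hf : f ∈ S.ring) :
    f ∈ Submodule.span (Rl ℓ) {g | ∃ a ∈ S.consts, ∃ h ∈ S.inv, g = a • h} :=
  Submodule.span_mono (by
    rintro g ⟨a, ha, b, hb, rfl⟩
    exact ⟨a, ha, _, S.tr_mem (S.smul_mem hb hf), rfl⟩) (S.mem_span_inv hf)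

/-- Some constant has trace one. -/
theorem exists_tr_eq_one : ∃ c ∈ S.consts, S.tr (fun _ => c) = fun _ => 1 := by
  obtain ⟨A, hA⟩ := GalCommon.exists_liesOverPrime (Fact.out : ℓ.Prime)
  have hfin := S.finite_consts
  have hintA : ∀ a ∈ S.consts, a ∈ A := fun a ha => mem_of_isIntegral_Rl hA
    ((Algebra.IsIntegral.of_finite (Rl ℓ) S.consts).isIntegral ⟨a, ha⟩ |>.algebraMap (B := Qb))
  have hr : ∀ b ∈ S.consts, ∃ r : Rl ℓ, S.tr (fun _ => b) = fun _ => algebraMap (Rl ℓ) Qb r := by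
    intro b hb
    obtain ⟨hm, hfix⟩ := S.tr_mem ((S.mem_consts_iff).1 hb)
    have hconst : S.tr (fun _ => b) = fun _ => ∑ q : GQ ⧸ S.kernel, q.out b := by
      rw [tr_apply]
      exact funext fun x => by simp
    have hmem : (∑ q : GQ ⧸ S.kernel, q.out b) ∈ S.consts :=
      sum_mem fun q _ => S.map_mem_consts _ hb
    obtain ⟨r, hr⟩ := exists_Rl_of_fixed hA (x := ∑ q : GQ ⧸ S.kernel, q.out b) (fun σ => by
      have := hfix σ
      rw [hconst, galFun_const] at this
      exact congrFun this (Classical.arbitrary X)) (hintA _ hmem)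
    exact ⟨r, by rw [hconst, hr]⟩
  by_cases hunit : ∃ b, ∃ hb : b ∈ S.consts, IsUnit (hr b hb).choose
  · obtain ⟨b, hb, u, hu⟩ := hunit
    refine ⟨((u⁻¹ : (Rl ℓ)ˣ) : Rl ℓ) • b, S.consts.smul_mem hb _, ?_⟩
    rw [show (fun _ : X => ((u⁻¹ : (Rl ℓ)ˣ) : Rl ℓ) • b) =
      ((u⁻¹ : (Rl ℓ)ˣ) : Rl ℓ) • (fun _ : X => b) from rfl, map_smul, (hr b hb).choose_spec, ← hu]
    funext x
    simp only [Pi.smul_apply, Algebra.smul_def]
    rw [← map_mul, Units.inv_mul, map_one]
  · exfalso
    push Not at hunit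
    have h1 := S.mem_span_inv (one_mem S.ring)
    have key : ∀ g ∈ Submodule.span (Rl ℓ) {g : X → Qb | ∃ a ∈ S.consts, ∃ b ∈ S.consts,
        g = a • S.tr (b • 1)}, ∀ x, g x ∈ A.nonunits := by
      intro g hg
      induction hg using Submodule.span_induction with
      | mem g hg =>
        obtain ⟨a, ha, b, hb, rfl⟩ := hg
        intro x
        have hb1 : (b • 1 : X → Qb) = fun _ => b := funext fun _ => by simp
        obtain ⟨r', hr'⟩ := dvd_of_not_isUnit_Rl (hunit b hb)
        rw [hb1, (hr b hb).choose_spec, hr', ValuationSubring.mem_nonunits_iff, Pi.smul_apply,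
          smul_eq_mul, map_mul (algebraMap (Rl ℓ) Qb), map_natCast, mul_comm (ℓ : Qb), ← mul_assoc,
          map_mul A.valuation]
        refine mul_lt_one_of_nonneg_of_lt_one_right ?_ zero_le
          ((ValuationSubring.mem_nonunits_iff _).1 (natCast_mem_maximalIdeal hA))
        exact (A.valuation_le_one_iff _).2 (mul_mem (hintA a ha) (algebraMap_Rl_mem hA r'))
      | zero => intro x; simp
      | add g g' _ _ hg hg' =>
        intro x
        simp only [ValuationSubring.mem_nonunits_iff, Pi.add_apply] at hg hg' ⊢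
        exact lt_of_le_of_lt (Valuation.map_add _ _ _) (max_lt (hg x) (hg' x))
      | smul r g _ hg =>
        intro x
        simp only [ValuationSubring.mem_nonunits_iff, Pi.smul_apply, Algebra.smul_def, map_mul] at hg ⊢
        exact mul_lt_one_of_nonneg_of_lt_one_right
          ((A.valuation_le_one_iff _).2 (algebraMap_Rl_mem hA r)) zero_le (hg x)
    exact GalCommon.one_notMem_nonunits A (key _ h1 (Classical.arbitrary X))

end FunRing

end FLTAgent.FlatJ
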