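/-
From a Galois stable ring of functions to a finite flat model.
-/
import Fermat.Agent.FlatJ.Invariants
import Fermat.Agent.FlatHopf.Rat

/-!
`FunRing.hasModelRed`: if a `FunRing` on a finite Galois module separates points and is closed
under comultiplication, its invariants form an order in the sense of `FlatHopf`
(`FunRing.isOrder_inv`, averaging with a constant of trace one), hence a finite flat Hopf model
in which points with congruent values reduce together (`hasModelRed_of_isOrder`).
-/

set_option autoImplicit false
set_option linter.unusedSectionVars false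

noncomputable section

namespace FLTAgent.FlatJ

open FlatHopf

variable {ℓ : ℕ} [Fact ℓ.Prime]

/-- An order gives a model in which points with congruent values reduce together. -/
theorem hasModelRed_of_isOrder {G : Type} [AddCommGroup G] [Finite G] [DistribMulAction GQ G]
    {H : Subalgebra (Rl ℓ) (G → Qb)}
    (h : IsOrder (galR ℓ) (DistribMulAction.toAddMonoidEnd GQ G) H)
    {A : ValuationSubring Qb} {Rel : G → G → Prop}
    (hRel : ∀ x y, Rel x y → ∀ a ∈ H, A.valuation (a x - a y) < 1) :
    HasModelRed ℓ G A Rel := by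
  have hfix : FixedIsFrac (galR ℓ) := fixedIsFrac_galR
  classical
  let := h.hopfAlgebra hfix
  have := h.finite
  have := IsOrder.isTorsionFree (H := H)
  obtain ⟨ι, _, b, hb, hbs⟩ := h.exists_basis hfix
  let ev : G → (↥H →ₐ[Rl ℓ] Qb) := fun x => (Pi.evalAlgHom (Rl ℓ) (fun _ : G => Qb) x).comp H.val
  have hev_inj : Function.Injective ev := by
    intro x y hxy
    by_contra hne
    have : ∀ f ∈ Submodule.span Qb (H : Set (G → Qb)), f x = f y := fun f hf => by
      induction hf using Submodule.span_induction with
      | mem f hf => exact DFunLike.congr_fun hxy ⟨f, hf⟩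
      | zero => rfl
      | add _ _ _ _ h1 h2 => simp only [Pi.add_apply, h1, h2]
      | smul c _ _ h1 => simp only [Pi.smul_apply, h1]
    have h1 := this (Pi.single x 1) (h.span_eq_top.ge Submodule.mem_top)
    rw [Pi.single_eq_same, Pi.single_eq_of_ne (Ne.symm hne)] at h1
    exact one_ne_zero h1
  have hev_surj : Function.Surjective ev := by
    intro f
    by_contra hf
    push Not at hf
    let F : Option G → (↥H →ₐ[Rl ℓ] Qb) := fun o => o.elim f ev
    have hFinj : Function.Injective F := by
      rintro (_ | x) (_ | y) he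
      · rfl
      · exact absurd he.symm (hf y)
      · exact absurd he (hf x)
      · exact congrArg some (hev_inj he)
    have hliF : LinearIndependent Qb (fun o => ((F o : ↥H →ₐ[Rl ℓ] Qb) : ↥H → Qb)) :=
      (linearIndependent_monoidHom ↥H Qb).comp (fun o => (F o).toRingHom.toMonoidHom)
        fun o o' he => hFinj (AlgHom.ext fun a => DFunLike.congr_fun he a)
    have hliι : LinearIndependent Qb (fun o i => F o (b i)) := by
      rw [linearIndependent_iff'] at hliF ⊢
      intro s c hc o ho
      refine hliF s c (funext fun a => ?_) o ho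
      have ha : a ∈ Submodule.span (Rl ℓ) (Set.range b) := by rw [b.span_eq]; exact Submodule.mem_top
      simp only [Finset.sum_apply, Pi.smul_apply, smul_eq_mul, Pi.zero_apply]
      induction ha using Submodule.span_induction with
      | mem a ha =>
        obtain ⟨i, rfl⟩ := ha
        have := congrFun hc i
        simpa using this
      | zero => simp
      | add u v _ _ hu hv =>
        simp only [map_add, mul_add, Finset.sum_add_distrib, hu, hv, add_zero]
      | smul r u _ hu =>
        simp only [map_smul, mul_smul_comm, ← Finset.smul_sum, hu, smul_zero]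
    have := Fintype.ofFinite G
    have h1 := hliι.fintype_card_le_finrank
    have h2 := hb.fintype_card_le_finrank
    rw [Fintype.card_option, Module.finrank_pi] at h1
    rw [Module.finrank_pi] at h2
    omega
  let e : WithConv (↥H →ₐ[Rl ℓ] Qb) ≃ G :=
    (WithConv.equiv _).trans (Equiv.ofBijective ev ⟨hev_inj, hev_surj⟩).symm
  have he : ∀ f : WithConv (↥H →ₐ[Rl ℓ] Qb), ev (e f) = f.ofConv := fun f =>
    (Equiv.ofBijective ev ⟨hev_inj, hev_surj⟩).apply_symm_apply _
  refine ⟨↥H, inferInstance, h.hopfAlgebra hfix, h.finite, Module.Flat.of_free, ?_, e, ?_, ?_, ?_⟩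
  · refine ⟨LinearMap.ext fun a => h.mulAlg_injective hfix (funext fun ⟨x, y⟩ => ?_)⟩
    have key : ∀ t : TensorProduct (Rl ℓ) ↥H ↥H, mulAlg H (TensorProduct.comm (Rl ℓ) ↥H ↥H t) (x, y) =
        mulAlg H t (y, x) := by
      intro t
      induction t using TensorProduct.induction_on with
      | zero => simp
      | tmul p q => exact mul_comm _ _
      | add p q hp hq => simp only [map_add, Pi.add_apply, hp, hq]
    exact (key (h.comulHom hfix a)).trans ((h.mulAlg_comulHom hfix a y x).trans (by
      rw [add_comm]; exact (h.mulAlg_comulHom hfix a x y).symm))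
  · intro f g
    apply hev_inj
    rw [he]
    refine AlgHom.ext fun a => ?_
    show Algebra.TensorProduct.lmul' (Rl ℓ) (Algebra.TensorProduct.map f.ofConv g.ofConv
      (h.comulHom hfix a)) = (a : G → Qb) (e f + e g)
    rw [← h.mulAlg_comulHom hfix, ← he f, ← he g]
    generalize h.comulHom hfix a = t
    induction t using TensorProduct.induction_on with
    | zero => simp
    | tmul p q => rw [Algebra.TensorProduct.map_tmul, Algebra.TensorProduct.lmul'_apply_tmul]; rfl
    | add p q hp hq => simp only [map_add, Pi.add_apply, hp, hq]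
  · intro σ f g hfg
    apply hev_inj
    rw [he]
    refine AlgHom.ext fun a => (hfg a).trans ?_
    show galR ℓ σ (f.ofConv a) = (a : G → Qb) (σ • e f)
    show _ = (a : G → Qb) (DistribMulAction.toAddMonoidEnd GQ G σ (e f))
    rw [h.equivariant _ a.2, ← he f]
    rfl

  · intro f g hR a
    have h1 := hRel _ _ hR _ a.2
    have hf : f.ofConv a = (a : G → Qb) (e f) := by rw [← he f]; rfl
    have hg : g.ofConv a = (a : G → Qb) (e g) := by rw [← he g]; rfl
    show A.valuation (f.ofConv a - g.ofConv a) < 1
    rw [hf, hg]
    exact h1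

namespace FunRing

variable {G : Type} [AddCommGroup G] [Finite G] [DistribMulAction GQ G] (S : FunRing ℓ G)

/-- The products `(x, y) ↦ a x * b y` from the ring. -/
def prodRing : Submodule (Rl ℓ) (G × G → Qb) :=
  FlatHopf.prodSpan (Subalgebra.toSubmodule S.ring) (Subalgebra.toSubmodule S.ring)

/-- Comultiplication preserves the invariants. -/
theorem comp_add_mem_prodSpan_inv
    (hcomul : ∀ a ∈ S.ring, (fun z : G × G => a (z.1 + z.2)) ∈ S.prodRing)
    {a : G → Qb} (ha : a ∈ S.inv) :
    (fun z : G × G => a (z.1 + z.2)) ∈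
      FlatHopf.prodSpan (Subalgebra.toSubmodule S.inv) (Subalgebra.toSubmodule S.inv) := by
  classical
  obtain ⟨c, hc, htr⟩ := S.exists_tr_eq_one
  have htr' : ∑ q : GQ ⧸ S.kernel, q.out c = 1 := by
    have := congrFun htr 0
    rw [tr_apply] at this
    simpa using this
  -- the averaging map on functions of two variables
  let Φ : (G × G → Qb) →ₗ[Rl ℓ] (G × G → Qb) :=
    { toFun := fun F => ∑ q : GQ ⧸ S.kernel, galFun ℓ q.out (c • F)
      map_add' := fun F F' => by
        simp only [smul_add, map_add, Finset.sum_add_distrib]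
      map_smul' := fun r F => by
        simp only [smul_comm c r, map_smul, Finset.smul_sum, RingHom.id_apply] }
  have hfixΔ : ∀ σ : GQ, galFun ℓ σ (fun z : G × G => a (z.1 + z.2)) =
      fun z : G × G => a (z.1 + z.2) := fun σ => funext fun z => by
    have := congrFun ((S.mem_inv_iff.1 ha).2 σ) (z.1 + z.2)
    simpa [smul_add] using this
  have hΦΔ : Φ (fun z : G × G => a (z.1 + z.2)) = fun z : G × G => a (z.1 + z.2) := by
    show ∑ q : GQ ⧸ S.kernel, galFun ℓ q.out (c • _) = _
    simp only [galFun_smul, hfixΔ, ← Finset.sum_smul, htr', one_smul]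
  let M : Submodule (Rl ℓ) (G × G → Qb) := Submodule.span (Rl ℓ)
    {F | ∃ e ∈ S.consts, ∃ h ∈ S.inv, ∃ h' ∈ S.inv, F = e • fun z : G × G => h z.1 * h' z.2}
  have hprod : ∀ x ∈ S.ring, ∀ y ∈ S.ring, (fun z : G × G => x z.1 * y z.2) ∈ M := by
    intro x hx y hy
    have h1 := S.mem_span_smul_inv hx
    have h2 := S.mem_span_smul_inv hy
    clear hx hy
    induction h1 using Submodule.span_induction with
    | mem x hx =>
      obtain ⟨e, he, h, hh, rfl⟩ := hx
      induction h2 using Submodule.span_induction with
      | mem y hy =>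
        obtain ⟨e', he', h', hh', rfl⟩ := hy
        exact Submodule.subset_span ⟨e * e', mul_mem he he', h, hh, h', hh', funext fun z => by
          simp only [Pi.smul_apply, smul_eq_mul]; ring⟩
      | zero =>
        have h0 : (fun z : G × G => (e • h) z.1 * (0 : G → Qb) z.2) = 0 := funext fun z => by simp
        exact h0 ▸ M.zero_mem
      | add u v _ _ hu hv => simpa [mul_add] using! M.add_mem hu hv
      | smul r u _ hu => simpa [mul_smul_comm] using! M.smul_mem r hu
    | zero =>
      have h0 : (fun z : G × G => (0 : G → Qb) z.1 * y z.2) = 0 := funext fun z => by simp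
      exact h0 ▸ M.zero_mem
    | add u v _ _ hu hv => simpa [add_mul] using! M.add_mem hu hv
    | smul r u _ hu => simpa [smul_mul_assoc] using! M.smul_mem r hu
  have hΔM : (fun z : G × G => a (z.1 + z.2)) ∈ M := by
    have hspan : S.prodRing ≤ M := Submodule.span_le.2 fun F ⟨x, hx, y, hy, hF⟩ =>
      hF ▸ hprod x hx y hy
    exact hspan (hcomul a (S.inv_le ha))
  have hMΦ : M ≤ Submodule.comap Φ
      (FlatHopf.prodSpan (Subalgebra.toSubmodule S.inv) (Subalgebra.toSubmodule S.inv)) := by
    refine Submodule.span_le.2 ?_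
    rintro F ⟨e, he, h, hh, h', hh', rfl⟩
    rw [SetLike.mem_coe, Submodule.mem_comap]
    have hcalc : Φ (e • fun z : G × G => h z.1 * h' z.2) =
        fun z : G × G => S.tr ((c * e) • h) z.1 * h' z.2 := by
      show ∑ q : GQ ⧸ S.kernel, galFun ℓ q.out (c • _) = _
      funext z
      rw [Finset.sum_apply, tr_apply, Finset.sum_apply, Finset.sum_mul]
      refine Finset.sum_congr rfl fun q _ => ?_
      have h1 := congrFun ((S.mem_inv_iff.1 hh').2 q.out) z.2
      simp only [galFun_apply] at h1
      simp only [galFun_apply, Pi.smul_apply, smul_eq_mul, map_mul, Prod.smul_fst, Prod.smul_snd,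
        h1]
      ring
    show Φ _ ∈ _
    rw [hcalc]
    exact Submodule.subset_span
      ⟨_, S.tr_mem (S.smul_mem (mul_mem hc he) (S.inv_le hh)), h', hh', rfl⟩
  have := hMΦ hΔM
  rwa [Submodule.mem_comap, hΦΔ] at this

/-- The invariants of the ring form an order. -/
theorem isOrder_inv (hsep : ∀ x y : G, x ≠ y → ∃ a ∈ S.ring, a x ≠ a y)
    (hcomul : ∀ a ∈ S.ring, (fun z : G × G => a (z.1 + z.2)) ∈ S.prodRing) :
    IsOrder (galR ℓ) (DistribMulAction.toAddMonoidEnd GQ G) S.inv where
  fg := by
    have := S.finite
    have : IsNoetherian (Rl ℓ) S.ring := isNoetherian_of_isNoetherianRing_of_finite _ _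
    refine Module.Finite.iff_fg.1 (Module.Finite.of_injective
      ({ toFun := fun a => ⟨a.1, S.inv_le a.2⟩
         map_add' := fun _ _ => rfl
         map_smul' := fun _ _ => rfl } : S.inv →ₗ[Rl ℓ] S.ring) fun a b h => ?_)
    exact Subtype.ext (congrArg (fun f : S.ring => (f : G → Qb)) h)
  equivariant := fun a ha σ g => by
    have := congrFun ((S.mem_inv_iff.1 ha).2 σ) (σ • g)
    rw [galFun_apply, inv_smul_smul] at this
    exact this.symm
  span_eq_top := by
    refine span_eq_top_of_separates S.inv fun x y hno => ?_
    by_contra hxy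
    obtain ⟨a, ha, hne⟩ := hsep x y hxy
    refine hne ?_
    have hspan := S.mem_span_smul_inv ha
    clear ha hne
    induction hspan using Submodule.span_induction with
    | mem a ha =>
      obtain ⟨e, -, h, hh, rfl⟩ := ha
      simp [hno h hh]
    | zero => rfl
    | add u v _ _ hu hv => simp [hu, hv]
    | smul r u _ hu => simp [hu]
  comul := fun a ha => S.comp_add_mem_prodSpan_inv hcomul ha

/-- The model defined by a ring of functions. -/
theorem hasModelRed (hsep : ∀ x y : G, x ≠ y → ∃ a ∈ S.ring, a x ≠ a y)
    (hcomul : ∀ a ∈ S.ring, (fun z : G × G => a (z.1 + z.2)) ∈ S.prodRing)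
    {A : ValuationSubring Qb} {Rel : G → G → Prop}
    (hRel : ∀ x y, Rel x y → ∀ a ∈ S.ring, A.valuation (a x - a y) < 1) :
    HasModelRed ℓ G A Rel :=
  hasModelRed_of_isOrder (S.isOrder_inv hsep hcomul) fun x y h a ha => hRel x y h a (S.inv_le ha)

end FunRing

end FLTAgent.FlatJ
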