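/-
The finite flat model of a finite Galois module mapping to the classes of degree zero.
-/
import Fermat.Agent.FlatJ.Addition
import Fermat.Agent.FlatJ.Descent
import Fermat.Agent.FlatHopf.Dual

/-!
`Setup.hasModelRed_of_map`: a finite Galois module with an equivariant map to `Pic⁰`, additive
up to rational classes and jointly injective with an invariant label, has a finite flat model
in which equal label and equal reduction give congruent points. The ring generated by the
coordinates at all data, the constants and the label indicators is a `FunRing`, closed under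
comultiplication by `cc_neg_add_mem_of`; `Descent` then applies.
-/

set_option autoImplicit false
set_option linter.style.haveILetI false
set_option linter.unusedSectionVars false

noncomputable section

open AlgebraicCurve

open scoped Pointwise

namespace FLTAgent.FlatJ

open FLTAgent.Reduction

namespace Setup

variable {ℓ : ℕ} [Fact ℓ.Prime] {F k Fb : Type*} [Field F] [Algebra Qb F] [Field k] [Field Fb]
  [Algebra k Fb] [IsAlgClosed k] [FF.IsFF Qb F] [FF.IsFF k Fb] {A : ValuationSubring Qb}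
  {π : A →+* k} {S : Setup ℓ F k Fb A π}

namespace Frame

variable {X : Set (Pic0 Qb F)} (Fr : S.Frame X)

theorem isIntegral_val (θ : Fr.Datum) (c : Fr.CIdx) : IsIntegral (Rl ℓ) (Fr.val θ c) :=
  isIntegral_apply S.hA (f := fun θ => Fr.val θ c) (fun σ θ => Fr.val_smul σ θ c)
    (fun θ => Fr.val_mem θ c) θ

theorem isIntegral_cc (θ : Fr.Datum) {a : Pic0 Qb F} (ha : a ∈ X) (i : Fin (S.dim 1))
    (m : Fin S.g) : IsIntegral (Rl ℓ) (Fr.cc θ a i m) := by
  refine isIntegral_Rl_of_forall_mem fun V hV => ?_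
  obtain ⟨τ, rfl⟩ := GalCommon.exists_smul_eq_of_liesOverPrime (Fact.out : ℓ.Prime) S.hA hV
  rw [ValuationSubring.mem_pointwise_smul_iff_inv_smul_mem]
  show τ⁻¹ (Fr.cc θ a i m) ∈ A
  rw [← Fr.cc_smul ha]
  exact Fr.cc_mem (Fr.stable τ⁻¹ a ha) i m

variable {G : Type} [AddCommGroup G] [Finite G] [DistribMulAction GQ G]
  {L : Type*} [AddCommGroup L] [Finite L] (ι : G → Pic0 Qb F) (lab : G →+ L)
  (c : L → L → Pic0 Qb F)

/-- Index of the generators of the ring of the model. -/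
abbrev MIdx (_ι : G → Pic0 Qb F) (_lab : G →+ L) : Type _ :=
  (Fr.Datum × Fin (S.dim 1) × Fin S.g) ⊕ ((Fr.Datum × Fr.CIdx) ⊕
    ((Fr.Datum × (L × L) × Fin (S.dim 1) × Fin S.g) ⊕ L))

open Classical in
/-- The generators of the ring of the model. -/
def mgen : Fr.MIdx ι lab → G → Qb :=
  Sum.elim (fun x g => Fr.cc x.1 (ι g) x.2.1 x.2.2)
    (Sum.elim (fun x _ => Fr.val x.1 x.2)
      (Sum.elim (fun x _ => Fr.cc x.1 (c x.2.1.1 x.2.1.2) x.2.2.1 x.2.2.2)
        fun i g => if lab g = i then 1 else 0))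

variable (hιX : ∀ g, ι g ∈ X) (hcX : ∀ i j, c i j ∈ X)
  (hι : ∀ (σ : GQ) (g : G), ι (σ • g) = S.gal σ • ι g)
  (hlab : ∀ (σ : GQ) (g : G), lab (σ • g) = lab g)
  (hc : ∀ (σ : GQ) (i j : L), S.gal σ • c i j = c i j)

/-- The Galois action on the indices. -/
def msmul (σ : GQ) : Fr.MIdx ι lab → Fr.MIdx ι lab :=
  Sum.map (Prod.map (σ • ·) id) (Sum.map (Prod.map (σ • ·) id) (Sum.map (Prod.map (σ • ·) id) id))

include hιX hcX hι hlab hc in
theorem galFun_mgen (σ : GQ) (x : Fr.MIdx ι lab) :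
    galFun ℓ σ (Fr.mgen ι lab c x) = Fr.mgen ι lab c (Fr.msmul ι lab σ x) := by
  classical
  funext g
  rcases x with ⟨θ, i, m⟩ | ⟨θ, d⟩ | ⟨θ, ij, i, m⟩ | i
  · show σ (Fr.cc θ (ι (σ⁻¹ • g)) i m) = Fr.cc (σ • θ) (ι g) i m
    rw [← Fr.cc_smul (hιX _), ← hι, smul_inv_smul]
  · exact (Fr.val_smul σ θ d).symm
  · show σ (Fr.cc θ (c ij.1 ij.2) i m) = Fr.cc (σ • θ) (c ij.1 ij.2) i m
    rw [← Fr.cc_smul (hcX _ _), hc]
  · show σ (if lab (σ⁻¹ • g) = i then 1 else 0) = if lab g = i then 1 else 0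
    rw [hlab]
    split_ifs <;> simp

include hιX hcX in
theorem isIntegral_mgen (x : Fr.MIdx ι lab) : IsIntegral (Rl ℓ) (Fr.mgen ι lab c x) := by
  classical
  refine isIntegral_pi_finite fun g => ?_
  rcases x with ⟨θ, i, m⟩ | ⟨θ, d⟩ | ⟨θ, ij, i, m⟩ | i
  · exact Fr.isIntegral_cc θ (hιX g) i m
  · exact Fr.isIntegral_val θ d
  · exact Fr.isIntegral_cc θ (hcX _ _) i m
  · show IsIntegral (Rl ℓ) (if lab g = i then 1 else 0 : Qb)
    split_ifs
    exacts [isIntegral_one, isIntegral_zero]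

/-- The ring of the model. -/
def modelRing : FunRing ℓ G where
  ring := Algebra.adjoin (Rl ℓ) (Set.range (Fr.mgen ι lab c))
  finite := Module.Finite.iff_fg.2 (fg_adjoin_of_finite (Set.finite_range _) (by
    rintro _ ⟨x, rfl⟩
    exact Fr.isIntegral_mgen ι lab c hιX hcX x))
  stable σ := fun f hf => (Algebra.adjoin_le (S := (Algebra.adjoin (Rl ℓ)
    (Set.range (Fr.mgen ι lab c))).comap (galFun ℓ σ)) (by
      rintro _ ⟨x, rfl⟩
      rw [SetLike.mem_coe, Subalgebra.mem_comap, Fr.galFun_mgen ι lab c hιX hcX hι hlab hc]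
      exact Algebra.subset_adjoin ⟨_, rfl⟩)) hf
  unram σ := by
    by_cases hσ : ∀ θ : Fr.Datum, σ • θ = θ
    · left
      intro f hf
      have hle : Algebra.adjoin (Rl ℓ) (Set.range (Fr.mgen ι lab c)) ≤
          AlgHom.equalizer (galFun ℓ σ) (AlgHom.id (Rl ℓ) (G → Qb)) := Algebra.adjoin_le (by
        rintro _ ⟨x, rfl⟩
        show galFun ℓ σ (Fr.mgen ι lab c x) = Fr.mgen ι lab c x
        rw [Fr.galFun_mgen ι lab c hιX hcX hι hlab hc]
        congr 1
        rcases x with ⟨θ, i⟩ | ⟨θ, d⟩ | ⟨θ, ij⟩ | i <;> simp [msmul, hσ])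
      exact hle hf
    · right
      push Not at hσ
      obtain ⟨θ, hθ⟩ := hσ
      intro V hV
      obtain ⟨d, hd⟩ := Fr.exists_val_not_congr (Ne.symm hθ) hV
      exact ⟨Fr.val θ d, Algebra.subset_adjoin ⟨.inr (.inl (θ, d)), rfl⟩,
        by rwa [← Fr.val_smul σ θ d]⟩

end Frame

variable (S) in
/-- A finite Galois module mapping to the classes of degree zero, additively up to rational
classes and separated by an invariant label, has a finite flat model in which equal labels and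
equal reductions give congruent points. -/
theorem hasModelRed_of_map {G : Type} [AddCommGroup G] [Finite G] [DistribMulAction GQ G]
    {L : Type*} [AddCommGroup L] [Finite L] (ι : G → Pic0 Qb F) (lab : G →+ L)
    (hι : ∀ (σ : GQ) (g : G), ι (σ • g) = S.gal σ • ι g)
    (hlab : ∀ (σ : GQ) (g : G), lab (σ • g) = lab g)
    (hinj : Function.Injective fun g => (ι g, lab g))
    (c : L → L → Pic0 Qb F) (hc : ∀ (σ : GQ) (i j : L), S.gal σ • c i j = c i j)
    (hadd : ∀ g h : G, ι (g + h) = ι g + ι h + c (lab g) (lab h)) :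
    HasModelRed ℓ G A (fun g h => lab g = lab h ∧
      Divisor.IsPrincipal (Finsupp.mapDomain S.r (rep (ι g) - rep (ι h)))) := by
  classical
  haveI := Fintype.ofFinite L
  set X0 : Set (Pic0 Qb F) := Set.range ι ∪ {0} ∪ Set.range (fun p : L × L => c p.1 p.2) with hX0
  set X1 : Set (Pic0 Qb F) :=
    (fun p : Pic0 Qb F × Pic0 Qb F × Pic0 Qb F => p.1 + p.2.1 + p.2.2) '' (X0 ×ˢ X0 ×ˢ X0)
    with hX1
  set X : Set (Pic0 Qb F) := X1 ∪ (fun a => -a) '' X1 with hX
  have hfin0 : X0.Finite :=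
    ((Set.finite_range ι).union (Set.finite_singleton _)).union (Set.finite_range _)
  have hfin1 : X1.Finite := (hfin0.prod (hfin0.prod hfin0)).image _
  have hfin : X.Finite := hfin1.union (hfin1.image _)
  have hm : ∀ {x y z : Pic0 Qb F}, x ∈ X0 → y ∈ X0 → z ∈ X0 →
      x + y + z ∈ X ∧ -(x + y + z) ∈ X := fun {x y z} hx hy hz =>
    ⟨Or.inl ⟨(x, y, z), ⟨hx, hy, hz⟩, rfl⟩, Or.inr ⟨_, ⟨(x, y, z), ⟨hx, hy, hz⟩, rfl⟩, rfl⟩⟩
  have h00 : (0 : Pic0 Qb F) ∈ X0 := Or.inl (Or.inr rfl)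
  have hι0 : ∀ g, ι g ∈ X0 := fun g => Or.inl (Or.inl ⟨g, rfl⟩)
  have hc0 : ∀ i j, c i j ∈ X0 := fun i j => Or.inr ⟨(i, j), rfl⟩
  have h0X : (0 : Pic0 Qb F) ∈ X := by simpa using (hm h00 h00 h00).1
  have hst0 : ∀ σ : GQ, ∀ a ∈ X0, S.gal σ • a ∈ X0 := by
    rintro σ a ((⟨g, rfl⟩ | rfl) | ⟨⟨i, j⟩, rfl⟩)
    · exact Or.inl (Or.inl ⟨σ • g, hι σ g⟩)
    · exact Or.inl (Or.inr (smul_zero (A := Pic0 Qb F) (S.gal σ)))
    · rw [hc]; exact hc0 i j
  have hst : ∀ σ : GQ, ∀ a ∈ X, S.gal σ • a ∈ X := by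
    intro σ a ha
    let f := DistribSMul.toAddMonoidHom (Pic0 Qb F) (S.gal σ)
    have h1 : ∀ b ∈ X1, f b ∈ X1 := by
      rintro _ ⟨⟨x, y, z⟩, ⟨hx, hy, hz⟩, rfl⟩
      exact ⟨(f x, f y, f z), ⟨hst0 σ x hx, hst0 σ y hy, hst0 σ z hz⟩, by simp [map_add]⟩
    rcases ha with ha | ⟨b, hb, rfl⟩
    · exact Or.inl (h1 a ha)
    · exact Or.inr ⟨f b, h1 b hb, (map_neg f b).symm⟩
  obtain ⟨Fr⟩ := S.nonempty_frame hfin h0X hst
  have hιX : ∀ g, ι g ∈ X := fun g => by simpa using (hm (hι0 g) h00 h00).1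
  have hcX : ∀ i j, c i j ∈ X := fun i j => by simpa using (hm (hc0 i j) h00 h00).1
  let R := Fr.modelRing ι lab c hιX hcX hι hlab hc
  have hgen : ∀ x, Fr.mgen ι lab c x ∈ R.ring := fun x => Algebra.subset_adjoin ⟨x, rfl⟩
  refine R.hasModelRed ?_ ?_ ?_
  · intro x y hxy
    by_cases hl : lab x = lab y
    · obtain ⟨θ⟩ := Fr.nonempty_datum
      by_contra hno
      push Not at hno
      refine hxy (hinj (Prod.ext (Fr.eq_of_cc_eq (θ := θ) (hιX x) (hιX y) fun i m => ?_) hl))
      exact hno _ (hgen (.inl (θ, i, m)))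
    · refine ⟨_, hgen (.inr (.inr (.inr (lab x)))), ?_⟩
      simp [Frame.mgen, Ne.symm hl]
  · -- comultiplication
    let P : Subalgebra (Rl ℓ) (G × G → Qb) :=
      (R.prodRing).toSubalgebra (FlatHopf.one_mem_prodSpan R.ring R.ring)
        (fun _ _ => FlatHopf.mul_mem_prodSpan R.ring R.ring)
    have hP1 : ∀ a ∈ R.ring, (fun z : G × G => a z.1) ∈ P := fun a ha =>
      Submodule.subset_span ⟨a, ha, 1, one_mem R.ring, funext fun z => mul_one _⟩
    have hP2 : ∀ a ∈ R.ring, (fun z : G × G => a z.2) ∈ P := fun a ha =>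
      Submodule.subset_span ⟨1, one_mem R.ring, a, ha, funext fun z => one_mul _⟩
    let Ψ : (G → Qb) →ₐ[Rl ℓ] (G × G → Qb) :=
      { toFun := fun f z => f (z.1 + z.2)
        map_one' := rfl
        map_mul' := fun _ _ => rfl
        map_zero' := rfl
        map_add' := fun _ _ => rfl
        commutes' := fun _ => rfl }
    suffices hle : R.ring ≤ P.comap Ψ from fun a ha => hle ha
    refine Algebra.adjoin_le ?_
    rintro _ ⟨x, rfl⟩
    rw [SetLike.mem_coe, Subalgebra.mem_comap]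
    rcases x with ⟨θ, i, m⟩ | x | x | l
    · -- the sum of two classes
      have hval : ∀ (θ : Fr.Datum) d, (fun _ : G × G => Fr.val θ d) ∈ P := fun θ d =>
        hP1 _ (hgen (.inr (.inl (θ, d))))
      have hzero : ∀ (θ : Fr.Datum) i m, (fun _ : G × G => Fr.cc θ 0 i m) ∈ P := fun θ i m =>
        hval θ (.inr (.inr (.inr (.inr (i, m)))))
      have h1 : ∀ (θ : Fr.Datum) i m,
          (fun z : G × G => Fr.cc θ (-(ι z.1 + ι z.2)) i m) ∈ P :=
        Fr.cc_neg_add_mem_of P hval (fun z => ι z.1) (fun z => ι z.2)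
          (fun z => ⟨hιX _, hιX _, by simpa using (hm (hι0 z.1) (hι0 z.2) h00).2⟩)
          (fun θ i m => hP1 _ (hgen (.inl (θ, i, m)))) (fun θ i m => hP2 _ (hgen (.inl (θ, i, m))))
      have h2 : ∀ (θ : Fr.Datum) i m, (fun z : G × G => Fr.cc θ (ι z.1 + ι z.2) i m) ∈ P := by
        intro θ i m
        have := Fr.cc_neg_add_mem_of P hval (fun z => -(ι z.1 + ι z.2)) (fun _ => 0)
          (fun z => ⟨by simpa using (hm (hι0 z.1) (hι0 z.2) h00).2, h0X,
            by simpa using (hm (hι0 z.1) (hι0 z.2) h00).1⟩) h1 hzero θ i m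
        simpa only [add_zero, neg_neg] using this
      have h4 : ∀ a b (θ : Fr.Datum) i m,
          (fun z : G × G => Fr.cc θ (ι z.1 + ι z.2 + c a b) i m) ∈ P := by
        intro a b θ i m
        have h3 : ∀ (θ : Fr.Datum) i m,
            (fun z : G × G => Fr.cc θ (-(ι z.1 + ι z.2 + c a b)) i m) ∈ P :=
          Fr.cc_neg_add_mem_of P hval (fun z => ι z.1 + ι z.2) (fun _ => c a b)
            (fun z => ⟨by simpa using (hm (hι0 z.1) (hι0 z.2) h00).1, hcX a b,
              (hm (hι0 z.1) (hι0 z.2) (hc0 a b)).2⟩) h2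
            (fun θ i m => hP1 _ (hgen (.inr (.inr (.inl (θ, (a, b), i, m))))))
        have := Fr.cc_neg_add_mem_of P hval (fun z => -(ι z.1 + ι z.2 + c a b)) (fun _ => 0)
          (fun z => ⟨(hm (hι0 z.1) (hι0 z.2) (hc0 a b)).2, h0X,
            by simpa using (hm (hι0 z.1) (hι0 z.2) (hc0 a b)).1⟩) h3 hzero θ i m
        simpa only [add_zero, neg_neg] using this
      have key : Ψ (Fr.mgen ι lab c (.inl (θ, i, m))) = ∑ ab : L × L,
          (fun z : G × G => Fr.mgen ι lab c (.inr (.inr (.inr ab.1))) z.1) *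
          (fun z : G × G => Fr.mgen ι lab c (.inr (.inr (.inr ab.2))) z.2) *
          fun z : G × G => Fr.cc θ (ι z.1 + ι z.2 + c ab.1 ab.2) i m := by
        funext z
        show Fr.cc θ (ι (z.1 + z.2)) i m = _
        rw [Finset.sum_apply, Finset.sum_eq_single (lab z.1, lab z.2)]
        · simp [Frame.mgen, hadd]
        · rintro ⟨a, b⟩ - hne
          simp only [Frame.mgen, Sum.elim_inr, Pi.mul_apply]
          by_cases h : lab z.1 = a
          · have : lab z.2 ≠ b := fun h' => hne (by rw [h, h'])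
            simp [this]
          · simp [h]
        · simp
      rw [key]
      exact sum_mem fun ab _ => mul_mem (mul_mem (hP1 _ (hgen _)) (hP2 _ (hgen _)))
        (h4 _ _ θ i m)
    · exact hP1 _ (hgen (.inr (.inl x)))
    · exact hP1 _ (hgen (.inr (.inr (.inl x))))
    · have key : Ψ (Fr.mgen ι lab c (.inr (.inr (.inr l)))) = ∑ a : L,
          (fun z : G × G => Fr.mgen ι lab c (.inr (.inr (.inr a))) z.1) *
          fun z : G × G => Fr.mgen ι lab c (.inr (.inr (.inr (l - a)))) z.2 := by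
        funext z
        show (if lab (z.1 + z.2) = l then (1 : Qb) else 0) = _
        rw [Finset.sum_apply, Finset.sum_eq_single (lab z.1)]
        · simp [Frame.mgen, eq_sub_iff_add_eq']
        · intro a _ hne
          simp [Frame.mgen, Ne.symm hne]
        · simp
      rw [key]
      exact sum_mem fun a _ => mul_mem (hP1 _ (hgen _)) (hP2 _ (hgen _))
  · intro x y hxy
    obtain ⟨hl, hp⟩ := hxy
    have hA : ∀ a ∈ R.ring, ∀ g, a g ∈ A := fun a ha g => mem_of_isIntegral_Rl S.hA (by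
      haveI := R.finite
      exact ((Algebra.IsIntegral.of_finite (Rl ℓ) R.ring).isIntegral ⟨a, ha⟩).map
        ((Pi.evalAlgHom (Rl ℓ) (fun _ : G => Qb) g).comp R.ring.val))
    intro a ha
    rw [← ValuationSubring.mem_nonunits_iff]
    induction ha using Algebra.adjoin_induction with
    | mem a ha =>
      obtain ⟨s, rfl⟩ := ha
      rcases s with ⟨θ, i, m⟩ | s | s | l
      · exact Fr.cc_congr (hιX x) (hιX y) hp i m
      · simp [Frame.mgen]
      · simp [Frame.mgen]
      · simp [Frame.mgen, hl]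
    | algebraMap r => simp
    | add a b _ _ h1 h2 =>
      rw [Pi.add_apply, Pi.add_apply, add_sub_add_comm]
      exact add_mem_nonunits h1 h2
    | mul a b ha hb h1 h2 =>
      rw [show (a * b) x - (a * b) y = a x * (b x - b y) + b y * (a x - a y) by
        simp only [Pi.mul_apply]; ring]
      exact add_mem_nonunits (mul_mem_nonunits_left (hA a ha x) h2)
        (mul_mem_nonunits_left (hA b hb y) h1)

end Setup

end FLTAgent.FlatJ
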