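/-
Descent of functions with rational expansions, and rational bases of Galois stable spaces.
-/
import Fermat.Agent.FlatJ.Defs
import Fermat.Agent.GalCommon.Basic
import Fermat.Prelude.Def_ModularCurve_ArithmeticGalois
import Fermat.Prelude.Def_ModularCurve_X0

/-!
A function in `laurentBaseChange ℚ̄ F₀` with rational expansion is the image of an element of
`F₀` (`exists_coeffEmb_eq_of_fixed`), and a finite dimensional Galois stable space of such
functions has a basis of fixed vectors dual to some coefficient functionals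
(`exists_fixed_dual`).
-/

set_option autoImplicit false
set_option linter.unusedSectionVars false

noncomputable section

open ModularCurve

namespace FLTAgent.FlatJ

theorem coeff_algebraMap_mul (c : Qb) (x : LaurentSeries Qb) (n : ℤ) :
    (algebraMap Qb (LaurentSeries Qb) c * x).coeff n = c * x.coeff n := by
  rw [algebraMap_laurentSeries_eq_single, HahnSeries.coeff_single_zero_mul]

theorem coeff_smul_bar {F₀ : IntermediateField ℚ (LaurentSeries ℚ)} (c : Qb)
    (f : laurentBaseChange Qb F₀) (n : ℤ) :
    ((c • f : laurentBaseChange Qb F₀) : LaurentSeries Qb).coeff n =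
      c * (f : LaurentSeries Qb).coeff n := by
  rw [Algebra.smul_def]
  exact coeff_algebraMap_mul c _ n

theorem exists_list_coeffEmb {F₀ : IntermediateField ℚ (LaurentSeries ℚ)} {f : LaurentSeries Qb}
    (hf : f ∈ laurentBaseChange Qb F₀) : ∃ l : List (Qb × F₀),
      f = (l.map fun p => algebraMap Qb (LaurentSeries Qb) p.1 *
        coeffEmb Qb (p.2 : LaurentSeries ℚ)).sum := by
  let : Algebra F₀ (LaurentSeries Qb) :=
    ((coeffEmb Qb).comp F₀.toSubfield.subtype).toAlgebra
  set s : Set (LaurentSeries Qb) := Set.range (algebraMap Qb (LaurentSeries Qb)) with hs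
  set E := Algebra.adjoin F₀ s with hE
  have hint : ∀ x ∈ E, IsIntegral F₀ x := by
    have hle : E ≤ integralClosure F₀ (LaurentSeries Qb) := Algebra.adjoin_le (by
      rintro _ ⟨c, rfl⟩
      obtain ⟨p, hp, hpc⟩ := ((AlgebraicClosure.isAlgebraic ℚ).isAlgebraic c).isIntegral
      refine ⟨p.map (algebraMap ℚ F₀), hp.map _, ?_⟩
      rw [Polynomial.eval₂_map,
        Subsingleton.elim ((algebraMap F₀ (LaurentSeries Qb)).comp (algebraMap ℚ F₀))
          ((algebraMap Qb (LaurentSeries Qb)).comp (algebraMap ℚ Qb)),
        ← Polynomial.hom_eval₂]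
      exact (congrArg _ hpc).trans (map_zero _))
    exact fun x hx => hle hx
  have hfE : f ∈ E := by
    rw [mem_laurentBaseChange_iff] at hf
    induction hf using Subfield.closure_induction with
    | mem y hy =>
      rcases hy with hy | ⟨z, hz, rfl⟩
      · exact Algebra.subset_adjoin hy
      · exact E.algebraMap_mem ⟨z, hz⟩
    | one => exact one_mem _
    | add x y _ _ hx hy => exact add_mem hx hy
    | neg x _ hx => exact neg_mem hx
    | inv x _ hx =>
      exact Algebra.adjoin_le (Set.singleton_subset_iff.2 hx) (hint x hx).inv_mem_adjoin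
    | mul x y _ _ hx hy => exact mul_mem hx hy
  have hspan : f ∈ Submodule.span F₀ s := by
    have h := (Subalgebra.mem_toSubmodule (S := E)).2 hfE
    rwa [hE, Algebra.adjoin_eq_span, hs,
      show Set.range (algebraMap Qb (LaurentSeries Qb)) =
        ((MonoidHom.mrange (algebraMap Qb (LaurentSeries Qb)).toMonoidHom : Submonoid _) :
          Set (LaurentSeries Qb)) from rfl,
      Submonoid.closure_eq] at h
  clear hfE hf
  induction hspan using Submodule.span_induction with
  | mem x hx =>
    obtain ⟨c, rfl⟩ := hx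
    exact ⟨[(c, 1)], by simp⟩
  | zero => exact ⟨[], by simp⟩
  | add x y _ _ hx hy =>
    obtain ⟨l, rfl⟩ := hx
    obtain ⟨l', rfl⟩ := hy
    exact ⟨l ++ l', by simp⟩
  | smul h x _ hx =>
    obtain ⟨l, rfl⟩ := hx
    refine ⟨l.map fun p => (p.1, h * p.2), ?_⟩
    rw [Algebra.smul_def, ← List.sum_map_mul_left, List.map_map]
    refine congrArg List.sum (List.map_congr_left fun p _ => ?_)
    show coeffEmb Qb (h : LaurentSeries ℚ) * _ = _
    simp only [Function.comp_apply, MulMemClass.coe_mul, map_mul]
    ring

variable {F₀ : IntermediateField ℚ (LaurentSeries ℚ)}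

/-- Functions with rational expansions come from the rational function field. -/
theorem exists_coeffEmb_eq_of_fixed {f : laurentBaseChange Qb F₀}
    (hf : ∀ (σ : GQ) (n : ℤ), σ ((f : LaurentSeries Qb).coeff n) = (f : LaurentSeries Qb).coeff n) :
    ∃ f₀ ∈ F₀, coeffEmb Qb f₀ = (f : LaurentSeries Qb) := by
  obtain ⟨l, hl⟩ := exists_list_coeffEmb f.2
  obtain ⟨ψ, hψ⟩ : ∃ ψ : Qb →ₗ[ℚ] ℚ, ∀ q : ℚ, ψ (algebraMap ℚ Qb q) = q := by
    obtain ⟨ψ, hψ⟩ := (Algebra.linearMap ℚ Qb).exists_leftInverse_of_injective
      (LinearMap.ker_eq_bot.2 (algebraMap ℚ Qb).injective)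
    exact ⟨ψ, fun q => LinearMap.congr_fun hψ q⟩
  refine ⟨(l.map fun p => algebraMap ℚ (LaurentSeries ℚ) (ψ p.1) * (p.2 : LaurentSeries ℚ)).sum, list_sum_mem fun x hx => ?_, ?_⟩
  · obtain ⟨p, -, rfl⟩ := List.mem_map.1 hx
    exact mul_mem (F₀.algebraMap_mem _) p.2.2
  refine HahnSeries.ext (funext fun n => ?_)
  obtain ⟨q, hq⟩ := GalCommon.exists_rat_of_fixed (x := (f : LaurentSeries Qb).coeff n)
    fun σ => hf σ n
  rw [coeffEmb_coeff, ← hq]
  congr 1
  have hval : ∀ l : List (Qb × F₀),
      ((l.map fun p => algebraMap ℚ (LaurentSeries ℚ) (ψ p.1) * (p.2 : LaurentSeries ℚ)).sum).coeff n =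
      ψ (((l.map fun p => algebraMap Qb (LaurentSeries Qb) p.1 *
        coeffEmb Qb (p.2 : LaurentSeries ℚ)).sum).coeff n) := by
    intro l
    induction l with
    | nil => simp
    | cons p l ih =>
      simp only [List.map_cons, List.sum_cons, HahnSeries.coeff_add, map_add, ih,
        coeff_algebraMap_mul, coeffEmb_coeff]
      rw [mul_comm p.1, ← Algebra.smul_def (R := ℚ) (A := Qb), map_smul, smul_eq_mul,
        algebraMap_apply_eq_single,
        HahnSeries.coeff_single_zero_mul, mul_comm]
  rw [hval l, ← hl, ← hq, hψ]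

/-- The coefficient functional. -/
def coeffFn (F₀ : IntermediateField ℚ (LaurentSeries ℚ)) (n : ℤ) :
    laurentBaseChange Qb F₀ →ₗ[Qb] Qb where
  toFun f := (f : LaurentSeries Qb).coeff n
  map_add' f g := by simp
  map_smul' c f := coeff_smul_bar c f n

@[simp]
theorem coeffFn_apply (n : ℤ) (f : laurentBaseChange Qb F₀) :
    coeffFn F₀ n f = (f : LaurentSeries Qb).coeff n := rfl

/-- A finite dimensional space separated by functionals has a basis dual to some of them. -/
theorem exists_dual_family {K V ι : Type*} [Field K] [AddCommGroup V] [Module K V]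
    [FiniteDimensional K V] (Φ : ι → Module.Dual K V) (hΦ : ∀ x, (∀ i, Φ i x = 0) → x = 0) :
    ∃ (d : ℕ) (idx : Fin d → ι) (w : Fin d → V),
      (∀ i j, Φ (idx j) (w i) = if i = j then 1 else 0) ∧
      ∀ x y, (∀ j, Φ (idx j) x = Φ (idx j) y) → x = y := by
  classical
  have hspan : Submodule.span K (Set.range Φ) = ⊤ := by
    by_contra hne
    obtain ⟨ev, hev0, hev⟩ := Submodule.exists_le_ker_of_lt_top _ (lt_top_iff_ne_top.2 hne)
    obtain ⟨x, rfl⟩ := (Module.bijective_dual_eval K V).2 ev
    exact hev0 (by rw [hΦ x fun i => hev (Submodule.subset_span ⟨i, rfl⟩), map_zero])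
  obtain ⟨t, ht, hts, hli⟩ := exists_linearIndependent K (Set.range Φ)
  rw [hspan] at hts
  let b : Module.Basis t K (Module.Dual K V) :=
    Module.Basis.mk hli (by rw [Subtype.range_coe, hts])
  have : Finite t := Module.Finite.finite_basis b
  have := Fintype.ofFinite t
  let e := (Fintype.equivFin t).symm
  choose idx hidx using fun i => ht (e i).2
  let L : V →ₗ[K] (Fin (Fintype.card t) → K) := LinearMap.pi fun i => Φ (idx i)
  have hinj : Function.Injective L := by
    refine (injective_iff_map_eq_zero L).2 fun x hx => ?_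
    refine (Module.eval_apply_eq_zero_iff K x).1 (b.ext fun a => ?_)
    obtain ⟨i, rfl⟩ := e.surjective a
    rw [Module.Dual.eval_apply, Module.Basis.mk_apply, ← hidx i]
    exact congrFun hx i
  have hdim : Module.finrank K V = Fintype.card t := by
    rw [← Subspace.dual_finrank_eq, Module.finrank_eq_card_basis b]
  have hsurj : Function.Surjective L :=
    (LinearMap.injective_iff_surjective_of_finrank_eq_finrank (by simp [hdim])).1 hinj
  choose w hw using fun i => hsurj (Pi.single i 1)
  refine ⟨_, idx, w, fun i j => ?_, fun x y h => hinj (funext h)⟩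
  have := congrFun (hw i) j
  rw [Pi.single_apply] at this
  simpa [L, eq_comm] using this

set_option synthInstance.maxHeartbeats 400000 in
/-- A finite dimensional Galois stable space has a basis of fixed vectors dual to some
coefficients. -/
theorem exists_fixed_dual {W : Submodule Qb (laurentBaseChange Qb F₀)} [FiniteDimensional Qb W]
    (hW : ∀ σ : GQ, ∀ f ∈ W, arithmeticGalois F₀ σ • f ∈ W) :
    ∃ (d : ℕ) (idx : Fin d → ℤ) (w : Fin d → laurentBaseChange Qb F₀),
      (∀ i, w i ∈ W) ∧ (∀ (σ : GQ) i, arithmeticGalois F₀ σ • w i = w i) ∧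
      (∀ i j, (w i : LaurentSeries Qb).coeff (idx j) = if i = j then 1 else 0) ∧
      ∀ f ∈ W, f = ∑ i, (f : LaurentSeries Qb).coeff (idx i) • w i := by
  classical
  obtain ⟨d, idx, w, hval, hinj⟩ := exists_dual_family (V := W)
    (fun n => (coeffFn F₀ n).comp W.subtype)
    (fun x hx => Subtype.ext (Subtype.ext (HahnSeries.ext (funext fun n => hx n))))
  refine ⟨d, idx, fun i => w i, fun i => (w i).2, fun σ i => ?_, hval, fun f hf => ?_⟩
  · refine congrArg Subtype.val (hinj ⟨_, hW σ _ (w i).2⟩ (w i) fun j => ?_)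
    show σ ((((w i : W) : laurentBaseChange Qb F₀) : LaurentSeries Qb).coeff (idx j)) =
      ((((w i : W) : laurentBaseChange Qb F₀) : LaurentSeries Qb).coeff (idx j))
    rw [show (((w i : W) : laurentBaseChange Qb F₀) : LaurentSeries Qb).coeff (idx j) = _ from hval i j]
    split_ifs <;> simp
  · have h : (⟨f, hf⟩ : W) = ∑ i, coeffFn F₀ (idx i) f • w i := hinj _ _ fun j => by
      simp only [LinearMap.comp_apply, Submodule.subtype_apply, map_sum, map_smul, smul_eq_mul]
      rw [Finset.sum_eq_single j]
      · have := hval j j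
        simp only [LinearMap.comp_apply, Submodule.subtype_apply, if_true] at this
        rw [this, mul_one]
      · intro i _ hij
        have := hval i j
        simp only [LinearMap.comp_apply, Submodule.subtype_apply, if_neg hij] at this
        rw [this, mul_zero]
      · simp
    simpa using congrArg Subtype.val h

end FLTAgent.FlatJ
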