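/-
Rational bases of the spaces `L(n (j)_∞)` on `X₀(N)` with independent reductions.
-/
import Fermat.Agent.FlatJ.RatDescent
import Fermat.Agent.FlatJ.Base
import Fermat.Agent.Reduction.InputsLevel
import Fermat.Agent.Reduction.IgusaChart

/-!
`exists_ratBasis_jParam`: for a place `A` over `ℓ ∤ N`, each space of functions on `X₀(N)`
with bounded poles over `j = ∞` only has a basis fixed by Galois with independent reductions.
Fixed functions have bounded denominators (`exists_coeff_bound`, by integrality over `ℚ[j]`),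
so a basis of the `ℤ_(ℓ)`-lattice of integral expansions works; `gauss_of_coeff` identifies
the reduction with coefficientwise reduction.
-/

set_option autoImplicit false
set_option linter.style.haveILetI false
set_option linter.unusedSectionVars false
set_option synthInstance.maxHeartbeats 400000
set_option maxHeartbeats 1000000

noncomputable section

open ModularCurve AlgebraicCurve Polynomial

namespace FLTAgent.FlatJ

open FLTAgent.Reduction ModularCurve.IgusaScheme

variable (N : ℕ) [NeZero N] (A : ValuationSubring Qb) {ℓ : ℕ} [Fact ℓ.Prime]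

local notation "k" => IsLocalRing.ResidueField A

include ℓ in
/-- A function with integral coefficients is integral, and its reduction is coefficientwise. -/
theorem gauss_of_coeff (hA : A.LiesOverPrime ℓ) (hℓN : ¬ ℓ ∣ N) {f : modularFunctionFieldBar N}
    {y : LaurentSeries A} (hy : coeffMap A.subtype y = (f : LaurentSeries Qb)) :
    f ∈ (modularGauss A N).V ∧
      ((modularGauss A N).red f : LaurentSeries k) = coeffMap (IsLocalRing.residue A) y := by
  have hinj : Function.Injective (coeffMap A.subtype) := fun u v h =>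
    HahnSeries.ext (funext fun i => Subtype.ext
      (congrArg (fun s : LaurentSeries Qb => s.coeff i) h))
  suffices hy' : coeffMap (IsLocalRing.residue A) y ∈ modularFunctionFieldFullC k N by
    let e : integralExp A N := ⟨y, mem_integralExp.mpr ⟨hy.symm ▸ f.2, hy'⟩⟩
    have he : expToBar A N e = f := Subtype.ext hy
    exact he ▸ ⟨expToBar_mem e, by rw [red_expToBar]; rfl⟩
  rcases eq_or_ne f 0 with rfl | hf
  · rw [show y = 0 from hinj (by rw [map_zero]; exact hy), map_zero]
    exact zero_mem _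
  obtain ⟨c, hc, hcV, hcr⟩ := modularGauss_scale A N hA hℓN f hf
  obtain ⟨a, b, hb, hab⟩ := modularGauss_mem.mp hcV
  have ha : expToRes A N a ≠ 0 := fun h => hcr (by rw [modularGauss_red hb hab, h, zero_div])
  have hser : algebraMap Qb (LaurentSeries Qb) c * coeffMap A.subtype y *
      coeffMap A.subtype (b : LaurentSeries A) = coeffMap A.subtype (a : LaurentSeries A) := by
    have h := congrArg Subtype.val hab
    rw [Algebra.smul_def] at h
    simpa [hy] using h
  have hconst : ∀ u : A, algebraMap Qb (LaurentSeries Qb) (u : Qb) =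
      coeffMap A.subtype (HahnSeries.single 0 u) := fun u => by
    rw [coeffMap_single, algebraMap_laurentSeries_eq_single]; rfl
  have hbser : (expToRes A N b : LaurentSeries k) ≠ 0 := fun h => hb (Subtype.ext h)
  rcases A.mem_or_inv_mem c with hcA | hcA
  · have h1 : HahnSeries.single 0 (⟨c, hcA⟩ : A) * y * (b : LaurentSeries A) =
        (a : LaurentSeries A) := hinj (by rw [map_mul, map_mul, ← hconst]; exact hser)
    have h2 := congrArg (coeffMap (IsLocalRing.residue A)) h1
    rw [map_mul, map_mul, coeffMap_single, ← coe_expToRes, ← coe_expToRes] at h2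
    have hc' : IsLocalRing.residue A ⟨c, hcA⟩ ≠ 0 := fun h0 => ha (Subtype.ext (by
      rw [← h2, h0, HahnSeries.single_eq_zero, zero_mul, zero_mul]; rfl))
    have h3 : coeffMap (IsLocalRing.residue A) y =
        algebraMap k (LaurentSeries k) (IsLocalRing.residue A ⟨c, hcA⟩)⁻¹ *
          ((expToRes A N a : LaurentSeries k) / (expToRes A N b : LaurentSeries k)) := by
      rw [← h2, map_inv₀, ← algebraMap_laurentSeries_eq_single]
      have := (map_ne_zero_iff _ (algebraMap k (LaurentSeries k)).injective).2 hc'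
      field_simp
    rw [h3]
    exact mul_mem (IntermediateField.algebraMap_mem _ _)
      (div_mem (expToRes A N a).2 (expToRes A N b).2)
  · have h1 : y * (b : LaurentSeries A) = HahnSeries.single 0 (⟨c⁻¹, hcA⟩ : A) *
        (a : LaurentSeries A) := hinj (by
      rw [map_mul, map_mul, ← hconst, ← hser, ← mul_assoc, ← mul_assoc,
        ← map_mul (algebraMap Qb (LaurentSeries Qb)),
        show ((⟨c⁻¹, hcA⟩ : A) : Qb) * c = 1 from inv_mul_cancel₀ hc, map_one, one_mul])
    by_cases hu : IsUnit (⟨c⁻¹, hcA⟩ : A)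
    · have h2 := congrArg (coeffMap (IsLocalRing.residue A)) h1
      rw [map_mul, map_mul, coeffMap_single, ← coe_expToRes, ← coe_expToRes,
        ← algebraMap_laurentSeries_eq_single] at h2
      rw [eq_div_of_mul_eq hbser h2]
      exact div_mem (mul_mem (IntermediateField.algebraMap_mem _ _) (expToRes A N a).2)
        (expToRes A N b).2
    · have h2 := congrArg (coeffMap (IsLocalRing.residue A)) h1
      rw [map_mul, map_mul, coeffMap_single,
        (IsLocalRing.residue_eq_zero_iff _).2 ((IsLocalRing.mem_maximalIdeal _).2 hu),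
        HahnSeries.single_eq_zero, zero_mul, ← coe_expToRes] at h2
      rw [(mul_eq_zero.1 h2).resolve_right hbser]
      exact zero_mem _

theorem gal_jParam (σ : GQ) :
    arithmeticGalois (modularFunctionFieldFull N) σ • jParam A N = jParam A N :=
  Subtype.ext (by rw [coe_arithmeticGalois_smul, coe_jParam]; exact coeffMap_coeffEmb σ jq)

theorem gal_mem_polesLe (n : ℕ) (σ : GQ) {f : modularFunctionFieldBar N}
    (hf : f ∈ (polesLe (jParam A N) n : Submodule Qb (modularFunctionFieldBar N))) :
    arithmeticGalois (modularFunctionFieldFull N) σ • f ∈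
      (polesLe (jParam A N) n : Submodule Qb (modularFunctionFieldBar N)) := by
  set g := arithmeticGalois (modularFunctionFieldFull N) σ
  have hC := curveData_bar N
  rcases eq_or_ne f 0 with rfl | hf0
  · rw [smul_zero]; exact zero_mem _
  rw [hC.mem_polesLe] at hf ⊢
  intro v
  have h := (hf (g⁻¹ • v)).resolve_left hf0
  have h1 := SemilinearAut.ord_smul g (g⁻¹ • v) f
  have h2 := SemilinearAut.ord_smul g (g⁻¹ • v) (jParam A N)
  rw [smul_inv_smul] at h1 h2
  rw [gal_jParam] at h2
  right
  rw [h1, h2]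
  exact h

variable (ℓ) in
theorem exists_integral_scale (hℓN : ¬ ℓ ∣ N) {f₀ : modularFunctionFieldFull N}
    (hf₀ : (aeval (jFull N) : ℚ[X] →ₐ[ℚ] modularFunctionFieldFull N).toRingHom.IsIntegralElem f₀) :
    ∃ d : ℕ, d ≠ 0 ∧ ∀ n : ℤ, (d : ℚ) * (f₀ : LaurentSeries ℚ).coeff n ∈ Rl ℓ := by
  classical
  obtain ⟨p, hp, hpf⟩ := hf₀
  have hden : ∀ q : ℚ[X], ∃ d : ℕ, d ≠ 0 ∧
      C (d : ℚ) * q ∈ lifts (GaloisRep.ratLocalizedAt ℓ).subtype := by
    intro q
    induction q using Polynomial.induction_on' with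
    | add u v hu hv =>
      obtain ⟨d, hd, hu⟩ := hu
      obtain ⟨e, he, hv⟩ := hv
      refine ⟨d * e, Nat.mul_ne_zero hd he, ?_⟩
      have hC : ∀ m : ℕ, C (m : ℚ) ∈ lifts (GaloisRep.ratLocalizedAt ℓ).subtype := fun m => by
        rw [map_natCast]; exact natCast_mem _ m
      convert add_mem (mul_mem (hC e) hu) (mul_mem (hC d) hv) using 1
      push_cast
      rw [map_mul]
      ring
    | monomial m c =>
      refine ⟨c.den, c.den_ne_zero, ?_⟩
      rw [C_mul_monomial, mul_comm, Rat.mul_den_eq_num]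
      exact ⟨monomial m (c.num : Rl ℓ), by rw [Polynomial.coe_mapRingHom, map_monomial, map_intCast]⟩
  choose d hd hdl using hden
  set D : ℕ := ∏ i ∈ Finset.range (p.natDegree + 1), d (p.coeff i) with hD
  have hD0 : D ≠ 0 := Finset.prod_ne_zero_iff.2 fun i _ => hd _
  set P := p.scaleRoots (C (D : ℚ)) with hP
  have hPl : P ∈ lifts (mapRingHom (GaloisRep.ratLocalizedAt ℓ).subtype) := by
    rw [lifts_iff_coeff_lifts]
    intro i
    rw [hP, coeff_scaleRoots]
    rcases lt_trichotomy i p.natDegree with h | rfl | h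
    · obtain ⟨m, hm⟩ : d (p.coeff i) ∣ D :=
        Finset.dvd_prod_of_mem _ (Finset.mem_range.2 (by omega))
      obtain ⟨e, he⟩ : ∃ e, p.natDegree - i = e + 1 := ⟨p.natDegree - i - 1, by omega⟩
      rw [he, pow_succ', ← mul_assoc, mul_comm (p.coeff i),
        show C (D : ℚ) = C (m : ℚ) * C ((d (p.coeff i) : ℕ) : ℚ) by
          rw [← map_mul, hm]; push_cast; rw [mul_comm], mul_assoc (C (m : ℚ))]
      exact mul_mem (s := (lifts (GaloisRep.ratLocalizedAt ℓ).subtype))
        (mul_mem (by rw [map_natCast]; exact natCast_mem _ m) (hdl _))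
        (pow_mem (mul_mem (by rw [map_natCast]; exact natCast_mem _ m)
          (by rw [map_natCast]; exact natCast_mem _ _)) _)
    · rw [Nat.sub_self, pow_zero, mul_one, hp.coeff_natDegree]
      exact ⟨1, map_one _⟩
    · rw [coeff_eq_zero_of_natDegree_lt h, zero_mul]
      exact ⟨0, map_zero _⟩
  obtain ⟨Q, hQ, -, hQm⟩ := lifts_and_natDegree_eq_and_monic hPl ((monic_scaleRoots_iff _).2 hp)
  letI := jAlgebra N ℓ
  have hint : IsIntegral (Rl ℓ)[X] ((D : modularFunctionFieldFull N) * f₀) := by
    refine ⟨Q, hQm, ?_⟩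
    have h := scaleRoots_eval₂_eq_zero (s := C (D : ℚ)) _ hpf
    rw [← hP, ← hQ, eval₂_map] at h
    have hj : jEval N ℓ = (aeval (jFull N) : ℚ[X] →ₐ[ℚ] modularFunctionFieldFull N).toRingHom.comp
        (mapRingHom (GaloisRep.ratLocalizedAt ℓ).subtype) := by
      refine Polynomial.ringHom_ext (fun a => ?_) ?_
      · show eval₂ _ _ (C a) = aeval (jFull N) ((C a).map (GaloisRep.ratLocalizedAt ℓ).subtype)
        rw [eval₂_C, Polynomial.map_C, aeval_C]
        rfl
      · show eval₂ _ _ X = aeval (jFull N) (X.map (GaloisRep.ratLocalizedAt ℓ).subtype)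
        rw [eval₂_X, Polynomial.map_X, aeval_X]
    have hD' : (D : modularFunctionFieldFull N) =
        (aeval (jFull N) : ℚ[X] →ₐ[ℚ] modularFunctionFieldFull N).toRingHom (C (D : ℚ)) := by
      rw [map_natCast, map_natCast]
    show eval₂ (jEval N ℓ) _ Q = 0
    rw [hj, hD']
    exact h
  obtain ⟨y, hy⟩ := exists_serZ_of_isIntegral N ℓ hℓN hint
  refine ⟨D, hD0, fun n => ?_⟩
  have h := congrArg (fun s : LaurentSeries ℚ => s.coeff n) hy
  rw [map_mul, map_natCast, coeffMap_coeff] at h
  have hn : ((D : LaurentSeries ℚ) * serF N f₀).coeff n = (D : ℚ) * (serF N f₀).coeff n := by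
    rw [← map_natCast (algebraMap ℚ (LaurentSeries ℚ)), algebraMap_apply_eq_single,
      HahnSeries.coeff_single_zero_mul]
  rw [hn] at h
  exact h ▸ (y.coeff n).2

variable (ℓ) in
/-- Fixed functions with poles only over `j = ∞` have bounded denominators. -/
theorem exists_coeff_bound (hℓN : ¬ ℓ ∣ N) {n : ℕ} {f : modularFunctionFieldBar N}
    (hf : f ∈ (polesLe (jParam A N) n : Submodule Qb (modularFunctionFieldBar N)))
    (hfix : ∀ σ : GQ, arithmeticGalois (modularFunctionFieldFull N) σ • f = f) :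
    ∃ d : ℕ, d ≠ 0 ∧ ∀ m : ℤ, ∃ r : Rl ℓ,
      algebraMap (Rl ℓ) Qb r = (d : Qb) * (f : LaurentSeries Qb).coeff m := by
  classical
  obtain ⟨f₀, hf₀, he⟩ := exists_coeffEmb_eq_of_fixed fun σ m =>
    congrArg (fun g : modularFunctionFieldBar N => (g : LaurentSeries Qb).coeff m) (hfix σ)
  haveI := isFF_bar_curve N
  haveI := isSeparable_jParam A N
  set x := jParam A N
  have hint : f ∈ integralClosure (Algebra.adjoin Qb ({x} : Set (modularFunctionFieldBar N))) _ :=
    (FF.mem_integralClosure_adjoin_iff (transcendental_jParam A N) f).2 fun v hv => by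
      rcases (curveData_bar N).mem_polesLe.1 hf v with h | h
      · rw [h]; exact zero_mem _
      · refine (FF.mem_iff v f).2 (Or.inr ?_)
        change 0 ≤ v.ord x at hv
        rw [max_eq_left (by omega : -v.ord x ≤ 0), mul_zero] at h
        omega
  let ι : modularFunctionFieldFull N →+* modularFunctionFieldBar N :=
    ((coeffEmb Qb).comp (modularFunctionFieldFull N).toSubfield.subtype).codRestrict
      (modularFunctionFieldBar N).toSubfield.toSubring fun z => coeffEmb_mem_laurentBaseChange Qb z.2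
  have hιx : ι (jFull N) = x := Subtype.ext (by rw [coe_jParam]; rfl)
  have hιf : ι ⟨f₀, hf₀⟩ = f := Subtype.ext he
  have hιq : ∀ q : ℚ, ι (algebraMap ℚ _ q) = algebraMap ℚ _ q := fun q =>
    RingHom.congr_fun (Subsingleton.elim (ι.comp (algebraMap ℚ _)) (algebraMap ℚ _)) q
  letI : Algebra ℚ[X] (modularFunctionFieldBar N) :=
    (ι.comp (aeval (jFull N) : ℚ[X] →ₐ[ℚ] modularFunctionFieldFull N).toRingHom).toAlgebra
  have hCq : ∀ c : Qb, IsIntegral ℚ[X] (algebraMap Qb (modularFunctionFieldBar N) c) := by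
    intro c
    obtain ⟨p, hp, hpc⟩ := ((AlgebraicClosure.isAlgebraic ℚ).isAlgebraic c).isIntegral
    refine ⟨p.map C, hp.map _, ?_⟩
    rw [eval₂_map, Subsingleton.elim ((algebraMap ℚ[X] (modularFunctionFieldBar N)).comp C)
      ((algebraMap Qb (modularFunctionFieldBar N)).comp (algebraMap ℚ Qb)), ← hom_eval₂]
    exact (congrArg _ hpc).trans (map_zero _)
  have hX : algebraMap ℚ[X] (modularFunctionFieldBar N) X = x := by
    show ι (aeval (jFull N) X) = x
    rw [aeval_X, hιx]
  have hxint : IsIntegral ℚ[X] x := hX ▸ isIntegral_algebraMap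
  set B := integralClosure ℚ[X] (modularFunctionFieldBar N)
  have hsub : ∀ z ∈ Algebra.adjoin Qb ({x} : Set (modularFunctionFieldBar N)), z ∈ B := by
    intro z hz
    induction hz using Algebra.adjoin_induction with
    | mem z hz => rw [Set.mem_singleton_iff.1 hz]; exact hxint
    | algebraMap c => exact hCq c
    | add u v _ _ hu hv => exact add_mem hu hv
    | mul u v _ _ hu hv => exact mul_mem hu hv
  have hBf : IsIntegral B f := by
    obtain ⟨p, hp, hpf⟩ := hint
    let θ : Algebra.adjoin Qb ({x} : Set (modularFunctionFieldBar N)) →+* B :=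
      (Algebra.adjoin Qb ({x} : Set (modularFunctionFieldBar N))).val.toRingHom.codRestrict
        B.toSubring fun z => hsub z z.2
    refine ⟨p.map θ, hp.map _, ?_⟩
    rw [eval₂_map]
    exact hpf
  obtain ⟨p, hp, hpf⟩ := isIntegral_trans (R := ℚ[X]) f hBf
  have hel : (aeval (jFull N) : ℚ[X] →ₐ[ℚ] modularFunctionFieldFull N).toRingHom.IsIntegralElem
      ⟨f₀, hf₀⟩ := ⟨p, hp, ι.injective (by
    rw [hom_eval₂, map_zero, hιf]
    exact hpf)⟩
  obtain ⟨d, hd, hmem⟩ := exists_integral_scale N ℓ hℓN hel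
  refine ⟨d, hd, fun m => ⟨⟨_, hmem m⟩, ?_⟩⟩
  rw [algebraMap_Rl_apply, map_mul, map_natCast, ← he, coeffEmb_coeff]

/-- A rational basis with independent reductions. -/
theorem exists_ratBasis_jParam (hA : A.LiesOverPrime ℓ) (hℓN : ¬ ℓ ∣ N) (n : ℕ) :
    ∃ (d : ℕ) (e : Fin d → modularFunctionFieldBar N), (modularGauss A N).RedIndep e ∧
      Submodule.span Qb (Set.range e) =
        (polesLe (jParam A N) n : Submodule Qb (modularFunctionFieldBar N)) ∧
      ∀ (σ : GQ) (i : Fin d), arithmeticGalois (modularFunctionFieldFull N) σ • e i = e i := by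
  classical
  set W : Submodule Qb (modularFunctionFieldBar N) := polesLe (jParam A N) n
  haveI : FiniteDimensional Qb W := (curveData_bar N).finite_L' _
  obtain ⟨d₀, idx, w, hwW, hwfix, hval, hexp⟩ := exists_fixed_dual (W := W)
    (fun σ f hf => gal_mem_polesLe N A n σ hf)
  choose D hD0 hD using fun i => exists_coeff_bound N A ℓ hℓN (hwW i) (fun σ => hwfix σ i)
  let Ψ : (Fin d₀ → Rl ℓ) →ₗ[Rl ℓ] (ℤ → Qb) :=
    LinearMap.pi fun m => ∑ i : Fin d₀,
      ((w i : LaurentSeries Qb).coeff m) • ((Algebra.linearMap (Rl ℓ) Qb).comp (LinearMap.proj i))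
  let M : Submodule (Rl ℓ) (Fin d₀ → Rl ℓ) :=
    (LinearMap.range ((Algebra.linearMap (Rl ℓ) Qb).compLeft ℤ)).comap Ψ
  obtain ⟨d, b⟩ := Submodule.basisOfPid (Pi.basisFun (Rl ℓ) (Fin d₀)) M
  let toF : (Fin d₀ → Rl ℓ) → modularFunctionFieldBar N :=
    fun q => ∑ i, algebraMap (Rl ℓ) Qb (q i) • w i
  have hΨ : ∀ q m, Ψ q m = (toF q : LaurentSeries Qb).coeff m := by
    intro q m
    show _ = coeffFn _ m (∑ i, algebraMap (Rl ℓ) Qb (q i) • w i)
    rw [map_sum, LinearMap.pi_apply, LinearMap.sum_apply]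
    refine Finset.sum_congr rfl fun i _ => ?_
    rw [map_smul, LinearMap.smul_apply, smul_eq_mul, smul_eq_mul, mul_comm]
    rfl
  have hMmem : ∀ q, q ∈ M ↔ ∀ m, ∃ r : Rl ℓ, algebraMap (Rl ℓ) Qb r = Ψ q m := by
    intro q
    simp only [M, Submodule.mem_comap, LinearMap.mem_range]
    constructor
    · rintro ⟨y, hy⟩ m
      exact ⟨y m, congrFun hy m⟩
    · intro h
      choose r hr using h
      exact ⟨r, funext hr⟩
  have hDM : ∀ i, (Pi.single i (D i : Rl ℓ) : Fin d₀ → Rl ℓ) ∈ M := fun i => by
    rw [hMmem]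
    intro m
    obtain ⟨r, hr⟩ := hD i m
    refine ⟨r, hr.trans ?_⟩
    rw [hΨ]
    show _ = coeffFn _ m (∑ j, algebraMap (Rl ℓ) Qb ((Pi.single i (D i : Rl ℓ) : Fin d₀ → Rl ℓ) j) • w j)
    rw [Finset.sum_eq_single i (fun j _ hj => by rw [Pi.single_eq_of_ne hj, map_zero, zero_smul])
      (fun h => absurd (Finset.mem_univ i) h), map_smul, Pi.single_eq_same, map_natCast,
      smul_eq_mul]
    rfl
  set e : Fin d → modularFunctionFieldBar N := fun j => toF (b j : Fin d₀ → Rl ℓ)
  have hlin : ∀ (c : Fin d → Rl ℓ),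
      toF (∑ j, c j • (b j : Fin d₀ → Rl ℓ)) = ∑ j, algebraMap (Rl ℓ) Qb (c j) • e j := by
    intro c
    simp only [toF, e, Finset.sum_apply, Pi.smul_apply, smul_eq_mul, map_sum, map_mul,
      Finset.sum_smul, Finset.smul_sum, smul_smul]
    rw [Finset.sum_comm]
  have hfix : ∀ (σ : GQ) j, arithmeticGalois (modularFunctionFieldFull N) σ • e j = e j := by
    intro σ j
    simp only [e, toF, Finset.smul_sum]
    refine Finset.sum_congr rfl fun i _ => ?_
    rw [Algebra.smul_def, smul_mul', SemilinearAut.smul_algebraMap, hwfix σ i]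
    congr 2
    exact σ.commutes _
  choose y hy using fun j => (hMmem _).1 (b j).2
  let yA : Fin d → ℤ → A := fun j m => ⟨algebraMap (Rl ℓ) Qb (y j m), algebraMap_Rl_mem hA _⟩
  have hsup : ∀ j m, (yA j m : Qb) = (e j : LaurentSeries Qb).coeff m := fun j m =>
    (hy j m).trans (hΨ _ m)
  let Y : Fin d → LaurentSeries A := fun j =>
    { coeff := yA j
      isPWO_support' := (e j : LaurentSeries Qb).isPWO_support.mono fun m hm h0 => hm
        (Subtype.ext ((hsup j m).trans h0)) }
  have hY : ∀ j, coeffMap A.subtype (Y j) = (e j : LaurentSeries Qb) := fun j =>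
    HahnSeries.ext (funext fun m => hsup j m)
  have hg := fun j => gauss_of_coeff N A hA hℓN (hY j)
  refine ⟨d, e, ⟨fun j => (hg j).1, ?_⟩, ?_, hfix⟩
  · rw [Fintype.linearIndependent_iff]
    intro c hc
    by_contra hne
    push Not at hne
    obtain ⟨j₀, hj₀⟩ := hne
    letI : Algebra (ZMod ℓ) k := by
      haveI := GalCommon.charP_residueField (Fact.out : ℓ.Prime) hA
      exact ZMod.algebra _ ℓ
    obtain ⟨φ, hφ⟩ : ∃ φ : k →ₗ[ZMod ℓ] ZMod ℓ, φ (c j₀) = 1 := by
      obtain ⟨φ, hφ⟩ := LinearMap.exists_leftInverse_of_injective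
        (LinearMap.toSpanSingleton (ZMod ℓ) k (c j₀))
        (LinearMap.ker_toSpanSingleton _ hj₀)
      exact ⟨φ, by simpa using LinearMap.congr_fun hφ 1⟩
    let nv : Fin d → ℤ := fun j => ((φ (c j)).val : ℤ)
    have hres : ∀ m, ∑ j, c j * IsLocalRing.residue A (yA j m) = 0 := by
      intro m
      have h := congrArg (fun z : modularFunctionFieldFullC k N => (z : LaurentSeries k).coeff m) hc
      rw [ZeroMemClass.coe_zero, HahnSeries.coeff_zero] at h
      rw [← h]
      simp only [AddSubmonoidClass.coe_finsetSum, HahnSeries.coeff_sum]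
      refine Finset.sum_congr rfl fun j _ => ?_
      rw [Algebra.smul_def, MulMemClass.coe_mul,
        show ((algebraMap k (modularFunctionFieldFullC k N) (c j) : _) : LaurentSeries k) =
          algebraMap k (LaurentSeries k) (c j) from rfl,
        algebraMap_laurentSeries_eq_single, HahnSeries.coeff_single_zero_mul, (hg j).2]
      rfl
    have hdvd : ∀ m, ¬ IsUnit (∑ j, (nv j : Rl ℓ) * y j m) := by
      intro m hu
      have hA' : IsLocalRing.residue A (∑ j, (nv j : A) * yA j m) = 0 := by
        have hint : ∀ j, ∃ z : ZMod ℓ, algebraMap (ZMod ℓ) k z = IsLocalRing.residue A (yA j m) := by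
          intro j
          haveI := GalCommon.charP_residueField (Fact.out : ℓ.Prime) hA
          have hden : ((((y j m : ℚ).den : ℕ)) : k) ≠ 0 := by
            rw [Ne, CharP.cast_eq_zero_iff k ℓ]
            exact fun h => (Fact.out : ℓ.Prime).ne_one
              (Nat.Coprime.eq_one_of_dvd (Nat.Coprime.symm (y j m).2) h)
          refine ⟨((y j m : ℚ).num : ZMod ℓ) / (((y j m : ℚ).den : ℕ) : ZMod ℓ), ?_⟩
          rw [map_div₀, map_intCast, map_natCast, div_eq_iff hden,
            ← map_natCast (IsLocalRing.residue A), ← map_mul, ← map_intCast (IsLocalRing.residue A)]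
          congr 1
          apply Subtype.ext
          show _ = algebraMap ℚ Qb (y j m : ℚ) * _
          push_cast
          rw [← map_natCast (algebraMap ℚ Qb), ← map_intCast (algebraMap ℚ Qb), ← map_mul,
            Rat.mul_den_eq_num]
        choose z hz using hint
        have h0 : φ (∑ j, c j * IsLocalRing.residue A (yA j m)) = 0 := by rw [hres m, map_zero]
        rw [map_sum] at h0
        rw [map_sum]
        simp only [← hz] at h0
        simp only [map_mul, map_intCast, ← hz]
        have h1 : ∑ j, φ (c j) * z j = 0 := by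
          rw [← h0]
          refine Finset.sum_congr rfl fun j _ => ?_
          rw [mul_comm (c j), ← Algebra.smul_def, map_smul, smul_eq_mul, mul_comm]
        rw [← map_zero (algebraMap (ZMod ℓ) k), ← h1, map_sum]
        refine Finset.sum_congr rfl fun j _ => ?_
        simp only [nv, map_mul, Int.cast_natCast]
        rw [← map_natCast (algebraMap (ZMod ℓ) k), ZMod.natCast_val, ZMod.cast_id]
      obtain ⟨u, hu'⟩ := hu.exists_right_inv
      have h1 := congrArg (algebraMap (Rl ℓ) Qb) hu'
      rw [map_mul, map_one] at h1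
      refine (IsLocalRing.mem_maximalIdeal _).1 ((IsLocalRing.residue_eq_zero_iff _).1 hA') ?_
      refine IsUnit.of_mul_eq_one (⟨algebraMap (Rl ℓ) Qb u, algebraMap_Rl_mem hA u⟩ : A) (Subtype.ext ?_)
      push_cast
      simpa [yA] using h1
    choose q hq using fun m => dvd_of_not_isUnit_Rl (hdvd m)
    have hℓ0 : (ℓ : Qb) ≠ 0 := Nat.cast_ne_zero.2 (Fact.out : ℓ.Prime).ne_zero
    -- the combination divided by ℓ
    set qv : Fin d₀ → Rl ℓ := ∑ j, (nv j : Rl ℓ) • (b j : Fin d₀ → Rl ℓ) with hqv
    have hcoef : ∀ m, (toF qv : LaurentSeries Qb).coeff m =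
        (ℓ : Qb) * algebraMap (Rl ℓ) Qb (q m) := by
      intro m
      rw [← map_natCast (algebraMap (Rl ℓ) Qb), ← map_mul, ← hq m, hqv, hlin]
      show coeffFn _ m _ = _
      rw [map_sum, map_sum]
      refine Finset.sum_congr rfl fun j _ => ?_
      rw [map_smul, smul_eq_mul, map_mul, coeffFn_apply, ← hsup]
    have hqvi : ∀ i, algebraMap (Rl ℓ) Qb (qv i) = (toF qv : LaurentSeries Qb).coeff (idx i) := by
      intro i
      show _ = coeffFn _ (idx i) (∑ j, algebraMap (Rl ℓ) Qb (qv j) • w j)
      rw [map_sum, Finset.sum_eq_single i]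
      · simp [hval]
      · intro j _ hj; simp [hval, hj]
      · simp
    have hmemq : (fun i => q (idx i)) ∈ M := by
      rw [hMmem]
      intro m
      refine ⟨q m, mul_left_cancel₀ hℓ0 ?_⟩
      rw [← hcoef, hΨ]
      have heq : ∀ i, algebraMap (Rl ℓ) Qb (qv i) • w i =
          (ℓ : Qb) • (algebraMap (Rl ℓ) Qb (q (idx i)) • w i) := fun i => by
        rw [smul_smul, hqvi, hcoef]
      show coeffFn _ m (∑ i, _) = (ℓ : Qb) * coeffFn _ m (∑ i, _)
      rw [Finset.sum_congr rfl fun i _ => heq i, ← Finset.smul_sum, map_smul, smul_eq_mul]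
    have hqdiv : qv = (ℓ : Rl ℓ) • fun i => q (idx i) := funext fun i => by
      refine algebraMap_Rl_injective ?_
      rw [hqvi, hcoef, Pi.smul_apply, smul_eq_mul, map_mul, map_natCast]
    have hbeq : (⟨qv, hqdiv ▸ M.smul_mem _ hmemq⟩ : M) = (ℓ : Rl ℓ) • ⟨_, hmemq⟩ :=
      Subtype.ext hqdiv
    have hcoord := congrArg (fun v => b.repr v j₀) hbeq
    have hrepr : b.repr (⟨qv, hqdiv ▸ M.smul_mem _ hmemq⟩ : M) j₀ = (nv j₀ : Rl ℓ) := by
      have : (⟨qv, hqdiv ▸ M.smul_mem _ hmemq⟩ : M) = ∑ j, (nv j : Rl ℓ) • b j :=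
        Subtype.ext (by simp [hqv])
      rw [this, b.repr_sum_self]
    simp only [map_smul, Finsupp.smul_apply, smul_eq_mul] at hcoord
    rw [hrepr] at hcoord
    haveI : Fact (1 < ℓ) := ⟨(Fact.out : ℓ.Prime).one_lt⟩
    have h1 : nv j₀ = 1 := by
      show ((φ (c j₀)).val : ℤ) = 1
      rw [hφ, ZMod.val_one, Nat.cast_one]
    rw [h1, Int.cast_one] at hcoord
    exact natCast_not_isUnit_Rl (IsUnit.of_mul_eq_one _ hcoord.symm)
  · refine le_antisymm (Submodule.span_le.2 ?_) fun f hf => ?_
    · rintro _ ⟨j, rfl⟩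
      exact W.sum_mem fun i _ => W.smul_mem _ (hwW i)
    · rw [hexp f hf]
      refine Submodule.sum_mem _ fun i _ => Submodule.smul_mem _ _ ?_
      have hrep := b.sum_repr ⟨_, hDM i⟩
      have h := congrArg (fun v : M => toF (v : Fin d₀ → Rl ℓ)) hrep
      simp only [AddSubmonoidClass.coe_finsetSum, SetLike.val_smul] at h
      rw [hlin] at h
      have hDi : toF (Pi.single i (D i : Rl ℓ)) = (D i : Qb) • w i := by
        simp only [toF]
        rw [Finset.sum_eq_single i (fun j _ hj => by rw [Pi.single_eq_of_ne hj, map_zero, zero_smul])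
          (fun h => absurd (Finset.mem_univ i) h), Pi.single_eq_same, map_natCast]
      rw [hDi] at h
      rw [show w i = ((D i : Qb))⁻¹ • ((D i : Qb) • w i) by
        rw [smul_smul, inv_mul_cancel₀ (Nat.cast_ne_zero.2 (hD0 i)), one_smul], ← h]
      exact Submodule.smul_mem _ _ (Submodule.sum_mem _ fun j _ =>
        Submodule.smul_mem _ _ (Submodule.subset_span ⟨j, rfl⟩))

end FLTAgent.FlatJ
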