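/-
The set-up for `X₀(N)` at a prime not dividing the level, and finite flat models of finite Galois
modules mapping to `J₀(N)`.
-/
import Fermat.Agent.FlatJ.Model
import Fermat.Agent.FlatJ.RatBasis
import Fermat.Agent.Reduction.GaussGenusAll
import Fermat.Agent.FF.Differentials

/-!
`modularSetup`: `X₀(N)` with the parameter `j`, its Galois action and its reduction at a place
over `ℓ ∤ N` form a `Setup`. `isPrincipal_of_reductionModL_eq` translates equality under
`reductionModL` into equivalence of reduced divisors, giving `hasModelRed_jZero`;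
`HasModelRed.of_addEquiv` transports models along equivariant bijections.
-/

set_option autoImplicit false
set_option linter.style.haveILetI false
set_option linter.unusedSectionVars false
set_option synthInstance.maxHeartbeats 400000
set_option maxHeartbeats 1000000

noncomputable section

open ModularCurve AlgebraicCurve

namespace FLTAgent.FlatJ

open FLTAgent.Reduction

variable (N : ℕ) [NeZero N] (A : ValuationSubring Qb) {ℓ : ℕ} [Fact ℓ.Prime]

local notation "k" => IsLocalRing.ResidueField A

include ℓ in
theorem finite_ram_jParam (hA : A.LiesOverPrime ℓ) (hℓN : ¬ ℓ ∣ N) :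
    {Q : Place k (modularFunctionFieldFullC k N) |
      ∃ c : k, 2 ≤ Q.ord ((modularGauss A N).red (jParam A N) -
        algebraMap k (modularFunctionFieldFullC k N) c)}.Finite := by
  haveI := isFF_fullC_residue N A hA hℓN
  haveI := GalCommon.isAlgClosed_residueField A (Fact.out : ℓ.Prime) hA
  have hsep : FF.IsSep k (jF N k) := ⟨transcendental_jF N k,
    finiteDimensional_jF (zetaToResidue N A hA hℓN), isSeparable_fullC_residue N A hA hℓN⟩
  refine (FF.finite_ordDifferential_D_ne_zero hsep).subset ?_
  rintro Q ⟨c, hc⟩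
  rw [red_jParam] at hc
  have hD : KaehlerDifferential.D k (modularFunctionFieldFullC k N)
      (jF N k - algebraMap k (modularFunctionFieldFullC k N) c) =
      KaehlerDifferential.D k (modularFunctionFieldFullC k N) (jF N k) := by
    rw [map_sub, Derivation.map_algebraMap, sub_zero]
  have h := FF.ord_sub_one_le_ordDifferential_D Q
    (f := jF N k - algebraMap k (modularFunctionFieldFullC k N) c)
    (hD ▸ FF.D_ne_zero_of_isSep hsep)
  rw [hD] at h
  intro h0
  exact absurd ((le_sub_iff_add_le.2 (show (1 : ℤ) + 1 ≤ _ from hc)).trans (h.trans h0.le))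
    (by norm_num)

/-- The curve `X₀(N)` with its Galois action and its reduction at `A`. -/
def modularSetup (hA : A.LiesOverPrime ℓ) (hℓN : ¬ ℓ ∣ N) :
    Setup ℓ (modularFunctionFieldBar N) k (modularFunctionFieldFullC k N) A
      (IsLocalRing.residue A) where
  hA := hA
  G := modularGauss A N
  g := genusFF Qb (modularFunctionFieldBar N)
  x := jParam A N
  hx := goodParam_of_genus A N hA hℓN (genusFF_fullC_eq N A hA hℓN)
  genus_eq := rfl
  genusBar_eq := genusFF_fullC_eq N A hA hℓN
  gal := arithmeticGalois (modularFunctionFieldFull N)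
  gal_base σ a := by rw [baseAut_arithmeticGalois]; rfl
  gal_x := gal_jParam N A
  rat n _ := exists_ratBasis_jParam N A hA hℓN n
  finite_ram := finite_ram_jParam N A hA hℓN

include ℓ in
/-- Classes with equal reduction have equivalent reduced divisors. -/
theorem isPrincipal_of_reductionModL_eq [IsAlgClosed k]
    [FF.IsFF k (modularFunctionFieldFullC k N)] [FF.IsFF Qb (modularFunctionFieldBar N)]
    (hA : A.LiesOverPrime ℓ) (hℓN : ¬ ℓ ∣ N)
    {D D' : Divisor.degZero (K := Qb) (F := modularFunctionFieldBar N)}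
    (h : reductionModL A N (Pic0.mk D) = reductionModL A N (Pic0.mk D')) :
    Divisor.IsPrincipal (Finsupp.mapDomain (modularSetup N A hA hℓN).r
      ((D : Divisor Qb (modularFunctionFieldBar N)) - (D' : Divisor Qb (modularFunctionFieldBar N)))) := by
  have hin := reductionInputsModL N hℓN A hA
  have hr : (modularSetup N A hA hℓN).r = placeReductionModL hin :=
    (modularSetup N A hA hℓN).isRed.unique
      (isRed_of_isPlaceReductionModL N A hA hℓN (isPlaceReductionModL_placeReductionModL hin))
  rw [hr]
  rw [reductionModL_mk hin, reductionModL_mk hin] at h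
  have h' := (QuotientAddGroup.eq_iff_sub_mem.1 h)
  rw [AddSubgroup.mem_addSubgroupOf, AddSubgroupClass.coe_sub, coe_reductionDegZeroAlong,
    coe_reductionDegZeroAlong, ← Finsupp.mapDomain_sub] at h'
  exact h'

/-- A finite Galois module mapping to `J₀(N)` as in `exists_modelRed_jZero` has a model. -/
theorem hasModelRed_jZero (hA : A.LiesOverPrime ℓ) (hℓN : ¬ ℓ ∣ N)
    {G : Type} [AddCommGroup G] [Finite G] [DistribMulAction GQ G]
    {L : Type*} [AddCommGroup L] [Finite L] (ι : G → JZero N) (lab : G →+ L)
    (hι : ∀ (σ : GQ) (g : G), ι (σ • g) = σ • ι g)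
    (hlab : ∀ (σ : GQ) (g : G), lab (σ • g) = lab g)
    (hinj : Function.Injective fun g => (ι g, lab g))
    (c : L → L → JZero N) (hc : ∀ (σ : GQ) (i j : L), σ • c i j = c i j)
    (hadd : ∀ g h : G, ι (g + h) = ι g + ι h + c (lab g) (lab h)) :
    HasModelRed ℓ G A
      (fun g h => lab g = lab h ∧ reductionModL A N (ι g) = reductionModL A N (ι h)) := by
  haveI := isFF_bar_curve N
  haveI := isFF_fullC_residue N A hA hℓN
  haveI := GalCommon.isAlgClosed_residueField A (Fact.out : ℓ.Prime) hA
  obtain ⟨H, i1, i2, h1, h2, h3, e, h4, h5, h6⟩ :=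
    (modularSetup N A hA hℓN).hasModelRed_of_map ι lab hι hlab hinj c hc hadd
  exact ⟨H, i1, i2, h1, h2, h3, e, h4, h5, fun f g hfg => h6 f g
    ⟨hfg.1, isPrincipal_of_reductionModL_eq N A hA hℓN
      (D := ⟨Setup.rep (ι (e f)), Setup.degree_rep _⟩) (D' := ⟨Setup.rep (ι (e g)), Setup.degree_rep _⟩)
      (by rw [Setup.mk_rep, Setup.mk_rep]; exact hfg.2)⟩⟩

/-- Transport of models along equivariant bijections. -/
theorem HasModelRed.of_addEquiv {ℓ : ℕ} {G G' : Type*} [AddCommGroup G] [DistribMulAction GQ G]
    [AddCommGroup G'] [DistribMulAction GQ G'] {A : ValuationSubring Qb} {R : G → G → Prop}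
    {R' : G' → G' → Prop} (φ : G' ≃+ G) (hφ : ∀ (σ : GQ) x, φ (σ • x) = σ • φ x)
    (hR : ∀ x y, R (φ x) (φ y) → R' x y) (h : HasModelRed ℓ G' A R') : HasModelRed ℓ G A R := by
  obtain ⟨H, i1, i2, h1, h2, h3, e, h4, h5, h6⟩ := h
  refine ⟨H, i1, i2, h1, h2, h3, e.trans φ.toEquiv, fun f g => ?_, fun σ f g hfg => ?_,
    fun f g hfg => h6 f g (hR _ _ hfg)⟩
  · show φ (e (f * g)) = φ (e f) + φ (e g)
    rw [h4, map_add]
  · show φ (e g) = σ • φ (e f)
    rw [h5 σ f g hfg, hφ]

end FLTAgent.FlatJ
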