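/-
Finite flat models of finite Galois modules mapping to `J₀(N)` (generalised S19): public statements.
-/
import Fermat.Agent.FlatJ.Modular
import Fermat.Prelude.Def_ModularCurve_ArithmeticGalois
import Fermat.Prelude.Def_ModularCurve_ReductionModL
import Fermat.Prelude.Def_EllipticCurve_FrobeniusTrace

/-!
The results of this directory: for `ℓ ∤ N`, a finite Galois module with a suitable map to
`J₀(N)` has a finite flat model over `ℤ_(ℓ)` compatible with reduction at a place over `ℓ`
(`exists_modelRed_jZero`); in particular every finite Galois submodule of `J₀(N)` has a finite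
flat model (`hasModel_of_injective`). Both reduce to `hasModelRed_jZero` on a small carrier.
-/

set_option autoImplicit false

noncomputable section

open ModularCurve

namespace FLTAgent.FlatJ

/-- A finite Galois module `G` with an equivariant `ι : G → J₀(N)` and a Galois invariant label
`lab : G → ℤ/n`, jointly injective, `ι` being additive up to rational points, has a finite flat
model in which equal label and equal reduction of `ι` give congruent points. -/
theorem exists_modelRed_jZero (N : ℕ) [NeZero N] (ℓ : ℕ) [Fact ℓ.Prime] (hℓN : ¬ ℓ ∣ N)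
    (A : ValuationSubring Qb) (hA : A.LiesOverPrime ℓ)
    {G : Type*} [AddCommGroup G] [Finite G] [DistribMulAction GQ G]
    (n : ℕ) [NeZero n] (ι : G → JZero N) (lab : G →+ ZMod n)
    (hι : ∀ (σ : GQ) (g : G), ι (σ • g) = σ • ι g)
    (hlab : ∀ (σ : GQ) (g : G), lab (σ • g) = lab g)
    (hinj : Function.Injective fun g => (ι g, lab g))
    (c : ZMod n → ZMod n → JZero N) (hc : ∀ (σ : GQ) (i j : ZMod n), σ • c i j = c i j)
    (hadd : ∀ g h : G, ι (g + h) = ι g + ι h + c (lab g) (lab h)) :
    HasModelRed ℓ G A
      (fun g h => lab g = lab h ∧ reductionModL A N (ι g) = reductionModL A N (ι h)) := by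
  let : DistribMulAction GQ (Shrink.{0} G) :=
    { smul := fun σ x => equivShrink.{0} G (σ • (equivShrink.{0} G).symm x)
      one_smul := fun x => by
        show equivShrink.{0} G ((1 : GQ) • (equivShrink.{0} G).symm x) = x
        rw [one_smul, Equiv.apply_symm_apply]
      mul_smul := fun σ τ x => by
        show equivShrink.{0} G ((σ * τ) • (equivShrink.{0} G).symm x) =
          equivShrink.{0} G (σ • (equivShrink.{0} G).symm (equivShrink.{0} G (τ • (equivShrink.{0} G).symm x)))
        rw [mul_smul, Equiv.symm_apply_apply]
      smul_zero := fun σ => by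
        show equivShrink.{0} G (σ • (equivShrink.{0} G).symm 0) = 0
        simp
        rfl
      smul_add := fun σ x y => by
        show equivShrink.{0} G (σ • (equivShrink.{0} G).symm (x + y)) =
          equivShrink.{0} G (σ • (equivShrink.{0} G).symm x) + equivShrink.{0} G (σ • (equivShrink.{0} G).symm y)
        simp }
  set φ : Shrink.{0} G ≃+ G := Shrink.addEquiv
  have hφ : ∀ (σ : GQ) x, φ (σ • x) = σ • φ x := fun σ x => (equivShrink.{0} G).symm_apply_apply _
  have : Finite (Shrink.{0} G) := Finite.of_equiv G (equivShrink.{0} G)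
  refine HasModelRed.of_addEquiv φ hφ (fun x y h => h)
    (hasModelRed_jZero N A hA hℓN (fun x => ι (φ x)) (lab.comp φ.toAddMonoidHom)
      (fun σ x => by rw [hφ, hι]) (fun σ x => (congrArg lab (hφ σ x)).trans (hlab σ _))
      (hinj.comp φ.injective) c hc (fun x y => by rw [map_add, hadd]; rfl))

/-- Finite Galois modules embedded in `J₀(N)` have finite flat models. -/
theorem hasModel_of_injective (N : ℕ) [NeZero N] (ℓ : ℕ) [Fact ℓ.Prime] (hℓN : ¬ ℓ ∣ N)
    {G : Type*} [AddCommGroup G] [Finite G] [DistribMulAction GQ G]
    (ι : G →+ JZero N) (hι : ∀ (σ : GQ) (g : G), ι (σ • g) = σ • ι g)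
    (hinj : Function.Injective ι) : HasModel ℓ G := by
  obtain ⟨A, hA⟩ := GalCommon.exists_liesOverPrime (Fact.out : ℓ.Prime)
  exact (exists_modelRed_jZero N ℓ hℓN A hA 1 ι 0 hι (fun _ _ => rfl)
    (fun g h he => hinj (congrArg Prod.fst he)) (fun _ _ => (0 : JZero N)) (fun σ _ _ => smul_zero (A := JZero N) σ)
    (fun g h => by rw [map_add, add_zero])).hasModel

end FLTAgent.FlatJ
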